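/-
S36 block [R2], glue infrastructure: the semi-local ring over a point of the lower level.

`R1 ⊆ R2` are two charts (domains with fraction fields `F1 ⊆ F2`, `R2` integral over `R1`), `𝔫` a
prime of `R1`.  `semiLoc 𝔫 ⊆ F2` is `R2` localised at `R1 ∖ 𝔫` (the integral closure of
`R_y = locAt 𝔫` in `F2`):
* it is an algebra over `locAt 𝔫`, integral, faithful; noetherian / integrally closed when `R2` is;
* `locAt 𝔫' ≥ semiLoc 𝔫` for every prime `𝔫'` of `R2` over `𝔫`, with EQUALITY when `semiLoc 𝔫` is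
  local and `𝔫'` maximal (`locAt_eq_semiLoc`); then `𝔫'` is the only maximal ideal over `𝔫`
  (`eq_of_isLocalRing`) and contains every prime of `R2` whose contraction lies in `𝔫`
  (`le_of_under_le`).
-/
import Mathlib
import Fermat.Agent.P3G.Krull

set_option autoImplicit false
set_option linter.unusedSectionVars false
set_option linter.style.haveILetI false

namespace Fermat.Agent.S36.R2.SemiLocal

open Fermat.Agent.N4.Cover.Globalize Fermat.Agent.P3G.Krull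

variable {R1 R2 F1 F2 : Type*} [CommRing R1] [IsDomain R1] [CommRing R2] [IsDomain R2]
  [Field F1] [Field F2] [Algebra R1 F1] [IsFractionRing R1 F1] [Algebra R2 F2] [IsFractionRing R2 F2]
  [Algebra R1 R2] [Algebra F1 F2] [Algebra R1 F2] [IsScalarTower R1 R2 F2] [IsScalarTower R1 F1 F2]

section Basic

variable (R1 F1 F2) in
include F1 in
theorem algebraMap_R1_F2_injective : Function.Injective (algebraMap R1 F2) := by
  rw [IsScalarTower.algebraMap_eq R1 F1 F2]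
  exact (algebraMap F1 F2).injective.comp (IsFractionRing.injective R1 F1)

variable (R1 R2 F1 F2) in
include F1 F2 in
theorem algebraMap_R1_R2_injective : Function.Injective (algebraMap R1 R2) := by
  have h := algebraMap_R1_F2_injective R1 F1 F2
  rw [IsScalarTower.algebraMap_eq R1 R2 F2] at h
  exact Function.Injective.of_comp h

variable (R1 R2 F1 F2) in
include F1 F2 in
theorem faithfulSMul_R1_R2 : FaithfulSMul R1 R2 :=
  (faithfulSMul_iff_algebraMap_injective R1 R2).2 (algebraMap_R1_R2_injective R1 R2 F1 F2)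

variable (𝔫 : Ideal R1) [𝔫.IsPrime]

variable (R2 F1 F2) in
include F1 F2 in
theorem algebraMapSubmonoid_le :
    Algebra.algebraMapSubmonoid R2 𝔫.primeCompl ≤ nonZeroDivisors R2 := by
  rintro _ ⟨s, hs, rfl⟩
  apply mem_nonZeroDivisors_of_ne_zero
  intro h0
  have : s = 0 := algebraMap_R1_R2_injective R1 R2 F1 F2 (by rw [h0, map_zero])
  exact hs (this ▸ 𝔫.zero_mem)

variable (R2 F1 F2) in
/-- `R2` localised at `R1 ∖ 𝔫`, as a subalgebra of `F2`. -/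
noncomputable abbrev semiLoc : Subalgebra R2 F2 :=
  Localization.subalgebra.ofField F2 (Algebra.algebraMapSubmonoid R2 𝔫.primeCompl)
    (algebraMapSubmonoid_le R2 F1 F2 𝔫)

include F1 in
theorem algebraMap_R1_F2_ne_zero {s : R1} (hs : s ∉ 𝔫) : algebraMap R1 F2 s ≠ 0 := by
  intro h0
  have : s = 0 := algebraMap_R1_F2_injective R1 F1 F2 (by rw [h0, map_zero])
  exact hs (this ▸ 𝔫.zero_mem)

theorem mem_semiLoc_iff (x : F2) :
    x ∈ semiLoc R2 F1 F2 𝔫 ↔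
      ∃ (b : R2) (s : R1), s ∉ 𝔫 ∧ x * algebraMap R1 F2 s = algebraMap R2 F2 b := by
  constructor
  · rintro ⟨b, _, ⟨s, hs, rfl⟩, rfl⟩
    refine ⟨b, s, hs, ?_⟩
    rw [← IsScalarTower.algebraMap_apply R1 R2 F2]
    have := algebraMap_R1_F2_ne_zero (F1 := F1) (F2 := F2) 𝔫 hs
    field_simp
  · rintro ⟨b, s, hs, h⟩
    refine ⟨b, algebraMap R1 R2 s, ⟨s, hs, rfl⟩, ?_⟩
    rw [← IsScalarTower.algebraMap_apply R1 R2 F2, ← h]
    have := algebraMap_R1_F2_ne_zero (F1 := F1) (F2 := F2) 𝔫 hs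
    field_simp

theorem algebraMap_mem_semiLoc {x : F1} (hx : x ∈ locAt (F := F1) 𝔫) :
    algebraMap F1 F2 x ∈ semiLoc R2 F1 F2 𝔫 := by
  obtain ⟨a, s, hs, hxs⟩ := (mem_locAt_iff 𝔫 x).1 hx
  rw [mem_semiLoc_iff]
  refine ⟨algebraMap R1 R2 a, s, hs, ?_⟩
  rw [IsScalarTower.algebraMap_apply R1 F1 F2, ← map_mul, hxs,
    ← IsScalarTower.algebraMap_apply R1 F1 F2, IsScalarTower.algebraMap_apply R1 R2 F2]

variable (R2 F2) in
/-- The structure map `R_y = locAt 𝔫 → semiLoc 𝔫`. -/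
noncomputable def toSemiLoc : ↥(locAt (F := F1) 𝔫) →+* ↥(semiLoc R2 F1 F2 𝔫) :=
  ((algebraMap F1 F2).comp (locAt (F := F1) 𝔫).val.toRingHom).codRestrict
    (semiLoc R2 F1 F2 𝔫).toSubring (fun x => algebraMap_mem_semiLoc 𝔫 x.2)

@[simp] theorem coe_toSemiLoc (x : ↥(locAt (F := F1) 𝔫)) :
    ((toSemiLoc R2 F2 𝔫 x : ↥(semiLoc R2 F1 F2 𝔫)) : F2) = algebraMap F1 F2 (x : F1) := rfl

noncomputable instance instAlgebraSemiLoc :
    Algebra ↥(locAt (F := F1) 𝔫) ↥(semiLoc R2 F1 F2 𝔫) := (toSemiLoc R2 F2 𝔫).toAlgebra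

theorem coe_algebraMap_semiLoc (x : ↥(locAt (F := F1) 𝔫)) :
    ((algebraMap ↥(locAt (F := F1) 𝔫) ↥(semiLoc R2 F1 F2 𝔫) x : ↥(semiLoc R2 F1 F2 𝔫)) : F2) =
      algebraMap F1 F2 (x : F1) := rfl

instance instFaithfulSMulSemiLoc :
    FaithfulSMul ↥(locAt (F := F1) 𝔫) ↥(semiLoc R2 F1 F2 𝔫) := by
  rw [faithfulSMul_iff_algebraMap_injective]
  intro x y hxy
  have h1 := congrArg Subtype.val hxy
  rw [coe_algebraMap_semiLoc, coe_algebraMap_semiLoc] at h1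
  exact Subtype.ext ((algebraMap F1 F2).injective h1)

instance instIsScalarTowerSemiLoc :
    IsScalarTower R1 ↥(locAt (F := F1) 𝔫) ↥(semiLoc R2 F1 F2 𝔫) :=
  IsScalarTower.of_algebraMap_eq fun r => by
    apply Subtype.ext
    rw [coe_algebraMap_semiLoc]
    show algebraMap R1 F2 r = algebraMap F1 F2 (algebraMap R1 F1 r)
    rw [← IsScalarTower.algebraMap_apply R1 F1 F2]

/-- `semiLoc 𝔫` is integral over `R_y = locAt 𝔫`. -/
instance instIsIntegralSemiLoc [Algebra.IsIntegral R1 R2] :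
    Algebra.IsIntegral ↥(locAt (F := F1) 𝔫) ↥(semiLoc R2 F1 F2 𝔫) := by
  constructor
  intro y
  obtain ⟨b, s, hs, hys⟩ := (mem_semiLoc_iff 𝔫 (y : F2)).1 y.2
  have hsF1 : algebraMap R1 F1 s ≠ 0 := algebraMap_ne_zero_of_notMem 𝔫 hs
  have hsF2 : algebraMap R1 F2 s ≠ 0 := algebraMap_R1_F2_ne_zero (F1 := F1) 𝔫 hs
  -- `y = b * (1 / s)`
  set t : ↥(locAt (F := F1) 𝔫) := ⟨(algebraMap R1 F1 s)⁻¹, inv_mem_locAt 𝔫 hs⟩ with ht
  have hy : y = algebraMap R2 ↥(semiLoc R2 F1 F2 𝔫) b *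
      algebraMap ↥(locAt (F := F1) 𝔫) ↥(semiLoc R2 F1 F2 𝔫) t := by
    apply Subtype.ext
    rw [MulMemClass.coe_mul, coe_algebraMap_semiLoc]
    show (y : F2) = algebraMap R2 F2 b * algebraMap F1 F2 (algebraMap R1 F1 s)⁻¹
    rw [map_inv₀, ← IsScalarTower.algebraMap_apply R1 F1 F2, ← hys]
    field_simp
  rw [hy]
  refine IsIntegral.mul ?_ isIntegral_algebraMap
  have hb : IsIntegral R1 b := Algebra.IsIntegral.isIntegral b
  have hb' : IsIntegral R1 (algebraMap R2 ↥(semiLoc R2 F1 F2 𝔫) b) := hb.algebraMap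
  exact hb'.tower_top

instance instIsNoetherianRingSemiLoc [IsNoetherianRing R2] :
    IsNoetherianRing ↥(semiLoc R2 F1 F2 𝔫) :=
  IsLocalization.isNoetherianRing (Algebra.algebraMapSubmonoid R2 𝔫.primeCompl) _ inferInstance

instance instIsIntegrallyClosedSemiLoc [IsIntegrallyClosed R2] :
    IsIntegrallyClosed ↥(semiLoc R2 F1 F2 𝔫) :=
  isIntegrallyClosed_of_isLocalization _ (Algebra.algebraMapSubmonoid R2 𝔫.primeCompl)
    (algebraMapSubmonoid_le R2 F1 F2 𝔫)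

end Basic

section OnePoint

variable (𝔫 : Ideal R1) [𝔫.IsPrime] (𝔫' : Ideal R2) [𝔫'.IsPrime]

/-- `semiLoc 𝔫 ⊆ locAt 𝔫'` for a prime `𝔫'` of `R2` over (or inside) `𝔫`. -/
theorem semiLoc_le_locAt (hle : 𝔫'.under R1 ≤ 𝔫) :
    semiLoc R2 F1 F2 𝔫 ≤ locAt (F := F2) 𝔫' := by
  intro x hx
  obtain ⟨b, s, hs, hxs⟩ := (mem_semiLoc_iff 𝔫 x).1 hx
  rw [mem_locAt_iff]
  refine ⟨b, algebraMap R1 R2 s, fun hmem => hs (hle hmem), ?_⟩
  rw [← IsScalarTower.algebraMap_apply R1 R2 F2]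
  exact hxs

/-- A prime `P` of `R2` whose contraction lies in `𝔫` generates a proper ideal of `semiLoc 𝔫`:
no element of `R2 ∖ P`... more precisely `s r ∈ P`, `s ∈ R1 ∖ 𝔫` implies `r ∈ P`. -/
theorem mem_of_mul_mem {P : Ideal R2} [P.IsPrime] (hP : P.under R1 ≤ 𝔫) {s : R1} (hs : s ∉ 𝔫)
    {r : R2} (h : algebraMap R1 R2 s * r ∈ P) : r ∈ P :=
  (Ideal.IsPrime.mem_or_mem ‹_› h).resolve_left (fun hmem => hs (hP hmem))

variable [hloc : IsLocalRing ↥(semiLoc R2 F1 F2 𝔫)]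

/-- If `semiLoc 𝔫` is local, an element of `R2` outside a prime `P` with `P ∩ R1 ⊆ 𝔫`... is not
necessarily a unit; but an element of `R2` which is a non-unit of `semiLoc 𝔫` lies in every
MAXIMAL ideal `𝔫'` of `R2` with `𝔫' ∩ R1 ⊆ 𝔫`. -/
theorem mem_of_not_isUnit [h𝔫' : 𝔫'.IsMaximal] (hle : 𝔫'.under R1 ≤ 𝔫) {t : R2}
    (ht : ¬ IsUnit (algebraMap R2 ↥(semiLoc R2 F1 F2 𝔫) t)) : t ∈ 𝔫' := by
  classical
  set B := semiLoc R2 F1 F2 𝔫 with hB
  set S := Algebra.algebraMapSubmonoid R2 𝔫.primeCompl with hS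
  have hdisj : Disjoint (S : Set R2) (𝔫' : Set R2) := by
    rw [Set.disjoint_left]
    rintro _ ⟨s, hs, rfl⟩ hmem
    exact hs (hle hmem)
  have hprime : (Ideal.map (algebraMap R2 B) 𝔫').IsPrime :=
    IsLocalization.isPrime_of_isPrime_disjoint S B 𝔫' inferInstance hdisj
  have hle' : Ideal.map (algebraMap R2 B) 𝔫' ≤ IsLocalRing.maximalIdeal B :=
    IsLocalRing.le_maximalIdeal hprime.ne_top
  -- the contraction of the maximal ideal of `B` is a proper ideal containing `𝔫'`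
  set 𝔪' : Ideal R2 := Ideal.comap (algebraMap R2 B) (IsLocalRing.maximalIdeal B) with h𝔪'
  have h1 : 𝔫' ≤ 𝔪' := fun r hr => hle' (Ideal.mem_map_of_mem _ hr)
  have h2 : 𝔪' ≠ ⊤ := (Ideal.comap_isPrime (algebraMap R2 B) (IsLocalRing.maximalIdeal B)).ne_top
  have h3 : 𝔫' = 𝔪' := h𝔫'.eq_of_le h2 h1
  rw [h3]
  exact (IsLocalRing.mem_maximalIdeal _).2 ht

/-- **One point.** If `semiLoc 𝔫` is local, it is the local ring of `R2` at every maximal ideal
`𝔫'` with `𝔫' ∩ R1 ⊆ 𝔫`. -/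
theorem locAt_eq_semiLoc [h𝔫' : 𝔫'.IsMaximal] (hle : 𝔫'.under R1 ≤ 𝔫) :
    locAt (F := F2) 𝔫' = semiLoc R2 F1 F2 𝔫 := by
  apply le_antisymm _ (semiLoc_le_locAt 𝔫 𝔫' hle)
  intro x hx
  obtain ⟨b, t, ht, hxt⟩ := (mem_locAt_iff 𝔫' x).1 hx
  have hunit : IsUnit (algebraMap R2 ↥(semiLoc R2 F1 F2 𝔫) t) := by
    by_contra hnu
    exact ht (mem_of_not_isUnit 𝔫 𝔫' hle hnu)
  obtain ⟨c, hc⟩ := hunit.exists_right_inv
  have hc' : algebraMap R2 F2 t * (c : F2) = 1 := by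
    have := congrArg Subtype.val hc
    simpa using this
  have htF : algebraMap R2 F2 t ≠ 0 := left_ne_zero_of_mul_eq_one hc'
  have hx' : x = algebraMap R2 F2 b * (c : F2) := by
    have : x = algebraMap R2 F2 b / algebraMap R2 F2 t := by rw [← hxt]; field_simp
    rw [this, div_eq_iff htF, mul_assoc, mul_comm (c : F2), hc', mul_one]
  rw [hx']
  exact (semiLoc R2 F1 F2 𝔫).mul_mem ((semiLoc R2 F1 F2 𝔫).algebraMap_mem b) c.2

include hloc in
/-- **One point**, uniqueness: two maximal ideals of `R2` contracting into `𝔫` coincide. -/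
theorem eq_of_isLocalRing (𝔫'' : Ideal R2) [𝔫'.IsMaximal] [h'' : 𝔫''.IsMaximal]
    (hle : 𝔫'.under R1 ≤ 𝔫) (hle'' : 𝔫''.under R1 ≤ 𝔫) : 𝔫' = 𝔫'' := by
  haveI := h''.isPrime
  refine (Ideal.IsMaximal.eq_of_le inferInstance h''.ne_top ?_)
  intro t ht
  by_contra hcon
  -- `t ∉ 𝔫''` is a unit of `locAt 𝔫'' = semiLoc 𝔫 = locAt 𝔫'`, but `t ∈ 𝔫'`
  have hnu : ¬ IsUnit (algebraMap R2 ↥(semiLoc R2 F1 F2 𝔫) t) := by
    intro hu
    have hdisj : Disjoint ((Algebra.algebraMapSubmonoid R2 𝔫.primeCompl : Submonoid R2) : Set R2)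
        (𝔫' : Set R2) := by
      rw [Set.disjoint_left]
      rintro _ ⟨s, hs, rfl⟩ hmem
      exact hs (hle hmem)
    have hprime : (Ideal.map (algebraMap R2 ↥(semiLoc R2 F1 F2 𝔫)) 𝔫').IsPrime :=
      IsLocalization.isPrime_of_isPrime_disjoint _ _ 𝔫' inferInstance hdisj
    exact hprime.ne_top (Ideal.eq_top_of_isUnit_mem _ (Ideal.mem_map_of_mem _ ht) hu)
  exact hcon (mem_of_not_isUnit 𝔫 𝔫'' hle'' hnu)

include hloc in
/-- Every prime of `R2` whose contraction lies in `𝔫` passes through the unique point over `𝔫`. -/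
theorem le_of_under_le [𝔫'.IsMaximal] (hle : 𝔫'.under R1 ≤ 𝔫) (P : Ideal R2) [P.IsPrime]
    (hP : P.under R1 ≤ 𝔫) : P ≤ 𝔫' := by
  intro t ht
  apply mem_of_not_isUnit (F1 := F1) (F2 := F2) 𝔫 𝔫' hle
  intro hu
  have hdisj : Disjoint ((Algebra.algebraMapSubmonoid R2 𝔫.primeCompl : Submonoid R2) : Set R2)
      (P : Set R2) := by
    rw [Set.disjoint_left]
    rintro _ ⟨s, hs, rfl⟩ hmem
    exact hs (hP hmem)
  have hprime : (Ideal.map (algebraMap R2 ↥(semiLoc R2 F1 F2 𝔫)) P).IsPrime :=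
    IsLocalization.isPrime_of_isPrime_disjoint _ _ P inferInstance hdisj
  exact hprime.ne_top (Ideal.eq_top_of_isUnit_mem _ (Ideal.mem_map_of_mem _ ht) hu)

end OnePoint

end Fermat.Agent.S36.R2.SemiLocal
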