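/-
S36 block [R2] (abstract part): triple points.

`R` is a local integrally closed domain (the local ring `R_y` of the level `q M0` model at a crossing
point), `B` a noetherian integrally closed domain, integral over `R` (the integral closure of `R_y`
in the function field of level `q² M0`), `v ∈ R` generates a prime ideal (the branch `P01 R_y`).

* `dvd_of_algebraMap_dvd` : `v B ∩ R = v R`.
* `span_eq_vCentre` (T1) : if a valuation ring `V ⊇ B` of `Frac B` has uniformiser `v` and is the
  localisation of `B` at every DVR-prime of `B` over `v R`, then `v B` is the centre of `V` on `B`.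
* `Triple` (T2) : if moreover `B / v B` lies between a discrete valuation ring `D` and its
  fraction field (and `v R` is not the maximal ideal of `R`), then `B / v B = D`, `B` is local
  with maximal ideal `(v, s)`, `v` is a prime element, `B / v B` is a principal ideal ring; hence
  (`N4/Cover/LocalUFD`) `B` is factorial and every prime of `B` not containing `v` is principal.
-/
import Mathlib
import Fermat.Agent.P3G.Krull
import Fermat.Agent.N4.Cover.LocalUFD

set_option autoImplicit false
set_option linter.unusedSectionVars false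
set_option linter.style.haveILetI false

namespace Fermat.Agent.S36.R2.TripleAbstract

open Fermat.Agent.N4.Cover.Globalize Fermat.Agent.P3G.Krull

section Contraction

variable {R B : Type*} [CommRing R] [IsDomain R] [IsIntegrallyClosed R] [CommRing B] [IsDomain B]
  [Algebra R B] [FaithfulSMul R B] [Algebra.IsIntegral R B]

attribute [local instance] FractionRing.liftAlgebra in
/-- `v B ∩ R = v R` for an integral extension `B` of an integrally closed domain `R`. -/
theorem dvd_of_algebraMap_dvd {v r : R} (hv : v ≠ 0)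
    (h : algebraMap R B v ∣ algebraMap R B r) : v ∣ r := by
  obtain ⟨b, hb⟩ := h
  set K := FractionRing R with hK
  set L := FractionRing B with hL
  have hvK : algebraMap R K v ≠ 0 := fun h0 =>
    hv (IsFractionRing.injective R K (by rw [h0, map_zero]))
  have hvL : algebraMap B L (algebraMap R B v) ≠ 0 := fun h0 =>
    hv (FaithfulSMul.algebraMap_injective R B
      (IsFractionRing.injective B L (by rw [h0, map_zero, map_zero])))
  set x : K := algebraMap R K r / algebraMap R K v with hx
  have hmap : algebraMap K L x = algebraMap B L b := by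
    rw [hx, map_div₀, ← IsScalarTower.algebraMap_apply R K L, ← IsScalarTower.algebraMap_apply R K L,
      IsScalarTower.algebraMap_apply R B L, IsScalarTower.algebraMap_apply R B L, hb, map_mul,
      mul_div_cancel_left₀ _ hvL]
  have hint : IsIntegral R x := by
    rw [← isIntegral_algebraMap_iff (algebraMap K L).injective, hmap]
    exact (Algebra.IsIntegral.isIntegral b).algebraMap
  obtain ⟨s, hs⟩ := IsIntegrallyClosed.algebraMap_eq_of_integral hint
  refine ⟨s, IsFractionRing.injective R K ?_⟩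
  rw [map_mul, hs, hx, mul_div_cancel₀ _ hvK]

theorem under_span_singleton {v : R} (hv : v ≠ 0) :
    (Ideal.span {algebraMap R B v}).under R = Ideal.span {v} := by
  ext r
  rw [Ideal.under_def, Ideal.mem_comap, Ideal.mem_span_singleton, Ideal.mem_span_singleton]
  exact ⟨dvd_of_algebraMap_dvd hv, fun h => map_dvd _ h⟩

end Contraction

section T1

variable {R B F : Type*} [CommRing R] [IsDomain R] [IsIntegrallyClosed R] [CommRing B] [IsDomain B]
  [Algebra R B] [FaithfulSMul R B] [Algebra.IsIntegral R B] [IsNoetherianRing B]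
  [IsIntegrallyClosed B] [Field F] [Algebra B F] [IsFractionRing B F]

/-- A DVR-prime of `B` containing `v` lies over `v R` (going-down for the integrally closed `R` and
minimality of DVR-primes). -/
theorem under_eq_span_of_dvr {v : R} (hvp : (Ideal.span {v}).IsPrime) (hv0 : v ≠ 0)
    (𝔭 : Ideal B) [𝔭.IsPrime] (hdvr : IsDiscreteValuationRing (locAt (F := F) 𝔭))
    (hv𝔭 : algebraMap R B v ∈ 𝔭) : 𝔭.under R = Ideal.span {v} := by
  haveI := hvp
  have hle : Ideal.span {v} ≤ 𝔭.under R := by
    rw [Ideal.span_singleton_le_iff_mem]; exact hv𝔭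
  by_contra hne
  have hlt : Ideal.span {v} < 𝔭.under R := lt_of_le_of_ne hle (Ne.symm hne)
  obtain ⟨P, hP𝔭, hPprime, hPover⟩ :=
    Algebra.HasGoingDown.exists_ideal_le_liesOver_of_lt (R := R) (S := B) 𝔭 hlt
  haveI := hPprime
  have hvP : algebraMap R B v ∈ P := by
    have : v ∈ P.under R := by rw [← hPover.over]; exact Ideal.mem_span_singleton_self v
    exact this
  have hP0 : P ≠ ⊥ := by
    intro hbot
    rw [hbot, Ideal.mem_bot] at hvP
    exact hv0 (FaithfulSMul.algebraMap_injective R B (by rw [hvP, map_zero]))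
  have hPeq : P = 𝔭 := eq_of_le_of_dvr (F := F) hdvr hP0 hP𝔭
  exact hne (by rw [← hPeq]; exact hPover.over.symm)

/-- **(T1)** `v B` is the centre on `B` of the valuation ring `V`, provided `v` is a uniformiser of
`V` and `V` is the localisation of `B` at every DVR-prime of `B` lying over `v R`. -/
theorem span_eq_vCentre {v : R} (hvp : (Ideal.span {v}).IsPrime) (hv0 : v ≠ 0)
    (V : ValuationSubring F) (hV : ∀ b : B, algebraMap B F b ∈ V)
    (hvV : algebraMap B F (algebraMap R B v) ∈ V.nonunits)
    (huni : ∀ x ∈ V.nonunits, x * (algebraMap B F (algebraMap R B v))⁻¹ ∈ V)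
    (honly : ∀ (𝔭 : Ideal B) [𝔭.IsPrime], IsDiscreteValuationRing (locAt (F := F) 𝔭) →
      𝔭.under R = Ideal.span {v} → ∀ x : F, x ∈ V → x ∈ locAt (F := F) 𝔭) :
    Ideal.span {algebraMap R B v} = vCentre V hV := by
  have hvB : algebraMap R B v ≠ 0 := fun h0 =>
    hv0 (FaithfulSMul.algebraMap_injective R B (by rw [h0, map_zero]))
  have hvF : algebraMap B F (algebraMap R B v) ≠ 0 := algebraMap_ne_zero hvB
  apply le_antisymm
  · rw [Ideal.span_singleton_le_iff_mem, mem_vCentre_iff]
    exact hvV
  · intro x hx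
    rw [mem_vCentre_iff] at hx
    have hz := huni _ hx
    obtain ⟨b, hb⟩ := exists_algebraMap_eq_of_forall_mem_dvr
      (algebraMap B F x * (algebraMap B F (algebraMap R B v))⁻¹) (by
        intro 𝔭 _ hdvr
        by_cases hv𝔭 : algebraMap R B v ∈ 𝔭
        · exact honly 𝔭 hdvr (under_eq_span_of_dvr (F := F) hvp hv0 𝔭 hdvr hv𝔭) _ hz
        · rw [← div_eq_mul_inv]
          exact div_mem_locAt 𝔭 x hv𝔭)
    rw [Ideal.mem_span_singleton]
    refine ⟨b, IsFractionRing.injective B F ?_⟩
    rw [map_mul, hb, mul_comm, inv_mul_cancel_right₀ hvF]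

end T1

section T2

variable {R B κ : Type*} [CommRing R] [IsDomain R] [IsIntegrallyClosed R] [IsLocalRing R]
  [CommRing B] [IsDomain B] [Algebra R B] [FaithfulSMul R B] [Algebra.IsIntegral R B] [Field κ]

omit [IsDomain R] [IsIntegrallyClosed R] [IsDomain B] [FaithfulSMul R B] in
/-- The image of a non-unit of the local ring `R` lies in every maximal ideal of the integral
extension `B`. -/
theorem algebraMap_mem_of_isMaximal {r : R} (hr : ¬ IsUnit r) (M : Ideal B) [M.IsMaximal] :
    algebraMap R B r ∈ M := by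
  have hmax : (M.comap (algebraMap R B)).IsMaximal :=
    Ideal.isMaximal_comap_of_isIntegral_of_isMaximal M
  have heq := IsLocalRing.eq_maximalIdeal hmax
  have : r ∈ M.comap (algebraMap R B) := by
    rw [heq]; exact (IsLocalRing.mem_maximalIdeal r).2 hr
  exact this

omit [IsDomain R] [IsIntegrallyClosed R] [IsDomain B] [FaithfulSMul R B] in
theorem algebraMap_mul_mem_jacobson {r : R} (hr : ¬ IsUnit r) (b : B) :
    algebraMap R B r * b ∈ Ideal.jacobson (⊥ : Ideal B) := by
  rw [Ideal.jacobson, Ideal.mem_sInf]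
  rintro M ⟨-, hM⟩
  haveI := hM
  exact M.mul_mem_right b (algebraMap_mem_of_isMaximal hr M)

/-- The hypotheses of (T2): the residue map `res` of `B` modulo `v B`, with values between the
discrete valuation ring `D ⊆ κ` and its fraction field; `v R` is not the maximal ideal of `R`. -/
structure ResData (v : R) (res : B →+* κ) (D : Subring κ) : Prop where
  ker_eq : RingHom.ker res = Ideal.span {algebraMap R B v}
  le_range : ∀ d ∈ D, ∃ b : B, res b = d
  frac : ∀ b : B, ∃ d₁ ∈ D, ∃ d₂ ∈ D, d₂ ≠ 0 ∧ res b * d₂ = d₁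
  not_max : ∃ r : R, ¬ IsUnit r ∧ r ∉ Ideal.span {v}

namespace ResData

variable {v : R} {res : B →+* κ} {D : Subring κ}

omit [IsDomain R] [IsIntegrallyClosed R] [IsLocalRing R] [IsDomain B] [FaithfulSMul R B]
  [Algebra.IsIntegral R B] in
theorem exists_mul_eq_of_res_eq (h : ResData v res D) {b : B} (hb : res b = 1) :
    ∃ c : B, b - 1 = algebraMap R B v * c := by
  have : b - 1 ∈ RingHom.ker res := by rw [RingHom.mem_ker, map_sub, hb, map_one, sub_self]
  rw [h.ker_eq, Ideal.mem_span_singleton] at this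
  exact this

omit [IsDomain R] [IsIntegrallyClosed R] [FaithfulSMul R B] in
/-- No element of `R` outside the units becomes invertible modulo `v B`. -/
theorem res_mul_ne_one (h : ResData v res D) (hv : ¬ IsUnit v) {r : R} (hr : ¬ IsUnit r) (b : B) :
    res (algebraMap R B r * b) ≠ 1 := by
  intro h1
  obtain ⟨c, hc⟩ := h.exists_mul_eq_of_res_eq h1
  obtain ⟨M, hM⟩ := Ideal.exists_maximal B
  haveI := hM
  have h2 : (1 : B) = algebraMap R B r * b - algebraMap R B v * c := by rw [← hc]; ring
  apply hM.ne_top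
  rw [Ideal.eq_top_iff_one, h2]
  exact M.sub_mem (M.mul_mem_right b (algebraMap_mem_of_isMaximal hr M))
    (M.mul_mem_right c (algebraMap_mem_of_isMaximal hv M))

variable [IsDiscreteValuationRing D]

/-- **(T2-a)** `B / v B = D`: a discrete valuation ring has no proper overring other than its
fraction field, and `B / v B` is not a field. -/
theorem res_mem (h : ResData v res D) (hv0 : v ≠ 0) (hv : ¬ IsUnit v) (b : B) : res b ∈ D := by
  by_contra hb
  obtain ⟨d₁, hd₁, d₂, hd₂, hd₂0, hbd⟩ := h.frac b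
  obtain ⟨ϖ, hϖ⟩ := IsDiscreteValuationRing.exists_irreducible D
  have hϖ0 : (ϖ : κ) ≠ 0 := fun h0 => hϖ.ne_zero (Subtype.ext h0)
  -- first: `ϖ⁻¹` is a value of `res`
  have key : ∃ b₁ : B, res b₁ * (ϖ : κ) = 1 := by
    obtain ⟨c, hc | hc⟩ := ValuationRing.cond (⟨d₁, hd₁⟩ : D) ⟨d₂, hd₂⟩
    · have hc' : d₁ * (c : κ) = d₂ := congrArg Subtype.val hc
      have hd₁0 : d₁ ≠ 0 := by
        rintro rfl
        rw [zero_mul] at hc'
        exact hd₂0 hc'.symm
      have hbc : res b * (c : κ) = 1 := by
        apply mul_left_cancel₀ hd₁0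
        calc d₁ * (res b * (c : κ)) = res b * (d₁ * (c : κ)) := by ring
          _ = d₁ * 1 := by rw [hc', hbd, mul_one]
      have hc0 : c ≠ 0 := by
        rintro rfl
        simp at hbc
      obtain ⟨n, u, hcu⟩ := IsDiscreteValuationRing.eq_unit_mul_pow_irreducible hc0 hϖ
      rcases n with _ | n
      · exfalso
        apply hb
        have : res b = ((u⁻¹ : Dˣ) : D) := by
          have h1 : ((u : D) : κ) * (((u⁻¹ : Dˣ) : D) : κ) = 1 := by
            rw [← Subring.coe_mul, Units.mul_inv]; rfl
          rw [hcu, pow_zero, mul_one] at hbc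
          calc res b = res b * (((u : D) : κ) * (((u⁻¹ : Dˣ) : D) : κ)) := by rw [h1, mul_one]
            _ = (res b * ((u : D) : κ)) * (((u⁻¹ : Dˣ) : D) : κ) := by ring
            _ = (((u⁻¹ : Dˣ) : D) : κ) := by rw [hbc, one_mul]
        rw [this]; exact ((u⁻¹ : Dˣ) : D).2
      · obtain ⟨b', hb'⟩ := h.le_range (((u : D) * ϖ ^ n : D) : κ) ((u : D) * ϖ ^ n : D).2
        refine ⟨b * b', ?_⟩
        rw [map_mul, hb', ← hbc, hcu, pow_succ]
        push_cast
        ring
    · exfalso
      apply hb
      have hc' : d₂ * (c : κ) = d₁ := congrArg Subtype.val hc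
      have : res b = (c : κ) := by
        apply mul_right_cancel₀ hd₂0
        rw [hbd, ← hc']; ring
      rw [this]; exact c.2
  obtain ⟨b₁, hb₁⟩ := key
  -- then `r` is invertible modulo `v B`
  obtain ⟨r, hr, hrv⟩ := h.not_max
  have hres_r : res (algebraMap R B r) ≠ 0 := by
    intro h0
    rw [← RingHom.mem_ker, h.ker_eq, Ideal.mem_span_singleton] at h0
    exact hrv (Ideal.mem_span_singleton.2 (dvd_of_algebraMap_dvd hv0 h0))
  obtain ⟨e₁, he₁, e₂, he₂, he₂0, hre⟩ := h.frac (algebraMap R B r)
  have he₁0 : (⟨e₁, he₁⟩ : D) ≠ 0 := by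
    intro h0
    have : e₁ = 0 := congrArg Subtype.val h0
    rw [this] at hre
    rcases mul_eq_zero.1 hre with h1 | h1
    · exact hres_r h1
    · exact he₂0 h1
  obtain ⟨m, u, heu⟩ := IsDiscreteValuationRing.eq_unit_mul_pow_irreducible he₁0 hϖ
  have heu' : e₁ = ((u : D) : κ) * (ϖ : κ) ^ m := by
    have := congrArg Subtype.val heu
    simpa using this
  obtain ⟨b₂, hb₂⟩ := h.le_range ((⟨e₂, he₂⟩ * ((u⁻¹ : Dˣ) : D) : D) : κ)
    (⟨e₂, he₂⟩ * ((u⁻¹ : Dˣ) : D) : D).2
  have h1 : ((u : D) : κ) * (((u⁻¹ : Dˣ) : D) : κ) = 1 := by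
    rw [← Subring.coe_mul, Units.mul_inv]; rfl
  apply h.res_mul_ne_one hv hr (b₂ * b₁ ^ m)
  rw [map_mul, map_mul, map_pow, hb₂]
  push_cast
  calc res (algebraMap R B r) * (e₂ * (((u⁻¹ : Dˣ) : D) : κ) * res b₁ ^ m)
      = (res (algebraMap R B r) * e₂) * (((u⁻¹ : Dˣ) : D) : κ) * res b₁ ^ m := by ring
    _ = (((u : D) : κ) * (((u⁻¹ : Dˣ) : D) : κ)) * (res b₁ * (ϖ : κ)) ^ m := by
        rw [hre, heu']; ring
    _ = 1 := by rw [h1, hb₁, one_pow, one_mul]

/-- `res` as a map onto `D`. -/
noncomputable def resD (h : ResData v res D) (hv0 : v ≠ 0) (hv : ¬ IsUnit v) : B →+* D :=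
  res.codRestrict D (h.res_mem hv0 hv)

@[simp] theorem coe_resD (h : ResData v res D) (hv0 : v ≠ 0) (hv : ¬ IsUnit v) (b : B) :
    ((h.resD hv0 hv b : D) : κ) = res b := rfl

theorem resD_surjective (h : ResData v res D) (hv0 : v ≠ 0) (hv : ¬ IsUnit v) :
    Function.Surjective (h.resD hv0 hv) := by
  intro d
  obtain ⟨b, hb⟩ := h.le_range d d.2
  exact ⟨b, Subtype.ext hb⟩

theorem ker_resD (h : ResData v res D) (hv0 : v ≠ 0) (hv : ¬ IsUnit v) :
    RingHom.ker (h.resD hv0 hv) = Ideal.span {algebraMap R B v} := by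
  rw [← h.ker_eq]
  ext b
  rw [RingHom.mem_ker, RingHom.mem_ker]
  constructor
  · intro h0; exact congrArg Subtype.val h0
  · intro h0; exact Subtype.ext h0

/-- An element of `B` is a unit as soon as its residue is a unit of `D`. -/
theorem isUnit_iff (h : ResData v res D) (hv0 : v ≠ 0) (hv : ¬ IsUnit v) (b : B) :
    IsUnit b ↔ IsUnit (h.resD hv0 hv b) := by
  constructor
  · intro hb; exact hb.map _
  · intro hb
    obtain ⟨d, hd⟩ := hb.exists_right_inv
    obtain ⟨b', rfl⟩ := h.resD_surjective hv0 hv d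
    have h1 : res (b * b') = 1 := by
      have := congrArg Subtype.val hd
      simpa using this
    obtain ⟨c, hc⟩ := h.exists_mul_eq_of_res_eq h1
    have hu : IsUnit (b * b') := by
      apply Ideal.isUnit_of_sub_one_mem_jacobson_bot
      rw [hc]
      exact algebraMap_mul_mem_jacobson hv c
    exact isUnit_of_mul_isUnit_left hu

/-- **(T2-b)** `B` is local: there is exactly ONE point over the crossing point. -/
theorem isLocalRing (h : ResData v res D) (hv0 : v ≠ 0) (hv : ¬ IsUnit v) : IsLocalRing B := by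
  apply IsLocalRing.of_nonunits_add
  intro a b ha hb
  rw [mem_nonunits_iff, h.isUnit_iff hv0 hv] at ha hb ⊢
  rw [← mem_nonunits_iff, ← IsLocalRing.mem_maximalIdeal] at ha hb ⊢
  rw [map_add]
  exact Ideal.add_mem _ ha hb

/-- **(T2-c)** The maximal ideal of `B` is generated by `v` and one more element. -/
theorem exists_maximalIdeal_eq [IsLocalRing B] (h : ResData v res D) (hv0 : v ≠ 0)
    (hv : ¬ IsUnit v) :
    ∃ s : B, IsLocalRing.maximalIdeal B = Ideal.span {algebraMap R B v, s} := by
  obtain ⟨ϖ, hϖ⟩ := IsDiscreteValuationRing.exists_irreducible D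
  obtain ⟨s, hs⟩ := h.resD_surjective hv0 hv ϖ
  refine ⟨s, le_antisymm ?_ ?_⟩
  · intro b hb
    rw [IsLocalRing.mem_maximalIdeal, mem_nonunits_iff, h.isUnit_iff hv0 hv,
      ← mem_nonunits_iff, ← IsLocalRing.mem_maximalIdeal,
      hϖ.maximalIdeal_eq, Ideal.mem_span_singleton] at hb
    obtain ⟨d, hd⟩ := hb
    obtain ⟨b', rfl⟩ := h.resD_surjective hv0 hv d
    have hker : b - s * b' ∈ RingHom.ker (h.resD hv0 hv) := by
      rw [RingHom.mem_ker, map_sub, map_mul, hs, hd, sub_self]
    rw [h.ker_resD hv0 hv, Ideal.mem_span_singleton] at hker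
    obtain ⟨c, hc⟩ := hker
    rw [Ideal.mem_span_pair]
    exact ⟨c, b', by rw [mul_comm c, ← hc]; ring⟩
  · rw [Ideal.span_le]
    rintro x (rfl | rfl)
    · rw [SetLike.mem_coe, IsLocalRing.mem_maximalIdeal, mem_nonunits_iff]
      intro hu
      obtain ⟨M, hM⟩ := Ideal.exists_maximal B
      haveI := hM
      exact hM.ne_top (Ideal.eq_top_of_isUnit_mem _ (algebraMap_mem_of_isMaximal hv M) hu)
    · rw [SetLike.mem_coe, IsLocalRing.mem_maximalIdeal, mem_nonunits_iff, h.isUnit_iff hv0 hv, hs]
      exact hϖ.not_isUnit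

omit [IsDiscreteValuationRing D] [IsIntegrallyClosed R] [IsLocalRing R] [Algebra.IsIntegral R B] in
/-- **(T2-d)** `v` is a prime element of `B`. -/
theorem prime (h : ResData v res D) (hv0 : v ≠ 0) : Prime (algebraMap R B v) := by
  have hvB : algebraMap R B v ≠ 0 := fun h0 =>
    hv0 (FaithfulSMul.algebraMap_injective R B (by rw [h0, map_zero]))
  rw [← Ideal.span_singleton_prime hvB, ← h.ker_eq]
  exact RingHom.ker_isPrime res

/-- **(T2-e)** `B / v B ≃ D` is a principal ideal ring. -/
theorem isPrincipalIdealRing (h : ResData v res D) (hv0 : v ≠ 0) (hv : ¬ IsUnit v) :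
    IsPrincipalIdealRing (B ⧸ Ideal.span {algebraMap R B v}) := by
  set I := Ideal.span {algebraMap R B v} with hI
  have hle : ∀ a ∈ I, h.resD hv0 hv a = 0 := by
    intro a ha
    rw [← RingHom.mem_ker, h.ker_resD hv0 hv]; exact ha
  set g : B ⧸ I →+* D := Ideal.Quotient.lift I (h.resD hv0 hv) hle with hg
  have hginj : Function.Injective g := by
    rw [injective_iff_map_eq_zero]
    intro x hx
    obtain ⟨b, rfl⟩ := Ideal.Quotient.mk_surjective x
    rw [hg, Ideal.Quotient.lift_mk, ← RingHom.mem_ker, h.ker_resD hv0 hv] at hx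
    exact Ideal.Quotient.eq_zero_iff_mem.2 hx
  have hgsurj : Function.Surjective g := by
    intro d
    obtain ⟨b, hb⟩ := h.resD_surjective hv0 hv d
    exact ⟨Ideal.Quotient.mk I b, by rw [hg, Ideal.Quotient.lift_mk, hb]⟩
  let e : (B ⧸ I) ≃+* D := RingEquiv.ofBijective g ⟨hginj, hgsurj⟩
  exact IsPrincipalIdealRing.of_surjective e.symm.toRingHom e.symm.surjective

/-- **(T2-f)** `B` is factorial. -/
theorem uniqueFactorizationMonoid [IsNoetherianRing B] (h : ResData v res D) (hv0 : v ≠ 0)
    (hv : ¬ IsUnit v) : UniqueFactorizationMonoid B := by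
  haveI := h.isLocalRing hv0 hv
  exact Fermat.Agent.N4.Cover.LocalUFD.uniqueFactorizationMonoid (h.prime hv0)
    (h.isPrincipalIdealRing hv0 hv)

/-- **(T2-g)** every prime of `B` not containing `v` (a horizontal prime, or another vertical
component through the triple point) is principal. -/
theorem isPrincipal_of_prime [IsNoetherianRing B] (h : ResData v res D) (hv0 : v ≠ 0)
    (hv : ¬ IsUnit v) (P : Ideal B) [P.IsPrime] (hP : algebraMap R B v ∉ P) :
    ∃ x ∈ P, P = Ideal.span {x} := by
  haveI := h.isLocalRing hv0 hv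
  exact Fermat.Agent.N4.Cover.LocalUFD.isPrincipal_of_prime (h.prime hv0).not_isUnit
    (h.isPrincipalIdealRing hv0 hv) P hP

end ResData

end T2

section Combined

variable {R B F κ : Type*} [CommRing R] [IsDomain R] [IsIntegrallyClosed R] [IsLocalRing R]
  [CommRing B] [IsDomain B] [Algebra R B] [FaithfulSMul R B] [Algebra.IsIntegral R B]
  [IsNoetherianRing B] [IsIntegrallyClosed B] [Field F] [Algebra B F] [IsFractionRing B F]
  [Field κ]

/-- **(T1) + (T2) hypotheses.**  The residue map `res` is a place of the valuation ring `V ⊇ B`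
(`ker res` is the centre of `V`), `v` is a uniformiser of `V`, and `V` is the only valuation ring
of `Frac B` over `v R` which is a localisation of `B` at a DVR-prime. -/
theorem resData_of_valuationSubring {v : R} (hvp : (Ideal.span {v}).IsPrime) (hv0 : v ≠ 0)
    (V : ValuationSubring F) (hV : ∀ b : B, algebraMap B F b ∈ V)
    (hvV : algebraMap B F (algebraMap R B v) ∈ V.nonunits)
    (huni : ∀ x ∈ V.nonunits, x * (algebraMap B F (algebraMap R B v))⁻¹ ∈ V)
    (honly : ∀ (𝔭 : Ideal B) [𝔭.IsPrime], IsDiscreteValuationRing (locAt (F := F) 𝔭) →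
      𝔭.under R = Ideal.span {v} → ∀ x : F, x ∈ V → x ∈ locAt (F := F) 𝔭)
    (res : B →+* κ) (hker : RingHom.ker res = vCentre V hV) (D : Subring κ)
    (hD : ∀ d ∈ D, ∃ b : B, res b = d)
    (hfrac : ∀ b : B, ∃ d₁ ∈ D, ∃ d₂ ∈ D, d₂ ≠ 0 ∧ res b * d₂ = d₁)
    (hnm : ∃ r : R, ¬ IsUnit r ∧ r ∉ Ideal.span {v}) : ResData v res D where
  ker_eq := hker.trans (span_eq_vCentre hvp hv0 V hV hvV huni honly).symm
  le_range := hD
  frac := hfrac
  not_max := hnm

omit [IsIntegrallyClosed R] [IsLocalRing R] [IsDomain B] [FaithfulSMul R B] [Algebra.IsIntegral R B]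
  [IsDomain R] in
theorem not_isUnit_of_isPrime_span {v : R} (hvp : (Ideal.span {v}).IsPrime) : ¬ IsUnit v :=
  fun hu => hvp.ne_top (Ideal.span_singleton_eq_top.2 hu)

end Combined

end Fermat.Agent.S36.R2.TripleAbstract
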