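/-
S36 block [R2], abstract complements for the glue.

* `isLocalRing_of_frobenius` (T2-0) : an integral extension `B` of a local ring `R` with a "residue
  map" `res : B →+* κ` (`ker res` inside the Jacobson radical, `κ` of exponential characteristic
  `q`) such that every value of `res` has a `q`-power in `res (R)` is LOCAL
  (Frobenius is injective on points: ONE point of level `q² M0` over a crossing point of level
  `q M0`).
* `isDiscreteValuationRing_range` : for a noetherian local ring `R` with maximal ideal `(u, u')`,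
  a homomorphism `ρ` to a field with kernel `u R` and `ρ u' ≠ 0` has a discrete valuation ring as
  image (the branch `R_y / P01` of a regular crossing point).
* `mem_of_isIntegral_of_mul_eq` : a subring of a field which is integrally closed contains every
  element of its fraction field (inside the field) integral over it.
-/
import Mathlib
import Fermat.Agent.S36.R2.TripleAbstract

set_option autoImplicit false
set_option linter.unusedSectionVars false
set_option linter.style.haveILetI false

namespace Fermat.Agent.S36.R2.TripleLocal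

open Fermat.Agent.S36.R2.TripleAbstract

section Frobenius

variable {R B κ : Type*} [CommRing R] [IsLocalRing R] [CommRing B] [Nontrivial B] [Algebra R B]
  [Algebra.IsIntegral R B] [Field κ]

/-- An element lying in no maximal ideal is a unit. -/
theorem isUnit_of_forall_notMem {b : B} (h : ∀ M : Ideal B, M.IsMaximal → b ∉ M) : IsUnit b := by
  by_contra hb
  have hne : Ideal.span {b} ≠ ⊤ := fun htop => hb (Ideal.span_singleton_eq_top.1 htop)
  obtain ⟨M, hM, hle⟩ := Ideal.exists_le_maximal _ hne
  exact h M hM (hle (Ideal.mem_span_singleton_self b))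

/-- **(T2-0)** Locality from pure inseparability of the residue map. -/
theorem isLocalRing_of_frobenius (q : ℕ) [ExpChar κ q] (res : B →+* κ)
    (hker : RingHom.ker res ≤ Ideal.jacobson (⊥ : Ideal B))
    (hfrob : ∀ b : B, ∃ (n : ℕ) (r : R), res b ^ q ^ n = res (algebraMap R B r)) :
    IsLocalRing B := by
  have hq : 0 < q := expChar_pos κ q
  have hjac : ∀ {x : B}, x ∈ RingHom.ker res → ∀ M : Ideal B, M.IsMaximal → x ∈ M := by
    intro x hx M hM
    have h1 := hker hx
    rw [Ideal.jacobson, Ideal.mem_sInf] at h1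
    exact h1 ⟨bot_le, hM⟩
  -- characterisation of the non-units
  have key : ∀ b : B, ¬ IsUnit b ↔
      ∃ (n : ℕ) (r : R), ¬ IsUnit r ∧ res b ^ q ^ n = res (algebraMap R B r) := by
    intro b
    constructor
    · intro hb
      obtain ⟨n, r, hr⟩ := hfrob b
      refine ⟨n, r, fun hru => hb ?_, hr⟩
      have hmem : b ^ q ^ n - algebraMap R B r ∈ RingHom.ker res := by
        rw [RingHom.mem_ker, map_sub, map_pow, hr, sub_self]
      have hu : IsUnit (b ^ q ^ n) := by
        apply isUnit_of_forall_notMem
        intro M hM hbM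
        have h1 := hjac hmem M hM
        have h2 : algebraMap R B r ∈ M := by
          have := M.sub_mem hbM h1
          rwa [sub_sub_cancel] at this
        exact hM.ne_top (Ideal.eq_top_of_isUnit_mem _ h2 (hru.map _))
      exact (isUnit_pow_iff (pow_pos hq n).ne').1 hu
    · rintro ⟨n, r, hr, hbr⟩ hb
      obtain ⟨M, hM⟩ := Ideal.exists_maximal B
      haveI := hM
      have hmem : b ^ q ^ n - algebraMap R B r ∈ RingHom.ker res := by
        rw [RingHom.mem_ker, map_sub, map_pow, hbr, sub_self]
      have h1 := hjac hmem M hM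
      have h2 : algebraMap R B r ∈ M := algebraMap_mem_of_isMaximal hr M
      have h3 : b ^ q ^ n ∈ M := by
        have := M.add_mem h1 h2
        rwa [sub_add_cancel] at this
      exact hM.ne_top (Ideal.eq_top_of_isUnit_mem _ (hM.isPrime.mem_of_pow_mem _ h3) hb)
  apply IsLocalRing.of_nonunits_add
  intro a b ha hb
  rw [mem_nonunits_iff, key] at ha hb ⊢
  obtain ⟨n₁, r₁, hr₁, h₁⟩ := ha
  obtain ⟨n₂, r₂, hr₂, h₂⟩ := hb
  refine ⟨n₁ + n₂, r₁ ^ q ^ n₂ + r₂ ^ q ^ n₁, ?_, ?_⟩
  · have hm₁ : r₁ ^ q ^ n₂ ∈ IsLocalRing.maximalIdeal R :=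
      Ideal.pow_mem_of_mem _ ((IsLocalRing.mem_maximalIdeal _).2 hr₁) _ (pow_pos hq n₂)
    have hm₂ : r₂ ^ q ^ n₁ ∈ IsLocalRing.maximalIdeal R :=
      Ideal.pow_mem_of_mem _ ((IsLocalRing.mem_maximalIdeal _).2 hr₂) _ (pow_pos hq n₁)
    exact (IsLocalRing.mem_maximalIdeal _).1 (Ideal.add_mem _ hm₁ hm₂)
  · have e₁ : res (algebraMap R B (r₁ ^ q ^ n₂)) = res a ^ q ^ (n₁ + n₂) := by
      rw [map_pow, map_pow, ← h₁, ← pow_mul, ← pow_add]
    have e₂ : res (algebraMap R B (r₂ ^ q ^ n₁)) = res b ^ q ^ (n₁ + n₂) := by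
      rw [map_pow, map_pow, ← h₂, ← pow_mul, ← pow_add, add_comm n₂ n₁]
    rw [map_add (algebraMap R B), map_add res, map_add res, add_pow_expChar_pow, e₁, e₂]

end Frobenius

section Branch

variable {R κ : Type*} [CommRing R] [IsLocalRing R] [IsNoetherianRing R] [Field κ]

/-- The branch of a regular crossing point: if `𝔪_R = (u, u')`, `ρ : R → κ` has kernel `u R` and
`ρ u' ≠ 0`, then `ρ (R) ≃ R / u R` is a discrete valuation ring (with uniformiser `ρ u'`). -/
theorem isDiscreteValuationRing_range (ρ : R →+* κ) {u u' : R}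
    (hker : RingHom.ker ρ = Ideal.span {u})
    (hmax : IsLocalRing.maximalIdeal R = Ideal.span {u, u'}) (hu' : ρ u' ≠ 0) :
    IsDiscreteValuationRing ρ.range := by
  set A := ρ.range with hA
  set ρ' : R →+* A := ρ.rangeRestrict with hρ'
  have hsurj : Function.Surjective ρ' := ρ.rangeRestrict_surjective
  haveI : IsLocalRing A := IsLocalRing.of_surjective' ρ' hsurj
  haveI : IsNoetherianRing A := isNoetherianRing_of_surjective R A ρ' hsurj
  have hu'm : u' ∈ IsLocalRing.maximalIdeal R := by
    rw [hmax]; exact Ideal.subset_span (by simp)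
  have hum : u ∈ IsLocalRing.maximalIdeal R := by
    rw [hmax]; exact Ideal.subset_span (by simp)
  have hρu : ρ' u = 0 := by
    apply Subtype.ext
    show ρ u = 0
    rw [← RingHom.mem_ker, hker]; exact Ideal.mem_span_singleton_self u
  have hρu'0 : ρ' u' ≠ 0 := fun h0 => hu' (congrArg Subtype.val h0)
  -- `ρ' u'` is not a unit
  have hnu : ¬ IsUnit (ρ' u') := by
    intro hunit
    obtain ⟨d, hd⟩ := hunit.exists_right_inv
    obtain ⟨r, rfl⟩ := hsurj d
    have hmem : u' * r - 1 ∈ RingHom.ker ρ := by
      rw [RingHom.mem_ker, map_sub, map_one, sub_eq_zero]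
      have h1 : ((ρ' u' * ρ' r : A) : κ) = ((1 : A) : κ) := congrArg Subtype.val hd
      rw [map_mul]
      exact h1
    rw [hker] at hmem
    have h1 : u' * r - 1 ∈ IsLocalRing.maximalIdeal R :=
      (Ideal.span_singleton_le_iff_mem _).2 hum hmem
    have h2 : u' * r ∈ IsLocalRing.maximalIdeal R := Ideal.mul_mem_right _ _ hu'm
    have h3 : (1 : R) ∈ IsLocalRing.maximalIdeal R := by
      have := Ideal.sub_mem _ h2 h1
      rwa [sub_sub_cancel] at this
    exact (IsLocalRing.maximalIdeal.isMaximal R).ne_top ((Ideal.eq_top_iff_one _).2 h3)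
  have heq : IsLocalRing.maximalIdeal A = Ideal.span {ρ' u'} := by
    apply le_antisymm
    · intro x hx
      obtain ⟨r, rfl⟩ := hsurj x
      have hr : r ∈ IsLocalRing.maximalIdeal R := by
        rw [IsLocalRing.mem_maximalIdeal, mem_nonunits_iff]
        intro hru
        exact (IsLocalRing.mem_maximalIdeal _).1 hx (hru.map ρ')
      rw [hmax, Ideal.mem_span_pair] at hr
      obtain ⟨a, b, hab⟩ := hr
      rw [Ideal.mem_span_singleton]
      refine ⟨ρ' b, ?_⟩
      rw [← hab, map_add, map_mul, map_mul, hρu, mul_zero, zero_add, mul_comm]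
    · rw [Ideal.span_singleton_le_iff_mem, IsLocalRing.mem_maximalIdeal]
      exact hnu
  have hnf : ¬ IsField A := by
    rw [IsLocalRing.isField_iff_maximalIdeal_eq]
    intro hbot
    have : ρ' u' ∈ IsLocalRing.maximalIdeal A := by
      rw [heq]; exact Ideal.mem_span_singleton_self _
    rw [hbot, Ideal.mem_bot] at this
    exact hρu'0 this
  exact ((IsDiscreteValuationRing.TFAE A hnf).out 0 4).2
    (⟨⟨_, heq⟩⟩ : Submodule.IsPrincipal (IsLocalRing.maximalIdeal A))

end Branch

section IntegrallyClosed

variable {κ : Type*} [Field κ]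

attribute [local instance] FractionRing.liftAlgebra in
/-- An integrally closed subring `A` of a field contains every quotient `d₁ / d₂` of its elements
which is integral over it. -/
theorem mem_of_isIntegral_of_mul_eq (A : Subring κ) [IsIntegrallyClosed A] {z d₁ d₂ : κ}
    (hz : IsIntegral A z) (hd₁ : d₁ ∈ A) (hd₂ : d₂ ∈ A) (h0 : d₂ ≠ 0) (h : z * d₂ = d₁) :
    z ∈ A := by
  set K := FractionRing A with hK
  have h2K : algebraMap A K ⟨d₂, hd₂⟩ ≠ 0 := fun h0' =>
    h0 (congrArg Subtype.val (IsFractionRing.injective A K (h0'.trans (map_zero _).symm)))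
  set x : K := algebraMap A K ⟨d₁, hd₁⟩ / algebraMap A K ⟨d₂, hd₂⟩ with hx
  have hmap : algebraMap K κ x = z := by
    rw [hx, map_div₀, ← IsScalarTower.algebraMap_apply A K κ,
      ← IsScalarTower.algebraMap_apply A K κ]
    show d₁ / d₂ = z
    rw [← h, mul_div_cancel_right₀ _ h0]
  have hint : IsIntegral A x := by
    rw [← isIntegral_algebraMap_iff (algebraMap K κ).injective, hmap]
    exact hz
  obtain ⟨a, ha⟩ := IsIntegrallyClosed.algebraMap_eq_of_integral hint
  have : z = (a : κ) := by
    rw [← hmap, ← ha, ← IsScalarTower.algebraMap_apply A K κ]; rfl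
  rw [this]; exact a.2

end IntegrallyClosed

end Fermat.Agent.S36.R2.TripleLocal
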