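/-
S36 block [R2], glue infrastructure: small valuation-ring tools.

* `locIn P` : the localisation of a domain `A` at a prime `P`, realised inside ANY field `Ω`
  containing `A` (not necessarily the fraction field); `isDiscreteValuationRing_locIn` for a
  Dedekind domain `A` and `P ≠ ⊥`.
* `vsOfDvr 𝔭 hdvr` : a localisation `locAt 𝔭` which is a discrete valuation ring, as a
  `ValuationSubring` of the fraction field; its nonunits.
* `comap_eq_of_dominates` : a valuation ring of `F2` dominating a valuation ring `V` of `F1 ⊆ F2`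
  with a uniformiser restricts to `V`.
-/
import Mathlib
import Fermat.Agent.P3G.Krull

set_option autoImplicit false
set_option linter.unusedSectionVars false
set_option linter.style.haveILetI false
set_option linter.overlappingInstances false

namespace Fermat.Agent.S36.R2.ValTools

open Fermat.Agent.N4.Cover.Globalize Fermat.Agent.P3G.Krull

section LocIn

variable {A Ω : Type*} [CommRing A] [IsDomain A] [Field Ω] [Algebra A Ω] [FaithfulSMul A Ω]
  (P : Ideal A) [P.IsPrime]

theorem locIn_algebraMap_ne_zero {s : A} (hs : s ∉ P) : algebraMap A Ω s ≠ 0 := by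
  intro h0
  have : s = 0 := FaithfulSMul.algebraMap_injective A Ω (by rw [h0, map_zero])
  exact hs (this ▸ P.zero_mem)

theorem isUnit_algebraMap_primeCompl (y : P.primeCompl) : IsUnit (Algebra.ofId A Ω y) :=
  isUnit_iff_ne_zero.2 (locIn_algebraMap_ne_zero P y.2)

variable (Ω) in
/-- The localisation `A_P` inside a field `Ω ⊇ A`. -/
noncomputable def locIn : Subalgebra A Ω :=
  (IsLocalization.liftAlgHom (S := Localization.AtPrime P)
    (isUnit_algebraMap_primeCompl (Ω := Ω) P)).range

theorem mem_locIn_iff (x : Ω) :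
    x ∈ locIn Ω P ↔ ∃ a s : A, s ∉ P ∧ x * algebraMap A Ω s = algebraMap A Ω a := by
  have hf := isUnit_algebraMap_primeCompl (Ω := Ω) P
  constructor
  · rintro ⟨z, rfl⟩
    obtain ⟨a, s, rfl⟩ := IsLocalization.exists_mk'_eq P.primeCompl z
    refine ⟨a, s.1, s.2, ?_⟩
    have key := (IsLocalization.lift_mk'_spec (S := Localization.AtPrime P) (hg := hf) a
      (IsLocalization.lift hf (IsLocalization.mk' (Localization.AtPrime P) a s)) s).1 rfl
    show IsLocalization.lift hf (IsLocalization.mk' (Localization.AtPrime P) a s) *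
      algebraMap A Ω s = algebraMap A Ω a
    rw [mul_comm]
    exact key.symm
  · rintro ⟨a, s, hs, h⟩
    refine ⟨IsLocalization.mk' (Localization.AtPrime P) a (⟨s, hs⟩ : P.primeCompl), ?_⟩
    show IsLocalization.lift hf (IsLocalization.mk' (Localization.AtPrime P) a
      (⟨s, hs⟩ : P.primeCompl)) = x
    rw [IsLocalization.lift_mk'_spec]
    show algebraMap A Ω a = algebraMap A Ω s * x
    rw [mul_comm, h]

theorem liftAlgHom_injective :
    Function.Injective (IsLocalization.liftAlgHom (S := Localization.AtPrime P)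
      (isUnit_algebraMap_primeCompl (Ω := Ω) P)) := by
  rw [IsLocalization.coe_liftAlgHom]
  rw [IsLocalization.lift_injective_iff]
  intro x y
  constructor
  · intro h
    have : x = y := IsLocalization.injective (Localization.AtPrime P)
      P.primeCompl_le_nonZeroDivisors h
    rw [this]
  · intro h
    have : x = y := FaithfulSMul.algebraMap_injective A Ω h
    rw [this]

instance instIsLocalizationLocIn : IsLocalization.AtPrime ↥(locIn Ω P) P :=
  IsLocalization.isLocalization_of_algEquiv P.primeCompl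
    (AlgEquiv.ofInjective _ (liftAlgHom_injective (Ω := Ω) P))

theorem isDiscreteValuationRing_locIn [IsDedekindDomain A] (hP : P ≠ ⊥) :
    IsDiscreteValuationRing ↥(locIn Ω P) :=
  IsLocalization.AtPrime.isDiscreteValuationRing_of_dedekind_domain A hP _

end LocIn

section VsOfDvr

variable {S F : Type*} [CommRing S] [IsDomain S] [IsNoetherianRing S] [Field F] [Algebra S F]
  [IsFractionRing S F]

/-- A localisation `S_𝔭` which is a discrete valuation ring, as a valuation subring of `Frac S`. -/
noncomputable def vsOfDvr (𝔭 : Ideal S) [𝔭.IsPrime]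
    (hdvr : IsDiscreteValuationRing (locAt (F := F) 𝔭)) : ValuationSubring F :=
  { (locAt (F := F) 𝔭).toSubring with
    mem_or_inv_mem' := by
      intro y
      haveI := hdvr
      rcases ValuationRing.isInteger_or_isInteger (locAt (F := F) 𝔭) y with ⟨z, hz⟩ | ⟨z, hz⟩
      · left; rw [← hz]; exact z.2
      · right; rw [← hz]; exact z.2 }

theorem mem_vsOfDvr_iff (𝔭 : Ideal S) [𝔭.IsPrime]
    (hdvr : IsDiscreteValuationRing (locAt (F := F) 𝔭)) (x : F) :
    x ∈ vsOfDvr 𝔭 hdvr ↔ x ∈ locAt (F := F) 𝔭 := Iff.rfl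

theorem algebraMap_mem_vsOfDvr (𝔭 : Ideal S) [𝔭.IsPrime]
    (hdvr : IsDiscreteValuationRing (locAt (F := F) 𝔭)) (s : S) :
    algebraMap S F s ∈ vsOfDvr 𝔭 hdvr := algebraMap_mem_locAt 𝔭 s

/-- The image of an element of `𝔭` is a non-unit of the valuation ring `S_𝔭`. -/
theorem algebraMap_mem_nonunits_vsOfDvr (𝔭 : Ideal S) [𝔭.IsPrime]
    (hdvr : IsDiscreteValuationRing (locAt (F := F) 𝔭)) {p : S} (hp : p ∈ 𝔭) :
    algebraMap S F p ∈ (vsOfDvr 𝔭 hdvr).nonunits := by
  by_cases hp0 : p = 0
  · rw [hp0, map_zero, ValuationSubring.mem_nonunits_iff, map_zero]; exact zero_lt_one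
  have hpF : algebraMap S F p ≠ 0 := algebraMap_ne_zero hp0
  rw [ValuationSubring.mem_nonunits_iff]
  refine lt_of_le_of_ne (((vsOfDvr 𝔭 hdvr).valuation_le_one_iff _).2
    (algebraMap_mem_vsOfDvr 𝔭 hdvr p)) ?_
  intro h1
  -- then `1 / p ∈ S_𝔭`, so `t = a p` with `t ∉ 𝔭`
  have hinv : (algebraMap S F p)⁻¹ ∈ vsOfDvr 𝔭 hdvr := by
    rw [← (vsOfDvr 𝔭 hdvr).valuation_le_one_iff, map_inv₀, h1, inv_one]
  obtain ⟨a, t, ht, hat⟩ := (mem_locAt_iff 𝔭 _).1 ((mem_vsOfDvr_iff 𝔭 hdvr _).1 hinv)
  apply ht
  have : t = a * p := by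
    apply IsFractionRing.injective S F
    rw [map_mul, ← hat]
    field_simp
  rw [this]
  exact 𝔭.mul_mem_left a hp

end VsOfDvr

section Dominates

theorem valuation_eq_one_of_mem_of_notMem_nonunits {F : Type*} [Field F] {A : ValuationSubring F}
    {x : F} (hx : x ∈ A) (hx' : x ∉ A.nonunits) : A.valuation x = 1 := by
  have h1 := (A.valuation_le_one_iff x).2 hx
  have h2 : ¬ A.valuation x < 1 := fun h => hx' (A.mem_nonunits_iff.2 h)
  exact le_antisymm h1 (not_lt.1 h2)

theorem inv_mem_of_mem_of_notMem_nonunits {F : Type*} [Field F] {A : ValuationSubring F}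
    {x : F} (hx : x ∈ A) (hx' : x ∉ A.nonunits) : x⁻¹ ∈ A := by
  rw [← A.valuation_le_one_iff, map_inv₀, valuation_eq_one_of_mem_of_notMem_nonunits hx hx',
    inv_one]

variable {F1 F2 : Type*} [Field F1] [Field F2] [Algebra F1 F2]

/-- A valuation ring `V'` of `F2` containing the valuation ring `V` of `F1 ⊆ F2` and in which a
uniformiser `v` of `V` is not a unit restricts to `V`. -/
theorem comap_eq_of_dominates (V : ValuationSubring F1) {v : F1} (hv0 : v ≠ 0)
    (hv : ∀ y ∈ V.nonunits, y * v⁻¹ ∈ V) (V' : ValuationSubring F2)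
    (hle : ∀ x ∈ V, algebraMap F1 F2 x ∈ V') (hvV' : algebraMap F1 F2 v ∈ V'.nonunits) :
    V'.comap (algebraMap F1 F2) = V := by
  ext x
  rw [ValuationSubring.mem_comap]
  constructor
  · intro hx
    by_contra hxV
    have hx0 : x ≠ 0 := by rintro rfl; exact hxV V.zero_mem
    -- `x⁻¹ ∈ 𝔪_V`, so `x⁻¹ = v w`
    have hinv : x⁻¹ ∈ V.nonunits := by
      rw [ValuationSubring.mem_nonunits_iff]
      have h1 : ¬ V.valuation x ≤ 1 := fun h => hxV ((V.valuation_le_one_iff x).1 h)
      rw [not_le] at h1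
      rw [map_inv₀]
      exact inv_lt_one_of_one_lt₀ h1
    have hw := hv _ hinv
    have hprod : algebraMap F1 F2 x⁻¹ = algebraMap F1 F2 v * algebraMap F1 F2 (x⁻¹ * v⁻¹) := by
      rw [← map_mul]; congr 1; field_simp
    have hnon : algebraMap F1 F2 x⁻¹ ∈ V'.nonunits := by
      rw [hprod, ValuationSubring.mem_nonunits_iff, map_mul]
      exact mul_lt_one_of_lt_of_le (V'.mem_nonunits_iff.1 hvV')
        ((V'.valuation_le_one_iff _).2 (hle _ hw))
    have h1 : V'.valuation (algebraMap F1 F2 x * algebraMap F1 F2 x⁻¹) < 1 := by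
      rw [map_mul]
      calc V'.valuation (algebraMap F1 F2 x) * V'.valuation (algebraMap F1 F2 x⁻¹)
          ≤ 1 * V'.valuation (algebraMap F1 F2 x⁻¹) := by
            gcongr; exact (V'.valuation_le_one_iff _).2 hx
        _ = V'.valuation (algebraMap F1 F2 x⁻¹) := one_mul _
        _ < 1 := V'.mem_nonunits_iff.1 hnon
    rw [← map_mul, mul_inv_cancel₀ hx0, map_one, map_one] at h1
    exact lt_irrefl _ h1
  · exact hle x

end Dominates

end Fermat.Agent.S36.R2.ValTools
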