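/-
S36 block [R2], chart-level theorem (hypothesis-driven): triple points.

`R1 ⊆ R2` two charts (noetherian integrally closed domains, `R2` integral over `R1`; in the
application the finite / infinite charts of levels `q M0` and `q² M0`, along `α`), `𝔫` a maximal
ideal of `R1` (a crossing point `y`), `V01` / `V02` valuation rings of `F1 = Frac R1` /
`F2 = Frac R2`.  `TripleChartData` collects the inputs:
* from (R1): `P01 R_y = u R_y`, `𝔫 R_y = (u, u')`, `u' ∉ P01`;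
* from (V): `V02 ∩ F1 = V01`, `V02` is the ONLY valuation ring of `F2` over `V01`, a uniformiser `π`
  of `V02` coming from `P01`, a place `ev` of `V02` with values in a field `κ` of exponential
  characteristic `q` such that `ev (V02) ^ q ⊆ ev (V01)` (pure inseparability), and a Dedekind domain
  `D0 ⊆ ev (R2)` with `ev (V02) ⊆ Frac D0` (the special fibre of level `M0` via `γ`).
Output (`B = semiLoc 𝔫 = R2` localised at `R1 ∖ 𝔫`, `R_y = locAt 𝔫`): `u B = P02 ∩ B`, `B` is LOCAL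
(one point `x` over `y`), `B = locAt 𝔫'` for the maximal ideal `𝔫'` over `𝔫`, `B` is factorial,
`𝔪_B = (u, s)`, every prime of `B` not containing `u` is principal.
-/
import Mathlib
import Fermat.Agent.P3G.LocVS
import Fermat.Agent.S36.R2.TripleAbstract
import Fermat.Agent.S36.R2.TripleLocal
import Fermat.Agent.S36.R2.SemiLocal
import Fermat.Agent.S36.R2.ValTools

set_option autoImplicit false
set_option linter.unusedSectionVars false
set_option linter.style.haveILetI false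
set_option linter.overlappingInstances false

namespace Fermat.Agent.S36.R2.TripleChart

open Fermat.Agent.N4.Cover.Globalize Fermat.Agent.P3G.Krull
open Fermat.Agent.S36.R2.TripleAbstract Fermat.Agent.S36.R2.TripleLocal
open Fermat.Agent.S36.R2.SemiLocal Fermat.Agent.S36.R2.ValTools

variable {R1 R2 F1 F2 κ : Type*} [CommRing R1] [IsDomain R1] [IsNoetherianRing R1]
  [IsIntegrallyClosed R1] [CommRing R2] [IsDomain R2] [IsNoetherianRing R2] [IsIntegrallyClosed R2]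
  [Field F1] [Field F2] [Algebra R1 F1] [IsFractionRing R1 F1] [Algebra R2 F2] [IsFractionRing R2 F2]
  [Algebra R1 R2] [Algebra F1 F2] [Algebra R1 F2] [IsScalarTower R1 R2 F2] [IsScalarTower R1 F1 F2]
  [Algebra.IsIntegral R1 R2] [Field κ]

variable (R2) in
/-- The inputs of (R2) at a crossing point `𝔫` of the lower level. -/
structure TripleChartData (𝔫 : Ideal R1) (V01 : ValuationSubring F1) (V02 : ValuationSubring F2)
    (u u' π : R1) (q : ℕ) (ev : ↥V02 →+* κ) (D0 : Subring κ) : Prop where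
  hV01 : ∀ r : R1, algebraMap R1 F1 r ∈ V01
  hV02 : ∀ b : R2, algebraMap R2 F2 b ∈ V02
  centre_le : ∀ r : R1, algebraMap R1 F1 r ∈ V01.nonunits → r ∈ 𝔫
  u_mem : algebraMap R1 F1 u ∈ V01.nonunits
  u_ne : u ≠ 0
  gen01 : ∀ r : R1, algebraMap R1 F1 r ∈ V01.nonunits → ∃ s c : R1, s ∉ 𝔫 ∧ s * r = c * u
  u'_mem : u' ∈ 𝔫
  u'_not : algebraMap R1 F1 u' ∉ V01.nonunits
  gen_max : ∀ r ∈ 𝔫, ∃ s a b : R1, s ∉ 𝔫 ∧ s * r = a * u + b * u'
  comap : ∀ x : F1, algebraMap F1 F2 x ∈ V02 ↔ x ∈ V01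
  pi_mem : algebraMap R1 F1 π ∈ V01.nonunits
  pi_ne : π ≠ 0
  unif02 : ∀ x ∈ V02.nonunits, x * (algebraMap R1 F2 π)⁻¹ ∈ V02
  only : ∀ V' : ValuationSubring F2, (∀ b : R2, algebraMap R2 F2 b ∈ V') →
    V'.comap (algebraMap F1 F2) = V01 → V' = V02
  ev_ker : ∀ x : ↥V02, ev x = 0 ↔ (x : F2) ∈ V02.nonunits
  frob : ∀ x : ↥V02, ∃ y : ↥V02, (∃ y₁ ∈ V01, (y : F2) = algebraMap F1 F2 y₁) ∧ ev x ^ q = ev y
  D0_le : ∀ d ∈ D0, ∃ (b : R2) (y : ↥V02), (y : F2) = algebraMap R2 F2 b ∧ ev y = d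
  D0_frac : ∀ x : ↥V02, ∃ d₁ ∈ D0, ∃ d₂ ∈ D0, d₂ ≠ 0 ∧ ev x * d₂ = d₁

namespace TripleChartData

variable {𝔫 : Ideal R1} [h𝔫 : 𝔫.IsMaximal] {V01 : ValuationSubring F1} {V02 : ValuationSubring F2}
  {u u' π : R1} {q : ℕ} {ev : ↥V02 →+* κ} {D0 : Subring κ}

section Lower

variable (h : TripleChartData R2 𝔫 V01 V02 u u' π q ev D0)
include h

/-- `P01 := 𝔪_{V01} ∩ R1`. -/
theorem vCentre_le : vCentre V01 h.hV01 ≤ 𝔫 := fun r hr =>
  h.centre_le r ((mem_vCentre_iff V01 h.hV01).1 hr)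

theorem u_mem_vCentre : u ∈ vCentre V01 h.hV01 := (mem_vCentre_iff V01 h.hV01).2 h.u_mem

theorem u_mem_n : u ∈ 𝔫 := h.vCentre_le h.u_mem_vCentre

theorem valuation_eq_one {s : R1} (hs : s ∉ 𝔫) : V01.valuation (algebraMap R1 F1 s) = 1 :=
  valuation_eq_one_of_notMem_vCentre V01 h.hV01 (fun hmem => hs (h.vCentre_le hmem))

/-- `R_y ⊆ V01`. -/
theorem mem_V01_of_mem_locAt {x : F1} (hx : x ∈ locAt (F := F1) 𝔫) : x ∈ V01 := by
  obtain ⟨a, s, hs, hxs⟩ := (mem_locAt_iff 𝔫 x).1 hx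
  rw [← V01.valuation_le_one_iff]
  have := congrArg V01.valuation hxs
  rw [map_mul, h.valuation_eq_one hs, mul_one] at this
  rw [this]
  exact (V01.valuation_le_one_iff _).2 (h.hV01 a)

theorem hRy (r : ↥(locAt (F := F1) 𝔫)) : algebraMap ↥(locAt (F := F1) 𝔫) F1 r ∈ V01 :=
  h.mem_V01_of_mem_locAt r.2

/-- `P01` is a DVR-prime of `R1`. -/
theorem isDiscreteValuationRing_locAt_vCentre :
    IsDiscreteValuationRing (locAt (F := F1) (vCentre V01 h.hV01)) := by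
  refine isDiscreteValuationRing_locAt_of_principal (vCentre V01 h.hV01) h.u_mem_vCentre h.u_ne ?_
  intro p hp
  obtain ⟨s, c, hs, hsc⟩ := h.gen01 p ((mem_vCentre_iff V01 h.hV01).1 hp)
  exact ⟨s, c, fun hmem => hs (h.vCentre_le hmem), hsc⟩

/-- `V01` is the localisation of `R1` at `P01`. -/
theorem exists_of_mem_V01 {x : F1} (hx : x ∈ V01) :
    ∃ a s : R1, algebraMap R1 F1 s ∉ V01.nonunits ∧ x * algebraMap R1 F1 s = algebraMap R1 F1 a := by
  have h1 := (mem_valuationSubring_iff_mem_locAt V01 h.hV01 (vCentre V01 h.hV01) rfl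
    h.isDiscreteValuationRing_locAt_vCentre x).1 hx
  obtain ⟨a, s, hs, hxs⟩ := (mem_locAt_iff _ x).1 h1
  exact ⟨a, s, fun hmem => hs ((mem_vCentre_iff V01 h.hV01).2 hmem), hxs⟩

/-- `u` is a uniformiser of `V01`. -/
theorem unif01 {y : F1} (hy : y ∈ V01.nonunits) : y * (algebraMap R1 F1 u)⁻¹ ∈ V01 := by
  have hyV : y ∈ V01 := V01.nonunits_le hy
  obtain ⟨a, s, hs, hys⟩ := h.exists_of_mem_V01 hyV
  have ha : algebraMap R1 F1 a ∈ V01.nonunits := by
    rw [← hys]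
    exact Fermat.Agent.P3G.LocVS.mul_mem_nonunits V01 hy (h.hV01 s)
  obtain ⟨s', c, hs', hsc⟩ := h.gen01 a ha
  have hsF : algebraMap R1 F1 s ≠ 0 := by
    intro h0
    apply hs
    rw [h0]
    exact Fermat.Agent.P3G.LocVS.zero_mem_nonunits V01
  have hs'F : algebraMap R1 F1 s' ≠ 0 := algebraMap_ne_zero_of_notMem 𝔫 hs'
  have huF : algebraMap R1 F1 u ≠ 0 := algebraMap_ne_zero h.u_ne
  have hsc' : algebraMap R1 F1 s' * algebraMap R1 F1 a = algebraMap R1 F1 c * algebraMap R1 F1 u := by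
    rw [← map_mul, ← map_mul, hsc]
  have hval_s : V01.valuation (algebraMap R1 F1 s) = 1 :=
    valuation_eq_one_of_mem_of_notMem_nonunits (h.hV01 s) hs
  have hval_s' : V01.valuation (algebraMap R1 F1 s') = 1 := h.valuation_eq_one hs'
  have hy' : y * (algebraMap R1 F1 u)⁻¹ * (algebraMap R1 F1 s * algebraMap R1 F1 s') =
      algebraMap R1 F1 c := by
    have : y * algebraMap R1 F1 s * algebraMap R1 F1 s' = algebraMap R1 F1 c * algebraMap R1 F1 u := by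
      rw [hys, mul_comm, hsc']
    field_simp
    linear_combination this
  rw [← V01.valuation_le_one_iff]
  have := congrArg V01.valuation hy'
  rw [map_mul, map_mul V01.valuation (algebraMap R1 F1 s), hval_s, hval_s', mul_one, mul_one] at this
  rw [this]
  exact (V01.valuation_le_one_iff _).2 (h.hV01 c)

/-- The generator `v = u` of `P01 R_y`, as an element of `R_y`. -/
noncomputable abbrev vy (_h : TripleChartData R2 𝔫 V01 V02 u u' π q ev D0) :
    ↥(locAt (F := F1) 𝔫) := algebraMap R1 ↥(locAt (F := F1) 𝔫) u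

/-- The generator `v' = u'` of the other branch, as an element of `R_y`. -/
noncomputable abbrev vy' (_h : TripleChartData R2 𝔫 V01 V02 u u' π q ev D0) :
    ↥(locAt (F := F1) 𝔫) := algebraMap R1 ↥(locAt (F := F1) 𝔫) u'

theorem coe_vy : ((h.vy : ↥(locAt (F := F1) 𝔫)) : F1) = algebraMap R1 F1 u := rfl

theorem coe_vy' : ((h.vy' : ↥(locAt (F := F1) 𝔫)) : F1) = algebraMap R1 F1 u' := rfl

theorem vy_ne_zero : h.vy ≠ 0 := by
  intro h0
  have : algebraMap R1 F1 u = 0 := by rw [← h.coe_vy, h0]; rfl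
  exact algebraMap_ne_zero h.u_ne this

/-- `P01 R_y = v R_y`. -/
theorem vCentre_locAt_eq_span : vCentre V01 h.hRy = Ideal.span {h.vy} := by
  apply le_antisymm
  · intro x hx
    rw [mem_vCentre_iff] at hx
    have hx' : (x : F1) ∈ V01.nonunits := hx
    have hquot := h.unif01 hx'
    obtain ⟨a, s, hs, hxs⟩ := (mem_locAt_iff 𝔫 (x : F1)).1 x.2
    have ha : algebraMap R1 F1 a ∈ V01.nonunits := by
      rw [← hxs]
      exact Fermat.Agent.P3G.LocVS.mul_mem_nonunits V01 hx' (h.hV01 s)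
    obtain ⟨s', c, hs', hsc⟩ := h.gen01 a ha
    have hsF : algebraMap R1 F1 s ≠ 0 := algebraMap_ne_zero_of_notMem 𝔫 hs
    have hs'F : algebraMap R1 F1 s' ≠ 0 := algebraMap_ne_zero_of_notMem 𝔫 hs'
    have hss' : s * s' ∉ 𝔫 := fun hmem =>
      (Ideal.IsPrime.mem_or_mem inferInstance hmem).elim hs hs'
    have hmem : algebraMap R1 F1 c / algebraMap R1 F1 (s * s') ∈ locAt (F := F1) 𝔫 :=
      div_mem_locAt 𝔫 c hss'
    rw [Ideal.mem_span_singleton]
    refine ⟨⟨_, hmem⟩, Subtype.ext ?_⟩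
    show (x : F1) = algebraMap R1 F1 u * (algebraMap R1 F1 c / algebraMap R1 F1 (s * s'))
    have hsc' : algebraMap R1 F1 s' * algebraMap R1 F1 a =
        algebraMap R1 F1 c * algebraMap R1 F1 u := by
      rw [← map_mul, ← map_mul, hsc]
    rw [map_mul]
    field_simp
    linear_combination (algebraMap R1 F1 s') * hxs + hsc'
  · rw [Ideal.span_singleton_le_iff_mem, mem_vCentre_iff]
    exact h.u_mem

theorem isPrime_span_vy : (Ideal.span {h.vy}).IsPrime := by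
  rw [← h.vCentre_locAt_eq_span]; infer_instance

theorem vy_not_isUnit : ¬ IsUnit h.vy := not_isUnit_of_isPrime_span h.isPrime_span_vy

theorem vy'_notMem_span : h.vy' ∉ Ideal.span {h.vy} := by
  rw [← h.vCentre_locAt_eq_span, mem_vCentre_iff]
  exact h.u'_not

/-- `𝔫 R_y = (v, v')`. -/
theorem maximalIdeal_locAt_eq :
    @IsLocalRing.maximalIdeal ↥(locAt (F := F1) 𝔫) _ (isLocalRing_locAt 𝔫) =
      Ideal.span {h.vy, h.vy'} := by
  have hloc : IsLocalRing ↥(locAt (F := F1) 𝔫) := isLocalRing_locAt 𝔫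
  apply le_antisymm
  · intro z hz
    obtain ⟨p, s, hp, hs, hzs⟩ := (mem_maximalIdeal_locAt_iff 𝔫 hloc z).1 hz
    obtain ⟨s', a, b, hs', hab⟩ := h.gen_max p hp
    have hsF : algebraMap R1 F1 s ≠ 0 := algebraMap_ne_zero_of_notMem 𝔫 hs
    have hs'F : algebraMap R1 F1 s' ≠ 0 := algebraMap_ne_zero_of_notMem 𝔫 hs'
    have hss' : s * s' ∉ 𝔫 := fun hmem =>
      (Ideal.IsPrime.mem_or_mem inferInstance hmem).elim hs hs'
    rw [Ideal.mem_span_pair]
    refine ⟨⟨_, div_mem_locAt 𝔫 a hss'⟩, ⟨_, div_mem_locAt 𝔫 b hss'⟩, Subtype.ext ?_⟩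
    show algebraMap R1 F1 a / algebraMap R1 F1 (s * s') * algebraMap R1 F1 u +
      algebraMap R1 F1 b / algebraMap R1 F1 (s * s') * algebraMap R1 F1 u' = (z : F1)
    have hab' : algebraMap R1 F1 s' * algebraMap R1 F1 p =
        algebraMap R1 F1 a * algebraMap R1 F1 u + algebraMap R1 F1 b * algebraMap R1 F1 u' := by
      rw [← map_mul, ← map_mul, ← map_mul, ← map_add, hab]
    rw [map_mul]
    field_simp
    linear_combination (-(algebraMap R1 F1 s')) * hzs - hab'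
  · rw [Ideal.span_le]
    rintro x (rfl | rfl)
    · exact (IsLocalization.AtPrime.to_map_mem_maximal_iff _ 𝔫 u).2 h.u_mem_n
    · exact (IsLocalization.AtPrime.to_map_mem_maximal_iff _ 𝔫 u').2 h.u'_mem

end Lower

section Upper

variable (h : TripleChartData R2 𝔫 V01 V02 u u' π q ev D0)
include h

/-- `𝔪_{V01} ⊆ 𝔪_{V02}` (along `F1 ⊆ F2`). -/
theorem algebraMap_mem_nonunits {x : F1} (hx : x ∈ V01.nonunits) :
    algebraMap F1 F2 x ∈ V02.nonunits := by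
  by_cases hx0 : x = 0
  · rw [hx0, map_zero]; exact Fermat.Agent.P3G.LocVS.zero_mem_nonunits V02
  have hxF : algebraMap F1 F2 x ≠ 0 := (map_ne_zero _).2 hx0
  rw [Fermat.Agent.P3G.LocVS.mem_nonunits_iff_inv_notMem V02 hxF, ← map_inv₀, h.comap]
  exact (Fermat.Agent.P3G.LocVS.mem_nonunits_iff_inv_notMem V01 hx0).1 hx

/-- `B = semiLoc 𝔫 ⊆ V02`. -/
theorem hVB (b : ↥(semiLoc R2 F1 F2 𝔫)) : algebraMap ↥(semiLoc R2 F1 F2 𝔫) F2 b ∈ V02 := by
  obtain ⟨r, s, hs, hbs⟩ := (mem_semiLoc_iff 𝔫 (b : F2)).1 b.2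
  have hsV : (algebraMap R1 F1 s)⁻¹ ∈ V01 := by
    rw [← V01.valuation_le_one_iff, map_inv₀, h.valuation_eq_one hs, inv_one]
  have hsF : algebraMap R1 F1 s ≠ 0 := algebraMap_ne_zero_of_notMem 𝔫 hs
  have h1 : algebraMap F1 F2 (algebraMap R1 F1 s)⁻¹ ∈ V02 := (h.comap _).2 hsV
  have h2 : (b : F2) = algebraMap R2 F2 r * algebraMap F1 F2 (algebraMap R1 F1 s)⁻¹ := by
    rw [map_inv₀, ← IsScalarTower.algebraMap_apply R1 F1 F2, ← hbs]
    have := algebraMap_R1_F2_ne_zero (F1 := F1) (F2 := F2) 𝔫 hs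
    field_simp
  show (b : F2) ∈ V02
  rw [h2]
  exact V02.mul_mem _ _ (h.hV02 r) h1

theorem coe_algebraMap_vy :
    algebraMap ↥(semiLoc R2 F1 F2 𝔫) F2 (algebraMap ↥(locAt (F := F1) 𝔫) ↥(semiLoc R2 F1 F2 𝔫) h.vy) =
      algebraMap F1 F2 (algebraMap R1 F1 u) := rfl

theorem hvV : algebraMap ↥(semiLoc R2 F1 F2 𝔫) F2
    (algebraMap ↥(locAt (F := F1) 𝔫) ↥(semiLoc R2 F1 F2 𝔫) h.vy) ∈ V02.nonunits := by
  rw [h.coe_algebraMap_vy]
  exact h.algebraMap_mem_nonunits h.u_mem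

/-- `u` is a uniformiser of `V02`. -/
theorem huni (x : F2) (hx : x ∈ V02.nonunits) :
    x * (algebraMap ↥(semiLoc R2 F1 F2 𝔫) F2
      (algebraMap ↥(locAt (F := F1) 𝔫) ↥(semiLoc R2 F1 F2 𝔫) h.vy))⁻¹ ∈ V02 := by
  rw [h.coe_algebraMap_vy]
  have h1 := h.unif02 x hx
  have h2 : algebraMap R1 F1 π * (algebraMap R1 F1 u)⁻¹ ∈ V01 := h.unif01 h.pi_mem
  have h3 : algebraMap F1 F2 (algebraMap R1 F1 π * (algebraMap R1 F1 u)⁻¹) ∈ V02 :=
    (h.comap _).2 h2
  have hπF : algebraMap R1 F2 π ≠ 0 := fun h0 =>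
    h.pi_ne (algebraMap_R1_F2_injective R1 F1 F2 (by rw [h0, map_zero]))
  have h4 : x * (algebraMap F1 F2 (algebraMap R1 F1 u))⁻¹ =
      x * (algebraMap R1 F2 π)⁻¹ *
        algebraMap F1 F2 (algebraMap R1 F1 π * (algebraMap R1 F1 u)⁻¹) := by
    rw [map_mul, map_inv₀, ← IsScalarTower.algebraMap_apply R1 F1 F2,
      ← IsScalarTower.algebraMap_apply R1 F1 F2]
    field_simp
  rw [h4]
  exact V02.mul_mem _ _ h1 h3

/-- The reduction of `honly` to the uniqueness statement of (V). -/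
theorem honly (𝔭 : Ideal ↥(semiLoc R2 F1 F2 𝔫)) [𝔭.IsPrime]
    (hdvr : IsDiscreteValuationRing (locAt (F := F2) 𝔭))
    (hunder : 𝔭.under ↥(locAt (F := F1) 𝔫) = Ideal.span {h.vy}) (x : F2) (hx : x ∈ V02) :
    x ∈ locAt (F := F2) 𝔭 := by
  set V' := vsOfDvr 𝔭 hdvr with hV'
  have hB : ∀ b : ↥(semiLoc R2 F1 F2 𝔫), (b : F2) ∈ V' := fun b =>
    algebraMap_mem_vsOfDvr 𝔭 hdvr b
  have hR2 : ∀ b : R2, algebraMap R2 F2 b ∈ V' := fun b =>
    hB (algebraMap R2 ↥(semiLoc R2 F1 F2 𝔫) b)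
  have huF : algebraMap R1 F1 u ≠ 0 := algebraMap_ne_zero h.u_ne
  have hcomap : V'.comap (algebraMap F1 F2) = V01 := by
    refine comap_eq_of_dominates V01 huF (fun y hy => h.unif01 hy) V' ?_ ?_
    · intro y hy
      obtain ⟨a, s, hs, hys⟩ := h.exists_of_mem_V01 hy
      -- the image of `s` in `B` is outside `𝔭`
      set sB : ↥(semiLoc R2 F1 F2 𝔫) := algebraMap ↥(locAt (F := F1) 𝔫) ↥(semiLoc R2 F1 F2 𝔫)
        (algebraMap R1 ↥(locAt (F := F1) 𝔫) s) with hsB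
      set aB : ↥(semiLoc R2 F1 F2 𝔫) := algebraMap ↥(locAt (F := F1) 𝔫) ↥(semiLoc R2 F1 F2 𝔫)
        (algebraMap R1 ↥(locAt (F := F1) 𝔫) a) with haB
      have hsB𝔭 : sB ∉ 𝔭 := by
        intro hmem
        have h1 : algebraMap R1 ↥(locAt (F := F1) 𝔫) s ∈ 𝔭.under ↥(locAt (F := F1) 𝔫) := hmem
        rw [hunder, ← h.vCentre_locAt_eq_span, mem_vCentre_iff] at h1
        exact hs h1
      have hdiv := div_mem_locAt (F := F2) 𝔭 aB hsB𝔭
      have hsF : algebraMap R1 F1 s ≠ 0 := by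
        intro h0
        apply hs
        rw [h0]
        exact Fermat.Agent.P3G.LocVS.zero_mem_nonunits V01
      have : algebraMap F1 F2 y =
          algebraMap ↥(semiLoc R2 F1 F2 𝔫) F2 aB / algebraMap ↥(semiLoc R2 F1 F2 𝔫) F2 sB := by
        show algebraMap F1 F2 y =
          algebraMap F1 F2 (algebraMap R1 F1 a) / algebraMap F1 F2 (algebraMap R1 F1 s)
        rw [← map_div₀, ← hys, mul_div_cancel_right₀ _ hsF]
      rw [this]
      exact hdiv
    · have hv𝔭 : algebraMap ↥(locAt (F := F1) 𝔫) ↥(semiLoc R2 F1 F2 𝔫) h.vy ∈ 𝔭 := by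
        have : h.vy ∈ 𝔭.under ↥(locAt (F := F1) 𝔫) := by
          rw [hunder]; exact Ideal.mem_span_singleton_self _
        exact this
      exact algebraMap_mem_nonunits_vsOfDvr 𝔭 hdvr hv𝔭
  have heq := h.only V' hR2 hcomap
  have : x ∈ V' := by rw [heq]; exact hx
  exact this

/-- **(T1) at chart level**: `u B = P02 ∩ B`. -/
theorem span_eq_vCentre :
    Ideal.span {algebraMap ↥(locAt (F := F1) 𝔫) ↥(semiLoc R2 F1 F2 𝔫) h.vy} =
      vCentre V02 h.hVB := by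
  haveI : IsIntegrallyClosed ↥(locAt (F := F1) 𝔫) :=
    isIntegrallyClosed_of_isLocalization _ 𝔫.primeCompl 𝔫.primeCompl_le_nonZeroDivisors
  exact TripleAbstract.span_eq_vCentre h.isPrime_span_vy h.vy_ne_zero V02 h.hVB h.hvV h.huni
    (fun 𝔭 _ hdvr hunder x hx => h.honly 𝔭 hdvr hunder x hx)

/-- `B ⊆ V02` as a ring homomorphism. -/
noncomputable def inclB : ↥(semiLoc R2 F1 F2 𝔫) →+* ↥V02 :=
  (algebraMap ↥(semiLoc R2 F1 F2 𝔫) F2).codRestrict V02 h.hVB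

theorem coe_inclB (b : ↥(semiLoc R2 F1 F2 𝔫)) : ((h.inclB b : ↥V02) : F2) = (b : F2) := rfl

/-- The residue map of `B` modulo `P02`. -/
noncomputable def res : ↥(semiLoc R2 F1 F2 𝔫) →+* κ := ev.comp h.inclB

theorem res_apply (b : ↥(semiLoc R2 F1 F2 𝔫)) : h.res b = ev (h.inclB b) := rfl

theorem ker_res : RingHom.ker h.res = vCentre V02 h.hVB := by
  ext b
  rw [RingHom.mem_ker, h.res_apply, h.ev_ker, mem_vCentre_iff]
  rfl

theorem ker_res_eq_span :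
    RingHom.ker h.res =
      Ideal.span {algebraMap ↥(locAt (F := F1) 𝔫) ↥(semiLoc R2 F1 F2 𝔫) h.vy} :=
  h.ker_res.trans h.span_eq_vCentre.symm

/-- The residue map of `R_y` modulo `P01 R_y`. -/
noncomputable def rho : ↥(locAt (F := F1) 𝔫) →+* κ :=
  h.res.comp (algebraMap ↥(locAt (F := F1) 𝔫) ↥(semiLoc R2 F1 F2 𝔫))

theorem ker_rho : RingHom.ker h.rho = Ideal.span {h.vy} := by
  haveI : IsIntegrallyClosed ↥(locAt (F := F1) 𝔫) :=
    isIntegrallyClosed_of_isLocalization _ 𝔫.primeCompl 𝔫.primeCompl_le_nonZeroDivisors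
  have h1 : RingHom.ker h.rho =
      (RingHom.ker h.res).under ↥(locAt (F := F1) 𝔫) := by
    ext r; rfl
  rw [h1, h.ker_res_eq_span]
  exact under_span_singleton h.vy_ne_zero

theorem isDiscreteValuationRing_range_rho : IsDiscreteValuationRing h.rho.range := by
  haveI : IsLocalRing ↥(locAt (F := F1) 𝔫) := isLocalRing_locAt 𝔫
  haveI : IsNoetherianRing ↥(locAt (F := F1) 𝔫) := isNoetherianRing_locAt 𝔫
  refine isDiscreteValuationRing_range h.rho h.ker_rho h.maximalIdeal_locAt_eq ?_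
  intro h0
  rw [← RingHom.mem_ker, h.ker_rho] at h0
  exact h.vy'_notMem_span h0

/-- Pure inseparability at the level of `B` and `R_y`. -/
theorem exists_rho_eq (b : ↥(semiLoc R2 F1 F2 𝔫)) :
    ∃ r : ↥(locAt (F := F1) 𝔫), h.res b ^ q = h.rho r := by
  haveI := h.isDiscreteValuationRing_range_rho
  obtain ⟨y, ⟨y₁, hy₁, hyy₁⟩, hfr⟩ := h.frob (h.inclB b)
  obtain ⟨a, s, hs, hys⟩ := h.exists_of_mem_V01 hy₁
  set sR : ↥(locAt (F := F1) 𝔫) := algebraMap R1 ↥(locAt (F := F1) 𝔫) s with hsR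
  set aR : ↥(locAt (F := F1) 𝔫) := algebraMap R1 ↥(locAt (F := F1) 𝔫) a with haR
  -- `ev y` is integral over the image of `R_y`
  have hint : IsIntegral h.rho.range (ev y) := by
    rw [← hfr]
    refine IsIntegral.pow ?_ q
    have hb : IsIntegral ↥(locAt (F := F1) 𝔫) b := Algebra.IsIntegral.isIntegral b
    exact hb.map_of_comp_eq h.rho.rangeRestrict h.res (by ext r; rfl)
  have hd₂0 : h.rho sR ≠ 0 := by
    intro h0
    rw [← RingHom.mem_ker, h.ker_rho, ← h.vCentre_locAt_eq_span, mem_vCentre_iff] at h0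
    exact hs h0
  have hmul : ev y * h.rho sR = h.rho aR := by
    have h1 : y * h.inclB (algebraMap ↥(locAt (F := F1) 𝔫) ↥(semiLoc R2 F1 F2 𝔫) sR) =
        h.inclB (algebraMap ↥(locAt (F := F1) 𝔫) ↥(semiLoc R2 F1 F2 𝔫) aR) := by
      apply Subtype.ext
      show (y : F2) * algebraMap F1 F2 (algebraMap R1 F1 s) = algebraMap F1 F2 (algebraMap R1 F1 a)
      rw [hyy₁, ← map_mul, hys]
    show ev y * ev (h.inclB _) = ev (h.inclB _)
    rw [← map_mul, h1]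
  have hmem := mem_of_isIntegral_of_mul_eq h.rho.range hint ⟨aR, rfl⟩ ⟨sR, rfl⟩ hd₂0 hmul
  obtain ⟨r, hr⟩ := hmem
  exact ⟨r, by rw [hr]; exact hfr⟩

/-- **ONE point over the crossing point**: `B` is local. -/
theorem isLocalRing_semiLoc [ExpChar κ q] : IsLocalRing ↥(semiLoc R2 F1 F2 𝔫) := by
  haveI : IsLocalRing ↥(locAt (F := F1) 𝔫) := isLocalRing_locAt 𝔫
  refine isLocalRing_of_frobenius (R := ↥(locAt (F := F1) 𝔫)) q h.res ?_ ?_
  · rw [h.ker_res_eq_span, Ideal.span_singleton_le_iff_mem]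
    have := algebraMap_mul_mem_jacobson (B := ↥(semiLoc R2 F1 F2 𝔫)) h.vy_not_isUnit 1
    rwa [mul_one] at this
  · intro b
    obtain ⟨r, hr⟩ := h.exists_rho_eq b
    exact ⟨1, r, by rw [pow_one]; exact hr⟩

end Upper

section Regular

variable (h : TripleChartData R2 𝔫 V01 V02 u u' π q ev D0)
  (hloc : IsLocalRing ↥(semiLoc R2 F1 F2 𝔫))
include h

/-- `D0 ⊆ res (B)`. -/
theorem exists_res_eq_of_mem_D0 {d : κ} (hd : d ∈ D0) :
    ∃ b : ↥(semiLoc R2 F1 F2 𝔫), h.res b = d := by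
  obtain ⟨b, y, hyb, hy⟩ := h.D0_le d hd
  refine ⟨algebraMap R2 ↥(semiLoc R2 F1 F2 𝔫) b, ?_⟩
  rw [h.res_apply, ← hy]
  congr 1
  exact Subtype.ext hyb.symm

theorem res_vy_mul (b : ↥(semiLoc R2 F1 F2 𝔫)) :
    h.res (algebraMap ↥(locAt (F := F1) 𝔫) ↥(semiLoc R2 F1 F2 𝔫) h.vy * b) = 0 := by
  rw [← RingHom.mem_ker, h.ker_res_eq_span]
  exact Ideal.mul_mem_right _ _ (Ideal.mem_span_singleton_self _)

include hloc in
/-- The kernel of `res` lies in the maximal ideal. -/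
theorem not_isUnit_of_res_eq_zero {b : ↥(semiLoc R2 F1 F2 𝔫)} (hb : h.res b = 0) : ¬ IsUnit b := by
  intro hu
  have h1 : h.res b ≠ 0 := (hu.map h.res).ne_zero
  exact h1 hb

include hloc in
theorem not_isUnit_of_res_eq {b b' : ↥(semiLoc R2 F1 F2 𝔫)} (hb' : ¬ IsUnit b')
    (hbb' : h.res b = h.res b') : ¬ IsUnit b := by
  haveI := hloc
  have h1 : ¬ IsUnit (b - b') := by
    apply h.not_isUnit_of_res_eq_zero hloc
    rw [map_sub, hbb', sub_self]
  have h2 := (IsLocalRing.mem_maximalIdeal _).2 h1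
  have h3 := (IsLocalRing.mem_maximalIdeal _).2 hb'
  have h4 := Ideal.add_mem _ h2 h3
  rw [sub_add_cancel] at h4
  exact (IsLocalRing.mem_maximalIdeal _).1 h4

/-- The point `x0` of the special fibre of the base level below the triple point: the prime
`𝔪_B ∩ D0` of `D0`. -/
noncomputable def p0 : Ideal ↥D0 where
  carrier := {d | ∃ b : ↥(semiLoc R2 F1 F2 𝔫), ¬ IsUnit b ∧ h.res b = (d : κ)}
  zero_mem' := ⟨0, not_isUnit_zero, by simp⟩
  add_mem' := by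
    haveI := hloc
    rintro d₁ d₂ ⟨b₁, hb₁, h₁⟩ ⟨b₂, hb₂, h₂⟩
    refine ⟨b₁ + b₂, ?_, by rw [map_add, h₁, h₂]; rfl⟩
    exact (IsLocalRing.mem_maximalIdeal _).1
      (Ideal.add_mem _ ((IsLocalRing.mem_maximalIdeal _).2 hb₁)
        ((IsLocalRing.mem_maximalIdeal _).2 hb₂))
  smul_mem' := by
    rintro c d ⟨b, hb, hbd⟩
    obtain ⟨bc, hbc⟩ := h.exists_res_eq_of_mem_D0 c.2
    refine ⟨bc * b, fun hu => hb (isUnit_of_mul_isUnit_right hu), ?_⟩
    rw [map_mul, hbc, hbd]; rfl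

theorem mem_p0_iff (d : ↥D0) :
    d ∈ h.p0 hloc ↔ ∃ b : ↥(semiLoc R2 F1 F2 𝔫), ¬ IsUnit b ∧ h.res b = (d : κ) := Iff.rfl

theorem isUnit_of_notMem_p0 {d : ↥D0} (hd : d ∉ h.p0 hloc) {b : ↥(semiLoc R2 F1 F2 𝔫)}
    (hb : h.res b = (d : κ)) : IsUnit b := by
  by_contra hu
  exact hd ⟨b, hu, hb⟩

theorem isPrime_p0 : (h.p0 hloc).IsPrime := by
  haveI := hloc
  rw [Ideal.isPrime_iff]
  constructor
  · intro htop
    have h1 : (1 : ↥D0) ∈ h.p0 hloc := by rw [htop]; trivial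
    obtain ⟨b, hb, hb1⟩ := h1
    have : ¬ IsUnit (1 : ↥(semiLoc R2 F1 F2 𝔫)) :=
      h.not_isUnit_of_res_eq hloc hb (by rw [map_one, hb1]; rfl)
    exact this isUnit_one
  · rintro c d ⟨b, hb, hbcd⟩
    obtain ⟨bc, hbc⟩ := h.exists_res_eq_of_mem_D0 c.2
    obtain ⟨bd, hbd⟩ := h.exists_res_eq_of_mem_D0 d.2
    have h1 : ¬ IsUnit (bc * bd) :=
      h.not_isUnit_of_res_eq hloc hb (by rw [map_mul, hbc, hbd, hbcd]; rfl)
    have h2 : bc * bd ∈ IsLocalRing.maximalIdeal ↥(semiLoc R2 F1 F2 𝔫) :=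
      (IsLocalRing.mem_maximalIdeal _).2 h1
    rcases (IsLocalRing.maximalIdeal.isMaximal _).isPrime.mem_or_mem h2 with h3 | h3
    · exact Or.inl ⟨bc, (IsLocalRing.mem_maximalIdeal _).1 h3, hbc⟩
    · exact Or.inr ⟨bd, (IsLocalRing.mem_maximalIdeal _).1 h3, hbd⟩

theorem res_vy'_ne_zero :
    h.res (algebraMap ↥(locAt (F := F1) 𝔫) ↥(semiLoc R2 F1 F2 𝔫) h.vy') ≠ 0 := by
  intro h0
  have : h.vy' ∈ RingHom.ker h.rho := h0
  rw [h.ker_rho] at this
  exact h.vy'_notMem_span this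

theorem vy'_not_isUnit : ¬ IsUnit h.vy' := by
  haveI : IsLocalRing ↥(locAt (F := F1) 𝔫) := isLocalRing_locAt 𝔫
  rw [← mem_nonunits_iff, ← IsLocalRing.mem_maximalIdeal]
  exact (IsLocalization.AtPrime.to_map_mem_maximal_iff _ 𝔫 u').2 h.u'_mem

theorem p0_ne_bot : h.p0 hloc ≠ ⊥ := by
  haveI := hloc
  intro hbot
  -- `res (v')` is a quotient of elements of `D0`, with nonzero numerator, hence a unit of `res (B)`
  set b' := algebraMap ↥(locAt (F := F1) 𝔫) ↥(semiLoc R2 F1 F2 𝔫) h.vy' with hb'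
  obtain ⟨d₁, hd₁, d₂, hd₂, hd₂0, hdd⟩ := h.D0_frac (h.inclB b')
  have hres : h.res b' * d₂ = d₁ := hdd
  have hd₁0 : d₁ ≠ 0 := by
    rw [← hres]
    exact mul_ne_zero h.res_vy'_ne_zero hd₂0
  obtain ⟨b₁, hb₁⟩ := h.exists_res_eq_of_mem_D0 hd₁
  obtain ⟨b₂, hb₂⟩ := h.exists_res_eq_of_mem_D0 hd₂
  have hnot : (⟨d₁, hd₁⟩ : ↥D0) ∉ h.p0 hloc := by
    rw [hbot, Ideal.mem_bot]
    intro h0
    exact hd₁0 (congrArg Subtype.val h0)
  have hu₁ : IsUnit b₁ := h.isUnit_of_notMem_p0 hloc hnot hb₁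
  have hb'nu : ¬ IsUnit b' := by
    intro hu
    obtain ⟨M, hM⟩ := Ideal.exists_maximal ↥(semiLoc R2 F1 F2 𝔫)
    haveI := hM
    haveI : IsLocalRing ↥(locAt (F := F1) 𝔫) := isLocalRing_locAt 𝔫
    exact hM.ne_top (Ideal.eq_top_of_isUnit_mem _
      (algebraMap_mem_of_isMaximal h.vy'_not_isUnit M) hu)
  have h2 : ¬ IsUnit (b' * b₂) := fun hu => hb'nu (isUnit_of_mul_isUnit_left hu)
  exact (h.not_isUnit_of_res_eq hloc h2 (by rw [map_mul, hb₁, hb₂, hres])) hu₁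

/-- The local ring at `x0` of the special fibre of the base level, inside `κ`. -/
noncomputable def Dx : Subring κ :=
  haveI := h.isPrime_p0 hloc
  (locIn κ (h.p0 hloc)).toSubring

theorem mem_Dx_iff (x : κ) :
    x ∈ h.Dx hloc ↔ ∃ a s : ↥D0, s ∉ h.p0 hloc ∧ x * (s : κ) = (a : κ) := by
  haveI := h.isPrime_p0 hloc
  exact mem_locIn_iff (h.p0 hloc) x

theorem isDiscreteValuationRing_Dx [IsDedekindDomain ↥D0] :
    IsDiscreteValuationRing ↥(h.Dx hloc) := by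
  haveI := h.isPrime_p0 hloc
  exact isDiscreteValuationRing_locIn (Ω := κ) (h.p0 hloc) (h.p0_ne_bot hloc)

theorem D0_le_Dx {d : κ} (hd : d ∈ D0) : d ∈ h.Dx hloc := by
  haveI := h.isPrime_p0 hloc
  rw [mem_Dx_iff]
  exact ⟨⟨d, hd⟩, 1, fun h1 => (h.isPrime_p0 hloc).ne_top ((Ideal.eq_top_iff_one _).2 h1),
    by simp⟩

/-- **The hypotheses of (T2)** hold for `B = semiLoc 𝔫`, `v = u`, `D = Dx`. -/
theorem resData : ResData h.vy h.res (h.Dx hloc) where
  ker_eq := h.ker_res_eq_span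
  le_range := by
    intro d hd
    obtain ⟨a, s, hs, hds⟩ := (h.mem_Dx_iff hloc d).1 hd
    obtain ⟨ba, hba⟩ := h.exists_res_eq_of_mem_D0 a.2
    obtain ⟨bs, hbs⟩ := h.exists_res_eq_of_mem_D0 s.2
    have hus : IsUnit bs := h.isUnit_of_notMem_p0 hloc hs hbs
    obtain ⟨c, hc⟩ := hus.exists_right_inv
    refine ⟨ba * c, ?_⟩
    have hsc : (s : κ) * h.res c = 1 := by rw [← hbs, ← map_mul, hc, map_one]
    rw [map_mul, hba, ← hds]
    calc d * (s : κ) * h.res c = d * ((s : κ) * h.res c) := by ring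
      _ = d := by rw [hsc, mul_one]
  frac := by
    intro b
    obtain ⟨d₁, hd₁, d₂, hd₂, hd₂0, hdd⟩ := h.D0_frac (h.inclB b)
    exact ⟨d₁, h.D0_le_Dx hloc hd₁, d₂, h.D0_le_Dx hloc hd₂, hd₂0, hdd⟩
  not_max := ⟨h.vy', h.vy'_not_isUnit, h.vy'_notMem_span⟩

end Regular

section Final

variable (h : TripleChartData R2 𝔫 V01 V02 u u' π q ev D0) [ExpChar κ q] [IsDedekindDomain ↥D0]
include h

/-- The image of `u` in `B`. -/
noncomputable abbrev uB (_h : TripleChartData R2 𝔫 V01 V02 u u' π q ev D0) :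
    ↥(semiLoc R2 F1 F2 𝔫) :=
  algebraMap ↥(locAt (F := F1) 𝔫) ↥(semiLoc R2 F1 F2 𝔫) (algebraMap R1 ↥(locAt (F := F1) 𝔫) u)

theorem coe_uB : ((h.uB : ↥(semiLoc R2 F1 F2 𝔫)) : F2) = algebraMap R1 F2 u := by
  show algebraMap F1 F2 (algebraMap R1 F1 u) = algebraMap R1 F2 u
  rw [← IsScalarTower.algebraMap_apply R1 F1 F2]

/-- **`u` is a prime element of `B`** (generating `P02 B`). -/
theorem prime_uB : Prime h.uB :=
  (h.resData h.isLocalRing_semiLoc).prime h.vy_ne_zero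

/-- **`B` is factorial.** -/
theorem uniqueFactorizationMonoid_semiLoc : UniqueFactorizationMonoid ↥(semiLoc R2 F1 F2 𝔫) := by
  have hloc := h.isLocalRing_semiLoc
  haveI : IsLocalRing ↥(locAt (F := F1) 𝔫) := isLocalRing_locAt 𝔫
  haveI : IsIntegrallyClosed ↥(locAt (F := F1) 𝔫) :=
    isIntegrallyClosed_of_isLocalization _ 𝔫.primeCompl 𝔫.primeCompl_le_nonZeroDivisors
  haveI := h.isDiscreteValuationRing_Dx hloc
  exact (h.resData hloc).uniqueFactorizationMonoid h.vy_ne_zero h.vy_not_isUnit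

/-- **`B` is regular**: `𝔪_B = (u, s)`. -/
theorem exists_maximalIdeal_semiLoc_eq :
    ∃ s : ↥(semiLoc R2 F1 F2 𝔫),
      @IsLocalRing.maximalIdeal ↥(semiLoc R2 F1 F2 𝔫) _ h.isLocalRing_semiLoc =
        Ideal.span {h.uB, s} := by
  have hloc := h.isLocalRing_semiLoc
  haveI := hloc
  haveI : IsLocalRing ↥(locAt (F := F1) 𝔫) := isLocalRing_locAt 𝔫
  haveI : IsIntegrallyClosed ↥(locAt (F := F1) 𝔫) :=
    isIntegrallyClosed_of_isLocalization _ 𝔫.primeCompl 𝔫.primeCompl_le_nonZeroDivisors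
  haveI := h.isDiscreteValuationRing_Dx hloc
  exact (h.resData hloc).exists_maximalIdeal_eq h.vy_ne_zero h.vy_not_isUnit

/-- **Every prime of `B` not containing `u` is principal** (`P20 B`, `P11 B`, horizontal primes). -/
theorem isPrincipal_of_prime_semiLoc (P : Ideal ↥(semiLoc R2 F1 F2 𝔫)) [P.IsPrime]
    (hP : h.uB ∉ P) : ∃ x ∈ P, P = Ideal.span {x} := by
  have hloc := h.isLocalRing_semiLoc
  haveI : IsLocalRing ↥(locAt (F := F1) 𝔫) := isLocalRing_locAt 𝔫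
  haveI : IsIntegrallyClosed ↥(locAt (F := F1) 𝔫) :=
    isIntegrallyClosed_of_isLocalization _ 𝔫.primeCompl 𝔫.primeCompl_le_nonZeroDivisors
  haveI := h.isDiscreteValuationRing_Dx hloc
  exact (h.resData hloc).isPrincipal_of_prime h.vy_ne_zero h.vy_not_isUnit P hP

/-- `B / u B` is a principal ideal ring. -/
theorem isPrincipalIdealRing_quotient :
    IsPrincipalIdealRing (↥(semiLoc R2 F1 F2 𝔫) ⧸ Ideal.span {h.uB}) := by
  have hloc := h.isLocalRing_semiLoc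
  haveI : IsLocalRing ↥(locAt (F := F1) 𝔫) := isLocalRing_locAt 𝔫
  haveI : IsIntegrallyClosed ↥(locAt (F := F1) 𝔫) :=
    isIntegrallyClosed_of_isLocalization _ 𝔫.primeCompl 𝔫.primeCompl_le_nonZeroDivisors
  haveI := h.isDiscreteValuationRing_Dx hloc
  exact (h.resData hloc).isPrincipalIdealRing h.vy_ne_zero h.vy_not_isUnit

/-- `u B = P02 ∩ B`, elementwise. -/
theorem mem_span_uB_iff (b : ↥(semiLoc R2 F1 F2 𝔫)) :
    b ∈ Ideal.span {h.uB} ↔ (b : F2) ∈ V02.nonunits := by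
  show b ∈ Ideal.span {algebraMap ↥(locAt (F := F1) 𝔫) ↥(semiLoc R2 F1 F2 𝔫) h.vy} ↔ _
  rw [h.span_eq_vCentre, mem_vCentre_iff]
  rfl

/-! ### The point `x` of the upper chart -/

variable (𝔫' : Ideal R2) [h𝔫' : 𝔫'.IsMaximal]

/-- **ONE point**: the local ring of `R2` at a maximal ideal over `𝔫` is `B`. -/
theorem locAt_eq_semiLoc (hle : 𝔫'.under R1 ≤ 𝔫) : locAt (F := F2) 𝔫' = semiLoc R2 F1 F2 𝔫 := by
  haveI := h.isLocalRing_semiLoc
  exact SemiLocal.locAt_eq_semiLoc 𝔫 𝔫' hle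

/-- **ONE point**, uniqueness. -/
theorem eq_of_under_le (𝔫'' : Ideal R2) [𝔫''.IsMaximal] (hle : 𝔫'.under R1 ≤ 𝔫)
    (hle'' : 𝔫''.under R1 ≤ 𝔫) : 𝔫' = 𝔫'' := by
  haveI := h.isLocalRing_semiLoc
  exact SemiLocal.eq_of_isLocalRing (F1 := F1) (F2 := F2) 𝔫 𝔫' 𝔫'' hle hle''

/-- Every prime of `R2` whose contraction lies in `𝔫` (e.g. the centres of `V20`, `V11`, `V02`)
passes through the point over `𝔫`: the point lies on all three components. -/
theorem le_of_under_le (hle : 𝔫'.under R1 ≤ 𝔫) (P : Ideal R2) [P.IsPrime]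
    (hP : P.under R1 ≤ 𝔫) : P ≤ 𝔫' := by
  haveI := h.isLocalRing_semiLoc
  exact SemiLocal.le_of_under_le (F1 := F1) (F2 := F2) 𝔫 𝔫' hle P hP

/-- The local ring of `R2` at the triple point is factorial. -/
theorem uniqueFactorizationMonoid_locAt (hle : 𝔫'.under R1 ≤ 𝔫) :
    UniqueFactorizationMonoid ↥(locAt (F := F2) 𝔫') := by
  rw [h.locAt_eq_semiLoc 𝔫' hle]
  exact h.uniqueFactorizationMonoid_semiLoc

/-- `P02 R_x = u R_x`, at chart level. -/
theorem exists_mul_eq_of_mem_nonunits (hle : 𝔫'.under R1 ≤ 𝔫) {r : R2}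
    (hr : algebraMap R2 F2 r ∈ V02.nonunits) :
    ∃ t c : R2, t ∉ 𝔫' ∧ t * r = c * algebraMap R1 R2 u := by
  have h1 : algebraMap R2 ↥(semiLoc R2 F1 F2 𝔫) r ∈ Ideal.span {h.uB} :=
    (h.mem_span_uB_iff _).2 hr
  rw [Ideal.mem_span_singleton] at h1
  obtain ⟨b, hb⟩ := h1
  obtain ⟨c, s, hs, hbs⟩ := (mem_semiLoc_iff 𝔫 (b : F2)).1 b.2
  refine ⟨algebraMap R1 R2 s, c, fun hmem => hs (hle hmem), ?_⟩
  apply IsFractionRing.injective R2 F2
  have hb' : algebraMap R2 F2 r = algebraMap R1 F2 u * (b : F2) := by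
    have := congrArg Subtype.val hb
    rw [MulMemClass.coe_mul, h.coe_uB] at this
    exact this
  rw [map_mul, map_mul, ← IsScalarTower.algebraMap_apply R1 R2 F2,
    ← IsScalarTower.algebraMap_apply R1 R2 F2, hb', ← hbs]
  ring

end Final

end TripleChartData

end Fermat.Agent.S36.R2.TripleChart
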