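/-
S36 block [R2], chart-level complements (hypothesis-driven): the branches through a triple point and
the local data of one degeneracy map (`D/NormGlue.SplitInsep`, fields of block [R2]).

`R1 ⊆ R2`, `F1 ⊆ F2`, `𝔫` maximal in `R1` as in `TripleChart`; `R_y = locAt 𝔫`, `B = semiLoc 𝔫`.
* `BranchData 𝔫 U w w'` : a branch `U` (valuation ring of `F1`) through `𝔫` with `P_U R_y = w R_y`,
  `𝔫 R_y = (w, w')`, `w' ∉ P_U` (output of (R1), for either branch of a crossing point);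
  `R_y / w R_y` is a discrete valuation ring.
* `exists_lift` : if `V ⊇ R2` is a valuation ring of `F2` over `U` with
  `∀ x ∈ V, ∃ y ∈ U, x ^ n - y ∈ 𝔪_V` (residue extension trivial, `n = 1`, or purely inseparable,
  `n = q`), then `∀ b ∈ B, ∃ r ∈ R_y, b ^ n - r ∈ 𝔪_V` (integrality + normality of the branch).
* `isPrincipalIdealRing_quotient_of_lift` : for `n = 1`, `S / (𝔪_V ∩ S)` is a principal ideal ring
  for every subalgebra `S = B` (the branch `V` is smooth at the point).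
* `inclLoc`, `norm_unit` : the local homomorphism `R_y → R_x` and the norm of a unit.
-/
import Mathlib
import Fermat.Agent.S36.R2.TripleChart
import Fermat.Agent.S36.Local.LocalRoot
import Fermat.Agent.S36.D.NormGlue

set_option autoImplicit false
set_option linter.unusedSectionVars false
set_option linter.style.haveILetI false
set_option linter.overlappingInstances false

namespace Fermat.Agent.S36.R2.TripleBranches

open Fermat.Agent.N4.Cover.Globalize Fermat.Agent.P3G.Krull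
open Fermat.Agent.S36.R2.TripleAbstract Fermat.Agent.S36.R2.TripleLocal
open Fermat.Agent.S36.R2.SemiLocal Fermat.Agent.S36.R2.ValTools

variable {R1 R2 F1 F2 : Type*} [CommRing R1] [IsDomain R1] [IsNoetherianRing R1]
  [IsIntegrallyClosed R1] [CommRing R2] [IsDomain R2] [IsNoetherianRing R2] [IsIntegrallyClosed R2]
  [Field F1] [Field F2] [Algebra R1 F1] [IsFractionRing R1 F1] [Algebra R2 F2] [IsFractionRing R2 F2]
  [Algebra R1 R2] [Algebra F1 F2] [Algebra R1 F2] [IsScalarTower R1 R2 F2] [IsScalarTower R1 F1 F2]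
  [Algebra.IsIntegral R1 R2]

/-- A branch `U` through the point `𝔫` of the lower chart, with generator `w` and transversal
parameter `w'`. -/
structure BranchData (𝔫 : Ideal R1) (U : ValuationSubring F1) (w w' : R1) : Prop where
  hU : ∀ r : R1, algebraMap R1 F1 r ∈ U
  centre_le : ∀ r : R1, algebraMap R1 F1 r ∈ U.nonunits → r ∈ 𝔫
  w_mem : algebraMap R1 F1 w ∈ U.nonunits
  w_ne : w ≠ 0
  gen : ∀ r : R1, algebraMap R1 F1 r ∈ U.nonunits → ∃ s c : R1, s ∉ 𝔫 ∧ s * r = c * w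
  w'_mem : w' ∈ 𝔫
  w'_not : algebraMap R1 F1 w' ∉ U.nonunits
  gen_max : ∀ r ∈ 𝔫, ∃ s a b : R1, s ∉ 𝔫 ∧ s * r = a * w + b * w'

namespace BranchData

variable {𝔫 : Ideal R1} [h𝔫 : 𝔫.IsMaximal] {U : ValuationSubring F1} {w w' : R1}

section Lower

variable (h : BranchData 𝔫 U w w')
include h

/-- `P01 := 𝔪_{U} ∩ R1`. -/
theorem vCentre_le : vCentre U h.hU ≤ 𝔫 := fun r hr =>
  h.centre_le r ((mem_vCentre_iff U h.hU).1 hr)

theorem w_mem_vCentre : w ∈ vCentre U h.hU := (mem_vCentre_iff U h.hU).2 h.w_mem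

theorem w_mem_n : w ∈ 𝔫 := h.vCentre_le h.w_mem_vCentre

theorem valuation_eq_one {s : R1} (hs : s ∉ 𝔫) : U.valuation (algebraMap R1 F1 s) = 1 :=
  valuation_eq_one_of_notMem_vCentre U h.hU (fun hmem => hs (h.vCentre_le hmem))

/-- `R_y ⊆ U`. -/
theorem mem_U_of_mem_locAt {x : F1} (hx : x ∈ locAt (F := F1) 𝔫) : x ∈ U := by
  obtain ⟨a, s, hs, hxs⟩ := (mem_locAt_iff 𝔫 x).1 hx
  rw [← U.valuation_le_one_iff]
  have := congrArg U.valuation hxs
  rw [map_mul, h.valuation_eq_one hs, mul_one] at this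
  rw [this]
  exact (U.valuation_le_one_iff _).2 (h.hU a)

theorem hRy (r : ↥(locAt (F := F1) 𝔫)) : algebraMap ↥(locAt (F := F1) 𝔫) F1 r ∈ U :=
  h.mem_U_of_mem_locAt r.2

/-- `P01` is a DVR-prime of `R1`. -/
theorem isDiscreteValuationRing_locAt_vCentre :
    IsDiscreteValuationRing (locAt (F := F1) (vCentre U h.hU)) := by
  refine isDiscreteValuationRing_locAt_of_principal (vCentre U h.hU) h.w_mem_vCentre h.w_ne ?_
  intro p hp
  obtain ⟨s, c, hs, hsc⟩ := h.gen p ((mem_vCentre_iff U h.hU).1 hp)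
  exact ⟨s, c, fun hmem => hs (h.vCentre_le hmem), hsc⟩

/-- `U` is the localisation of `R1` at `P01`. -/
theorem exists_of_mem_U {x : F1} (hx : x ∈ U) :
    ∃ a s : R1, algebraMap R1 F1 s ∉ U.nonunits ∧ x * algebraMap R1 F1 s = algebraMap R1 F1 a := by
  have h1 := (mem_valuationSubring_iff_mem_locAt U h.hU (vCentre U h.hU) rfl
    h.isDiscreteValuationRing_locAt_vCentre x).1 hx
  obtain ⟨a, s, hs, hxs⟩ := (mem_locAt_iff _ x).1 h1
  exact ⟨a, s, fun hmem => hs ((mem_vCentre_iff U h.hU).2 hmem), hxs⟩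

/-- `w` is a uniformiser of `U`. -/
theorem unifU {y : F1} (hy : y ∈ U.nonunits) : y * (algebraMap R1 F1 w)⁻¹ ∈ U := by
  have hyV : y ∈ U := U.nonunits_le hy
  obtain ⟨a, s, hs, hys⟩ := h.exists_of_mem_U hyV
  have ha : algebraMap R1 F1 a ∈ U.nonunits := by
    rw [← hys]
    exact Fermat.Agent.P3G.LocVS.mul_mem_nonunits U hy (h.hU s)
  obtain ⟨s', c, hs', hsc⟩ := h.gen a ha
  have hsF : algebraMap R1 F1 s ≠ 0 := by
    intro h0
    apply hs
    rw [h0]
    exact Fermat.Agent.P3G.LocVS.zero_mem_nonunits U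
  have hs'F : algebraMap R1 F1 s' ≠ 0 := algebraMap_ne_zero_of_notMem 𝔫 hs'
  have huF : algebraMap R1 F1 w ≠ 0 := algebraMap_ne_zero h.w_ne
  have hsc' : algebraMap R1 F1 s' * algebraMap R1 F1 a = algebraMap R1 F1 c * algebraMap R1 F1 w := by
    rw [← map_mul, ← map_mul, hsc]
  have hval_s : U.valuation (algebraMap R1 F1 s) = 1 :=
    valuation_eq_one_of_mem_of_notMem_nonunits (h.hU s) hs
  have hval_s' : U.valuation (algebraMap R1 F1 s') = 1 := h.valuation_eq_one hs'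
  have hy' : y * (algebraMap R1 F1 w)⁻¹ * (algebraMap R1 F1 s * algebraMap R1 F1 s') =
      algebraMap R1 F1 c := by
    have : y * algebraMap R1 F1 s * algebraMap R1 F1 s' = algebraMap R1 F1 c * algebraMap R1 F1 w := by
      rw [hys, mul_comm, hsc']
    field_simp
    linear_combination this
  rw [← U.valuation_le_one_iff]
  have := congrArg U.valuation hy'
  rw [map_mul, map_mul U.valuation (algebraMap R1 F1 s), hval_s, hval_s', mul_one, mul_one] at this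
  rw [this]
  exact (U.valuation_le_one_iff _).2 (h.hU c)

/-- The generator `v = w` of `P01 R_y`, as an element of `R_y`. -/
noncomputable abbrev vy (_h : BranchData 𝔫 U w w') :
    ↥(locAt (F := F1) 𝔫) := algebraMap R1 ↥(locAt (F := F1) 𝔫) w

/-- The generator `v' = w'` of the other branch, as an element of `R_y`. -/
noncomputable abbrev vy' (_h : BranchData 𝔫 U w w') :
    ↥(locAt (F := F1) 𝔫) := algebraMap R1 ↥(locAt (F := F1) 𝔫) w'

theorem coe_vy : ((h.vy : ↥(locAt (F := F1) 𝔫)) : F1) = algebraMap R1 F1 w := rfl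

theorem coe_vy' : ((h.vy' : ↥(locAt (F := F1) 𝔫)) : F1) = algebraMap R1 F1 w' := rfl

theorem vy_ne_zero : h.vy ≠ 0 := by
  intro h0
  have : algebraMap R1 F1 w = 0 := by rw [← h.coe_vy, h0]; rfl
  exact algebraMap_ne_zero h.w_ne this

/-- `P01 R_y = v R_y`. -/
theorem vCentre_locAt_eq_span : vCentre U h.hRy = Ideal.span {h.vy} := by
  apply le_antisymm
  · intro x hx
    rw [mem_vCentre_iff] at hx
    have hx' : (x : F1) ∈ U.nonunits := hx
    have hquot := h.unifU hx'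
    obtain ⟨a, s, hs, hxs⟩ := (mem_locAt_iff 𝔫 (x : F1)).1 x.2
    have ha : algebraMap R1 F1 a ∈ U.nonunits := by
      rw [← hxs]
      exact Fermat.Agent.P3G.LocVS.mul_mem_nonunits U hx' (h.hU s)
    obtain ⟨s', c, hs', hsc⟩ := h.gen a ha
    have hsF : algebraMap R1 F1 s ≠ 0 := algebraMap_ne_zero_of_notMem 𝔫 hs
    have hs'F : algebraMap R1 F1 s' ≠ 0 := algebraMap_ne_zero_of_notMem 𝔫 hs'
    have hss' : s * s' ∉ 𝔫 := fun hmem =>
      (Ideal.IsPrime.mem_or_mem inferInstance hmem).elim hs hs'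
    have hmem : algebraMap R1 F1 c / algebraMap R1 F1 (s * s') ∈ locAt (F := F1) 𝔫 :=
      div_mem_locAt 𝔫 c hss'
    rw [Ideal.mem_span_singleton]
    refine ⟨⟨_, hmem⟩, Subtype.ext ?_⟩
    show (x : F1) = algebraMap R1 F1 w * (algebraMap R1 F1 c / algebraMap R1 F1 (s * s'))
    have hsc' : algebraMap R1 F1 s' * algebraMap R1 F1 a =
        algebraMap R1 F1 c * algebraMap R1 F1 w := by
      rw [← map_mul, ← map_mul, hsc]
    rw [map_mul]
    field_simp
    linear_combination (algebraMap R1 F1 s') * hxs + hsc'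
  · rw [Ideal.span_singleton_le_iff_mem, mem_vCentre_iff]
    exact h.w_mem

theorem isPrime_span_vy : (Ideal.span {h.vy}).IsPrime := by
  rw [← h.vCentre_locAt_eq_span]; infer_instance

theorem vy_not_isUnit : ¬ IsUnit h.vy := not_isUnit_of_isPrime_span h.isPrime_span_vy

theorem vy'_notMem_span : h.vy' ∉ Ideal.span {h.vy} := by
  rw [← h.vCentre_locAt_eq_span, mem_vCentre_iff]
  exact h.w'_not

/-- `𝔫 R_y = (v, v')`. -/
theorem maximalIdeal_locAt_eq :
    @IsLocalRing.maximalIdeal ↥(locAt (F := F1) 𝔫) _ (isLocalRing_locAt 𝔫) =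
      Ideal.span {h.vy, h.vy'} := by
  have hloc : IsLocalRing ↥(locAt (F := F1) 𝔫) := isLocalRing_locAt 𝔫
  apply le_antisymm
  · intro z hz
    obtain ⟨p, s, hp, hs, hzs⟩ := (mem_maximalIdeal_locAt_iff 𝔫 hloc z).1 hz
    obtain ⟨s', a, b, hs', hab⟩ := h.gen_max p hp
    have hsF : algebraMap R1 F1 s ≠ 0 := algebraMap_ne_zero_of_notMem 𝔫 hs
    have hs'F : algebraMap R1 F1 s' ≠ 0 := algebraMap_ne_zero_of_notMem 𝔫 hs'
    have hss' : s * s' ∉ 𝔫 := fun hmem =>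
      (Ideal.IsPrime.mem_or_mem inferInstance hmem).elim hs hs'
    rw [Ideal.mem_span_pair]
    refine ⟨⟨_, div_mem_locAt 𝔫 a hss'⟩, ⟨_, div_mem_locAt 𝔫 b hss'⟩, Subtype.ext ?_⟩
    show algebraMap R1 F1 a / algebraMap R1 F1 (s * s') * algebraMap R1 F1 w +
      algebraMap R1 F1 b / algebraMap R1 F1 (s * s') * algebraMap R1 F1 w' = (z : F1)
    have hab' : algebraMap R1 F1 s' * algebraMap R1 F1 p =
        algebraMap R1 F1 a * algebraMap R1 F1 w + algebraMap R1 F1 b * algebraMap R1 F1 w' := by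
      rw [← map_mul, ← map_mul, ← map_mul, ← map_add, hab]
    rw [map_mul]
    field_simp
    linear_combination (-(algebraMap R1 F1 s')) * hzs - hab'
  · rw [Ideal.span_le]
    rintro x (rfl | rfl)
    · exact (IsLocalization.AtPrime.to_map_mem_maximal_iff _ 𝔫 w).2 h.w_mem_n
    · exact (IsLocalization.AtPrime.to_map_mem_maximal_iff _ 𝔫 w').2 h.w'_mem

end Lower

section Lift

variable (h : BranchData 𝔫 U w w') (V : ValuationSubring F2)
  (hV : ∀ b : R2, algebraMap R2 F2 b ∈ V)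
  (hcomap : ∀ x : F1, algebraMap F1 F2 x ∈ V ↔ x ∈ U)
include h hV hcomap

/-- `𝔪_V ∩ F1 = 𝔪_U`. -/
theorem algebraMap_mem_nonunits_iff {x : F1} :
    algebraMap F1 F2 x ∈ V.nonunits ↔ x ∈ U.nonunits := by
  by_cases hx0 : x = 0
  · rw [hx0, map_zero]
    exact ⟨fun _ => Fermat.Agent.P3G.LocVS.zero_mem_nonunits U,
      fun _ => Fermat.Agent.P3G.LocVS.zero_mem_nonunits V⟩
  have hxF : algebraMap F1 F2 x ≠ 0 := (map_ne_zero _).2 hx0
  rw [Fermat.Agent.P3G.LocVS.mem_nonunits_iff_inv_notMem V hxF, ← map_inv₀, hcomap,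
    Fermat.Agent.P3G.LocVS.mem_nonunits_iff_inv_notMem U hx0]

/-- `B = semiLoc 𝔫 ⊆ V`. -/
theorem hVB (b : ↥(semiLoc R2 F1 F2 𝔫)) : algebraMap ↥(semiLoc R2 F1 F2 𝔫) F2 b ∈ V := by
  obtain ⟨r, s, hs, hbs⟩ := (mem_semiLoc_iff 𝔫 (b : F2)).1 b.2
  have hsV : (algebraMap R1 F1 s)⁻¹ ∈ U := by
    rw [← U.valuation_le_one_iff, map_inv₀, h.valuation_eq_one hs, inv_one]
  have h1 : algebraMap F1 F2 (algebraMap R1 F1 s)⁻¹ ∈ V := (hcomap _).2 hsV
  have h2 : (b : F2) = algebraMap R2 F2 r * algebraMap F1 F2 (algebraMap R1 F1 s)⁻¹ := by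
    rw [map_inv₀, ← IsScalarTower.algebraMap_apply R1 F1 F2, ← hbs]
    have := algebraMap_R1_F2_ne_zero (F1 := F1) (F2 := F2) 𝔫 hs
    field_simp
  show (b : F2) ∈ V
  rw [h2]
  exact V.mul_mem _ _ (hV r) h1

/-- The residue map of `B` at the branch `V`, with values in the residue field of `V`. -/
noncomputable def evB : ↥(semiLoc R2 F1 F2 𝔫) →+* IsLocalRing.ResidueField ↥V :=
  (IsLocalRing.residue ↥V).comp
    ((algebraMap ↥(semiLoc R2 F1 F2 𝔫) F2).codRestrict V (h.hVB V hV hcomap))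

theorem evB_eq_zero_iff (b : ↥(semiLoc R2 F1 F2 𝔫)) :
    h.evB V hV hcomap b = 0 ↔ (b : F2) ∈ V.nonunits := by
  show IsLocalRing.residue ↥V _ = 0 ↔ _
  rw [IsLocalRing.residue_eq_zero_iff, ValuationSubring.mem_nonunits_iff_exists_mem_maximalIdeal]
  constructor
  · intro hb; exact ⟨h.hVB V hV hcomap b, hb⟩
  · rintro ⟨_, hb⟩; exact hb

/-- The residue map of `R_y` at the branch `U` (through `V`). -/
noncomputable def rhoV : ↥(locAt (F := F1) 𝔫) →+* IsLocalRing.ResidueField ↥V :=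
  (h.evB V hV hcomap).comp (algebraMap ↥(locAt (F := F1) 𝔫) ↥(semiLoc R2 F1 F2 𝔫))

theorem rhoV_eq_zero_iff (r : ↥(locAt (F := F1) 𝔫)) :
    h.rhoV V hV hcomap r = 0 ↔ (r : F1) ∈ U.nonunits := by
  show h.evB V hV hcomap _ = 0 ↔ _
  rw [h.evB_eq_zero_iff V hV hcomap, coe_algebraMap_semiLoc,
    h.algebraMap_mem_nonunits_iff V hV hcomap]

theorem ker_rhoV : RingHom.ker (h.rhoV V hV hcomap) = Ideal.span {h.vy} := by
  rw [← h.vCentre_locAt_eq_span]
  ext r
  rw [RingHom.mem_ker, h.rhoV_eq_zero_iff V hV hcomap, mem_vCentre_iff]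
  rfl

/-- The branch `R_y / w R_y` is a discrete valuation ring. -/
theorem isDiscreteValuationRing_range_rhoV :
    IsDiscreteValuationRing (h.rhoV V hV hcomap).range := by
  haveI : IsLocalRing ↥(locAt (F := F1) 𝔫) := isLocalRing_locAt 𝔫
  haveI : IsNoetherianRing ↥(locAt (F := F1) 𝔫) := isNoetherianRing_locAt 𝔫
  refine isDiscreteValuationRing_range (h.rhoV V hV hcomap) (h.ker_rhoV V hV hcomap)
    h.maximalIdeal_locAt_eq ?_
  intro h0
  rw [← RingHom.mem_ker, h.ker_rhoV V hV hcomap] at h0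
  exact h.vy'_notMem_span h0

/-- **Lifting residues along a branch**: if every residue of `V` has its `n`-th power in the
residue field of `U`, every element of `B` has its `n`-th power congruent to an element of `R_y`. -/
theorem exists_lift (n : ℕ)
    (hpow : ∀ x ∈ V, ∃ y ∈ U, x ^ n - algebraMap F1 F2 y ∈ V.nonunits)
    (b : ↥(semiLoc R2 F1 F2 𝔫)) :
    ∃ r : ↥(locAt (F := F1) 𝔫), (b : F2) ^ n - algebraMap F1 F2 (r : F1) ∈ V.nonunits := by
  haveI := h.isDiscreteValuationRing_range_rhoV V hV hcomap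
  set ev := h.evB V hV hcomap with hev
  set ρ := h.rhoV V hV hcomap with hρ
  obtain ⟨y, hyU, hy⟩ := hpow (b : F2) (h.hVB V hV hcomap b)
  obtain ⟨a, s, hs, hys⟩ := h.exists_of_mem_U hyU
  set sR : ↥(locAt (F := F1) 𝔫) := algebraMap R1 ↥(locAt (F := F1) 𝔫) s with hsR
  set aR : ↥(locAt (F := F1) 𝔫) := algebraMap R1 ↥(locAt (F := F1) 𝔫) a with haR
  set z := ev b ^ n with hz
  have hint : IsIntegral ρ.range z := by
    refine IsIntegral.pow ?_ n
    have hb : IsIntegral ↥(locAt (F := F1) 𝔫) b := Algebra.IsIntegral.isIntegral b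
    exact hb.map_of_comp_eq ρ.rangeRestrict ev (by ext r; rfl)
  have hd₂0 : ρ sR ≠ 0 := by
    intro h0
    rw [h.rhoV_eq_zero_iff V hV hcomap] at h0
    exact hs h0
  -- `z * ρ s = ρ a`
  have hmul : z * ρ sR = ρ aR := by
    have h1 : ((b ^ n * algebraMap ↥(locAt (F := F1) 𝔫) ↥(semiLoc R2 F1 F2 𝔫) sR -
        algebraMap ↥(locAt (F := F1) 𝔫) ↥(semiLoc R2 F1 F2 𝔫) aR : ↥(semiLoc R2 F1 F2 𝔫)) : F2) ∈
        V.nonunits := by
      have h2 : ((b ^ n * algebraMap ↥(locAt (F := F1) 𝔫) ↥(semiLoc R2 F1 F2 𝔫) sR -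
          algebraMap ↥(locAt (F := F1) 𝔫) ↥(semiLoc R2 F1 F2 𝔫) aR : ↥(semiLoc R2 F1 F2 𝔫)) : F2) =
          ((b : F2) ^ n - algebraMap F1 F2 y) * algebraMap F1 F2 (algebraMap R1 F1 s) := by
        show (b : F2) ^ n * algebraMap F1 F2 (algebraMap R1 F1 s) -
          algebraMap F1 F2 (algebraMap R1 F1 a) = _
        rw [← hys, map_mul]; ring
      rw [h2]
      exact Fermat.Agent.P3G.LocVS.mul_mem_nonunits V hy ((hcomap _).2 (h.hU s))
    have h3 := (h.evB_eq_zero_iff V hV hcomap _).2 h1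
    rw [map_sub, map_mul, map_pow, sub_eq_zero] at h3
    exact h3
  obtain ⟨r, hr⟩ := mem_of_isIntegral_of_mul_eq ρ.range hint ⟨aR, rfl⟩ ⟨sR, rfl⟩ hd₂0 hmul
  refine ⟨r, ?_⟩
  have h4 : ev (b ^ n - algebraMap ↥(locAt (F := F1) 𝔫) ↥(semiLoc R2 F1 F2 𝔫) r) = 0 := by
    rw [map_sub, map_pow, sub_eq_zero]
    exact hr.symm
  exact (h.evB_eq_zero_iff V hV hcomap _).1 h4

/-- **The branch `V` is smooth at the point(s) over `𝔫`**: if the residue extension of `V | U`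
is trivial, `S / (𝔪_V ∩ S)` is a principal ideal ring (isomorphic to the DVR `R_y / w R_y`), for
`S = B = semiLoc 𝔫` (stated for a subalgebra `S` equal to it, e.g. `locAt 𝔫'`). -/
theorem isPrincipalIdealRing_quotient_of_lift
    (hlift : ∀ x ∈ V, ∃ y ∈ U, x - algebraMap F1 F2 y ∈ V.nonunits)
    (S : Subalgebra R2 F2) (hS : S = semiLoc R2 F1 F2 𝔫)
    (hVS : ∀ b : ↥S, algebraMap ↥S F2 b ∈ V) :
    IsPrincipalIdealRing (↥S ⧸ Fermat.Agent.S36.Local.LocalRoot.centre V hVS) := by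
  subst hS
  haveI := h.isDiscreteValuationRing_range_rhoV V hV hcomap
  set ev := h.evB V hV hcomap with hev
  set ρ := h.rhoV V hV hcomap with hρ
  have hker : RingHom.ker ev = Fermat.Agent.S36.Local.LocalRoot.centre V hVS := by
    ext b
    rw [RingHom.mem_ker, h.evB_eq_zero_iff V hV hcomap,
      Fermat.Agent.S36.Local.LocalRoot.mem_centre]
    rfl
  have hrange : ev.range = ρ.range := by
    apply le_antisymm
    · rintro _ ⟨b, rfl⟩
      obtain ⟨r, hr⟩ := h.exists_lift V hV hcomap 1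
        (fun x hx => by simpa using hlift x hx) b
      rw [pow_one] at hr
      refine ⟨r, ?_⟩
      have h4 : ev (b - algebraMap ↥(locAt (F := F1) 𝔫) ↥(semiLoc R2 F1 F2 𝔫) r) = 0 :=
        (h.evB_eq_zero_iff V hV hcomap _).2 hr
      rw [map_sub, sub_eq_zero] at h4
      exact h4.symm
    · rintro _ ⟨r, rfl⟩
      exact ⟨_, rfl⟩
  haveI : IsPrincipalIdealRing ↥ev.range := by rw [hrange]; infer_instance
  let e1 : (↥(semiLoc R2 F1 F2 𝔫) ⧸ Fermat.Agent.S36.Local.LocalRoot.centre V hVS) ≃+*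
      (↥(semiLoc R2 F1 F2 𝔫) ⧸ RingHom.ker ev) := Ideal.quotEquivOfEq hker.symm
  let e2 : (↥(semiLoc R2 F1 F2 𝔫) ⧸ RingHom.ker ev) ≃+* ↥ev.range :=
    RingHom.quotientKerEquivRange ev
  exact IsPrincipalIdealRing.of_surjective (e1.trans e2).symm.toRingHom (e1.trans e2).symm.surjective

end Lift

end BranchData

/-! ### The local homomorphism `R_y → R_x` and norms of units -/

section Incl

variable (𝔫 : Ideal R1) [h𝔫 : 𝔫.IsMaximal] (𝔫' : Ideal R2) [h𝔫' : 𝔫'.IsMaximal]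

/-- The inclusion `R_y = locAt 𝔫 → R_x = locAt 𝔫'` for a point `𝔫'` over `𝔫`. -/
noncomputable def inclLoc (hle : 𝔫'.under R1 ≤ 𝔫) :
    ↥(locAt (F := F1) 𝔫) →+* ↥(locAt (F := F2) 𝔫') :=
  (Subalgebra.inclusion (semiLoc_le_locAt (F1 := F1) 𝔫 𝔫' hle)).toRingHom.comp (toSemiLoc R2 F2 𝔫)

theorem coe_inclLoc (hle : 𝔫'.under R1 ≤ 𝔫) (a : ↥(locAt (F := F1) 𝔫)) :
    algebraMap ↥(locAt (F := F2) 𝔫') F2 (inclLoc 𝔫 𝔫' hle a) =
      algebraMap F1 F2 (algebraMap ↥(locAt (F := F1) 𝔫) F1 a) := rfl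

/-- `R_y → R_x` is a local homomorphism. -/
theorem isLocalHom_inclLoc (heq : 𝔫'.under R1 = 𝔫) : IsLocalHom (inclLoc (F1 := F1) (F2 := F2)
    𝔫 𝔫' heq.le) := by
  constructor
  intro a ha
  have hloc : IsLocalRing ↥(locAt (F := F1) 𝔫) := isLocalRing_locAt 𝔫
  have hloc' : IsLocalRing ↥(locAt (F := F2) 𝔫') := isLocalRing_locAt 𝔫'
  by_contra hnu
  have hmem : a ∈ IsLocalRing.maximalIdeal ↥(locAt (F := F1) 𝔫) :=
    (IsLocalRing.mem_maximalIdeal a).2 hnu
  obtain ⟨p, s, hp, hs, has⟩ := (mem_maximalIdeal_locAt_iff 𝔫 hloc a).1 hmem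
  have hmem' : inclLoc 𝔫 𝔫' heq.le a ∈ IsLocalRing.maximalIdeal ↥(locAt (F := F2) 𝔫') := by
    rw [mem_maximalIdeal_locAt_iff 𝔫' hloc']
    refine ⟨algebraMap R1 R2 p, algebraMap R1 R2 s, ?_, ?_, ?_⟩
    · have : p ∈ 𝔫'.under R1 := by rw [heq]; exact hp
      exact this
    · intro hmem
      have : s ∈ 𝔫'.under R1 := hmem
      rw [heq] at this
      exact hs this
    · show algebraMap F1 F2 (a : F1) * algebraMap R2 F2 (algebraMap R1 R2 s) =
        algebraMap R2 F2 (algebraMap R1 R2 p)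
      rw [← IsScalarTower.algebraMap_apply R1 R2 F2, ← IsScalarTower.algebraMap_apply R1 R2 F2,
        IsScalarTower.algebraMap_apply R1 F1 F2, IsScalarTower.algebraMap_apply R1 F1 F2,
        ← map_mul, has]
  exact (IsLocalRing.mem_maximalIdeal _).1 hmem' ha

/-- A maximal ideal of `R2` whose contraction lies in the maximal ideal `𝔫` contracts to `𝔫`. -/
theorem under_eq_of_le (hle : 𝔫'.under R1 ≤ 𝔫) : 𝔫'.under R1 = 𝔫 := by
  haveI : (𝔫'.under R1).IsMaximal := Ideal.isMaximal_comap_of_isIntegral_of_isMaximal 𝔫'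
  exact Ideal.IsMaximal.eq_of_le inferInstance h𝔫.ne_top hle

/-- `R_y → R_x` is a local homomorphism (instance form, from `≤`). -/
theorem isLocalHom_inclLoc_of_le (hle : 𝔫'.under R1 ≤ 𝔫) :
    IsLocalHom (inclLoc (F1 := F1) (F2 := F2) 𝔫 𝔫' hle) :=
  isLocalHom_inclLoc 𝔫 𝔫' (under_eq_of_le 𝔫 𝔫' hle)

/-- **Norms of units**: a unit of `B = semiLoc 𝔫` (integral over the normal ring `R_y`) has its norm
in `R_yˣ`.  Stated for a subalgebra `S` equal to `B` (e.g. `locAt 𝔫'`). -/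
theorem norm_unit (S : Subalgebra R2 F2) (hS : S = semiLoc R2 F1 F2 𝔫) (b : ↥S) (hb : IsUnit b) :
    ∃ a : ↥(locAt (F := F1) 𝔫), IsUnit a ∧
      algebraMap ↥(locAt (F := F1) 𝔫) F1 a = Algebra.norm F1 (algebraMap ↥S F2 b) := by
  subst hS
  haveI : IsIntegrallyClosed ↥(locAt (F := F1) 𝔫) :=
    isIntegrallyClosed_of_isLocalization _ 𝔫.primeCompl 𝔫.primeCompl_le_nonZeroDivisors
  haveI : IsScalarTower ↥(locAt (F := F1) 𝔫) F1 F2 := inferInstance
  haveI : IsScalarTower ↥(locAt (F := F1) 𝔫) ↥(semiLoc R2 F1 F2 𝔫) F2 :=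
    IsScalarTower.of_algebraMap_eq fun _ => rfl
  have key : ∀ c : ↥(semiLoc R2 F1 F2 𝔫), ∃ a : ↥(locAt (F := F1) 𝔫),
      algebraMap ↥(locAt (F := F1) 𝔫) F1 a = Algebra.norm F1 (algebraMap ↥(semiLoc R2 F1 F2 𝔫) F2 c) := by
    intro c
    have hc : IsIntegral ↥(locAt (F := F1) 𝔫) c := Algebra.IsIntegral.isIntegral c
    have hc' : IsIntegral ↥(locAt (F := F1) 𝔫) (algebraMap ↥(semiLoc R2 F1 F2 𝔫) F2 c) :=
      hc.algebraMap
    have hN := Algebra.isIntegral_norm F1 hc'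
    exact IsIntegrallyClosed.algebraMap_eq_of_integral hN
  obtain ⟨c, hc⟩ := hb.exists_right_inv
  obtain ⟨a, ha⟩ := key b
  obtain ⟨a', ha'⟩ := key c
  refine ⟨a, ?_, ha⟩
  have h1 : algebraMap ↥(locAt (F := F1) 𝔫) F1 (a * a') = 1 := by
    rw [map_mul, ha, ha', ← map_mul, ← map_mul, hc, map_one, map_one]
  have h2 : a * a' = 1 := by
    apply IsFractionRing.injective ↥(locAt (F := F1) 𝔫) F1
    rw [h1, map_one]
  exact IsUnit.of_mul_eq_one a' h2

end Incl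

/-! ### Packaging: the data of one degeneracy map at a triple point -/

section Package

open Fermat.Agent.S36.R2.TripleChart Fermat.Agent.S36.D.NormGlue

variable {κ : Type*} [Field κ] {𝔫 : Ideal R1} [h𝔫 : 𝔫.IsMaximal]
  {V01 V10 : ValuationSubring F1} {V02 V20 V11 : ValuationSubring F2}
  {u u' π : R1} {q : ℕ} {ev : ↥V02 →+* κ} {D0 : Subring κ}

/-- The inseparable branch of a `TripleChartData` as a `BranchData`. -/
theorem toBranchData (h : TripleChartData R2 𝔫 V01 V02 u u' π q ev D0) :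
    BranchData 𝔫 V01 u u' where
  hU := h.hV01
  centre_le := h.centre_le
  w_mem := h.u_mem
  w_ne := h.u_ne
  gen := h.gen01
  w'_mem := h.u'_mem
  w'_not := h.u'_not
  gen_max := h.gen_max

/-- Pure inseparability of the residue extension of `V02 | V01`, elementwise. -/
theorem hpow_of_frob (h : TripleChartData R2 𝔫 V01 V02 u u' π q ev D0) :
    ∀ x ∈ V02, ∃ y ∈ V01, x ^ q - algebraMap F1 F2 y ∈ V02.nonunits := by
  intro x hx
  obtain ⟨y, ⟨y₁, hy₁, hyy₁⟩, hfr⟩ := h.frob ⟨x, hx⟩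
  refine ⟨y₁, hy₁, ?_⟩
  have h0 : ev ((⟨x, hx⟩ : ↥V02) ^ q - y) = 0 := by rw [map_sub, map_pow, hfr, sub_self]
  have h1 := (h.ev_ker _).1 h0
  rw [← hyy₁]
  exact h1

namespace BranchData

variable {U : ValuationSubring F1} {w w' : R1}

/-- `exists_lift` for a subalgebra `S` equal to `B` (e.g. `locAt 𝔫'`). -/
theorem exists_lift_of_eq (h : BranchData 𝔫 U w w') (V : ValuationSubring F2)
    (hV : ∀ b : R2, algebraMap R2 F2 b ∈ V)
    (hcomap : ∀ x : F1, algebraMap F1 F2 x ∈ V ↔ x ∈ U) (n : ℕ)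
    (hpow : ∀ x ∈ V, ∃ y ∈ U, x ^ n - algebraMap F1 F2 y ∈ V.nonunits)
    (S : Subalgebra R2 F2) (hS : S = semiLoc R2 F1 F2 𝔫) (b : ↥S) :
    ∃ r : ↥(locAt (F := F1) 𝔫), algebraMap ↥S F2 b ^ n -
      algebraMap F1 F2 (algebraMap ↥(locAt (F := F1) 𝔫) F1 r) ∈ V.nonunits := by
  subst hS
  exact h.exists_lift V hV hcomap n hpow b

/-- `S = B ⊆ V`. -/
theorem hVS (h : BranchData 𝔫 U w w') (V : ValuationSubring F2)
    (hV : ∀ b : R2, algebraMap R2 F2 b ∈ V)
    (hcomap : ∀ x : F1, algebraMap F1 F2 x ∈ V ↔ x ∈ U)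
    (S : Subalgebra R2 F2) (hS : S = semiLoc R2 F1 F2 𝔫) (b : ↥S) :
    algebraMap ↥S F2 b ∈ V := by
  subst hS
  exact h.hVB V hV hcomap b

end BranchData

/-- `B / (P02 ∩ B)` is a principal ideal ring (for a subalgebra `S` equal to `B`). -/
theorem isPrincipalIdealRing_quotient_centre
    (h : TripleChartData R2 𝔫 V01 V02 u u' π q ev D0) [ExpChar κ q] [IsDedekindDomain ↥D0]
    (S : Subalgebra R2 F2) (hS : S = semiLoc R2 F1 F2 𝔫)
    (hVS : ∀ b : ↥S, algebraMap ↥S F2 b ∈ V02) :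
    IsPrincipalIdealRing (↥S ⧸ Fermat.Agent.S36.Local.LocalRoot.centre V02 hVS) := by
  subst hS
  have heq : Ideal.span {h.uB} = Fermat.Agent.S36.Local.LocalRoot.centre V02 hVS := by
    ext b
    rw [h.mem_span_uB_iff, Fermat.Agent.S36.Local.LocalRoot.mem_centre]
    rfl
  haveI := h.isPrincipalIdealRing_quotient
  exact IsPrincipalIdealRing.of_surjective (Ideal.quotEquivOfEq heq).toRingHom
    (Ideal.quotEquivOfEq heq).surjective

variable (𝔫' : Ideal R2) [h𝔫' : 𝔫'.IsMaximal]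

/-- **The data of one degeneracy map at a triple point** (`D/NormGlue.SplitInsep`): split branch
`V10 ← V20, V11` (both with trivial residue extension), inseparable branch `V01 ← V02`.  The norm
formulas `norm_split`, `norm_insep` (block [N]) are hypotheses. -/
theorem splitInsep (h : TripleChartData R2 𝔫 V01 V02 u u' π q ev D0) [ExpChar κ q]
    [IsDedekindDomain ↥D0] (h10 : BranchData 𝔫 V10 u' u)
    (hV20 : ∀ b : R2, algebraMap R2 F2 b ∈ V20)
    (hc20 : ∀ x : F1, algebraMap F1 F2 x ∈ V20 ↔ x ∈ V10)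
    (hl20 : ∀ x ∈ V20, ∃ y ∈ V10, x - algebraMap F1 F2 y ∈ V20.nonunits)
    (hV11 : ∀ b : R2, algebraMap R2 F2 b ∈ V11)
    (hc11 : ∀ x : F1, algebraMap F1 F2 x ∈ V11 ↔ x ∈ V10)
    (hl11 : ∀ x ∈ V11, ∃ y ∈ V10, x - algebraMap F1 F2 y ∈ V11.nonunits)
    (hle : 𝔫'.under R1 ≤ 𝔫)
    (hsplit : ∀ (w : F2) (a₁ a₂ : F1), a₁ ∈ V10 → a₂ ∈ V10 →
      w - algebraMap F1 F2 a₁ ∈ V20.nonunits → w - algebraMap F1 F2 a₂ ∈ V11.nonunits →
      Algebra.norm F1 w - a₁ * a₂ ^ (q - 1) ∈ V10.nonunits)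
    (hinsep : ∀ (w : F2) (a : F1), a ∈ V01 → w ^ q - algebraMap F1 F2 a ∈ V02.nonunits →
      Algebra.norm F1 w - a ∈ V01.nonunits) :
    SplitInsep (algebraMap F1 F2) (Algebra.norm F1) (inclLoc (F1 := F1) (F2 := F2) 𝔫 𝔫' hle) q
      V10 V01 V20 V11 V02 where
  incl_eq := fun a => coe_inclLoc 𝔫 𝔫' hle a
  norm_unit := fun b hb => norm_unit 𝔫 (locAt (F := F2) 𝔫') (h.locAt_eq_semiLoc 𝔫' hle) b hb
  lift_a := fun b => by
    obtain ⟨r, hr⟩ := h10.exists_lift_of_eq V20 hV20 hc20 1 (fun x hx => by simpa using hl20 x hx)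
      (locAt (F := F2) 𝔫') (h.locAt_eq_semiLoc 𝔫' hle) b
    exact ⟨r, by simpa using hr⟩
  lift_b := fun b => by
    obtain ⟨r, hr⟩ := h10.exists_lift_of_eq V11 hV11 hc11 1 (fun x hx => by simpa using hl11 x hx)
      (locAt (F := F2) 𝔫') (h.locAt_eq_semiLoc 𝔫' hle) b
    exact ⟨r, by simpa using hr⟩
  lift_c := fun b => (toBranchData h).exists_lift_of_eq V02 h.hV02 h.comap q (hpow_of_frob h)
      (locAt (F := F2) 𝔫') (h.locAt_eq_semiLoc 𝔫' hle) b
  norm_split := hsplit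
  norm_insep := hinsep

/-- **The three branches at the triple point are smooth**: the hypothesis `hPID` of
`D/ChartRoots.localRoots_triple`, for `V 0 = V20`, `V 1 = V11` (trivial residue extension over
`V10`) and `V 2 = V02`. -/
theorem hPID_triple {V : Fin 3 → ValuationSubring F2} {ev : ↥(V 2) →+* κ}
    (h : TripleChartData R2 𝔫 V01 (V 2) u u' π q ev D0) [ExpChar κ q]
    [IsDedekindDomain ↥D0] (h10 : BranchData 𝔫 V10 u' u)
    (hV20 : ∀ b : R2, algebraMap R2 F2 b ∈ V 0)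
    (hc20 : ∀ x : F1, algebraMap F1 F2 x ∈ V 0 ↔ x ∈ V10)
    (hl20 : ∀ x ∈ V 0, ∃ y ∈ V10, x - algebraMap F1 F2 y ∈ (V 0).nonunits)
    (hV11 : ∀ b : R2, algebraMap R2 F2 b ∈ V 1)
    (hc11 : ∀ x : F1, algebraMap F1 F2 x ∈ V 1 ↔ x ∈ V10)
    (hl11 : ∀ x ∈ V 1, ∃ y ∈ V10, x - algebraMap F1 F2 y ∈ (V 1).nonunits)
    (hle : 𝔫'.under R1 ≤ 𝔫)
    (hVS : ∀ i (b : ↥(locAt (F := F2) 𝔫')), algebraMap ↥(locAt (F := F2) 𝔫') F2 b ∈ V i) (i : Fin 3) :
    IsPrincipalIdealRing (↥(locAt (F := F2) 𝔫') ⧸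
      Fermat.Agent.S36.Local.LocalRoot.centre (V i) (hVS i)) := by
  have hS := h.locAt_eq_semiLoc 𝔫' hle
  fin_cases i
  · exact h10.isPrincipalIdealRing_quotient_of_lift (V 0) hV20 hc20 hl20 _ hS (hVS 0)
  · exact h10.isPrincipalIdealRing_quotient_of_lift (V 1) hV11 hc11 hl11 _ hS (hVS 1)
  · exact isPrincipalIdealRing_quotient_centre h _ hS (hVS 2)

/-- All three branches contain the local ring at the triple point. -/
theorem hVS_triple {V : Fin 3 → ValuationSubring F2} {ev : ↥(V 2) →+* κ}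
    (h : TripleChartData R2 𝔫 V01 (V 2) u u' π q ev D0) [ExpChar κ q]
    [IsDedekindDomain ↥D0] (h10 : BranchData 𝔫 V10 u' u)
    (hV20 : ∀ b : R2, algebraMap R2 F2 b ∈ V 0)
    (hc20 : ∀ x : F1, algebraMap F1 F2 x ∈ V 0 ↔ x ∈ V10)
    (hV11 : ∀ b : R2, algebraMap R2 F2 b ∈ V 1)
    (hc11 : ∀ x : F1, algebraMap F1 F2 x ∈ V 1 ↔ x ∈ V10)
    (hle : 𝔫'.under R1 ≤ 𝔫) (i : Fin 3) (b : ↥(locAt (F := F2) 𝔫')) :
    algebraMap ↥(locAt (F := F2) 𝔫') F2 b ∈ V i := by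
  have hS := h.locAt_eq_semiLoc 𝔫' hle
  fin_cases i
  · exact h10.hVS (V 0) hV20 hc20 _ hS b
  · exact h10.hVS (V 1) hV11 hc11 _ hS b
  · exact (toBranchData h).hVS (V 2) h.hV02 h.comap _ hS b

end Package

end Fermat.Agent.S36.R2.TripleBranches
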