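/-
S36 block [R2], hom form (no `Algebra` instances between the two levels): the chart-level theorem of
`R2/TripleChart` + `R2/TripleBranches` for a map of charts `a : R1 →+* R2` over a field embedding
`φ : F1 →+* F2` (in the application `a = alphaR / betaR`, `φ = alphaF / betaF`: the SAME abstract
theorem is used along `α` and along `β`, so the instances cannot be global).

* `ChartMap a φ` : `a` is integral and compatible with `φ`.
* `TripleHomData R2 φ 𝔫 V01 V02 u u' π q ev D0` : the inputs of (R2) in hom language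
  (from (R1): `P01 R_y = u R_y`, `𝔫 R_y = (u, u')`; from (V): `V02 ∩ F1 = V01`, `V02` the only
  valuation ring over `V01`, `e = 1`, residue extension purely inseparable, the Dedekind model `D0`).
* Outputs at a maximal ideal `𝔫'` of `R2` with `𝔫'.comap a ≤ 𝔫`: `locAt 𝔫'` is factorial (`ufd`),
  `𝔫'` is the only point over `𝔫` (`eq_of_comap_le`), every prime whose contraction lies in `𝔫`
  passes through `𝔫'` (`le_of_comap_le`), `P02 R_x = a(u) R_x` (`exists_mul_eq_of_mem_nonunits`),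
  the three branches are smooth (`hPID`), the local homomorphism `inclHom : R_y → R_x`, and the
  package `splitInsep : D/NormGlue.SplitInsep φ (normHom φ) (inclHom …) q V10 V01 V20 V11 V02`.
-/
import Mathlib
import Fermat.Agent.S36.R2.TripleBranches

set_option autoImplicit false
set_option linter.unusedSectionVars false
set_option linter.style.haveILetI false
set_option linter.overlappingInstances false

namespace Fermat.Agent.S36.R2.TripleHom

open Fermat.Agent.N4.Cover.Globalize Fermat.Agent.P3G.Krull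
open Fermat.Agent.S36.R2.TripleChart Fermat.Agent.S36.R2.TripleBranches
open Fermat.Agent.S36.D.NormGlue

variable {R1 R2 F1 F2 κ : Type*} [CommRing R1] [IsDomain R1] [IsNoetherianRing R1]
  [IsIntegrallyClosed R1] [CommRing R2] [IsDomain R2] [IsNoetherianRing R2] [IsIntegrallyClosed R2]
  [Field F1] [Field F2] [Algebra R1 F1] [IsFractionRing R1 F1] [Algebra R2 F2] [IsFractionRing R2 F2]
  [Field κ]

/-- An integral map of charts `a : R1 → R2` over a field embedding `φ : F1 → F2`. -/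
structure ChartMap (a : R1 →+* R2) (φ : F1 →+* F2) : Prop where
  compat : ∀ r : R1, algebraMap R2 F2 (a r) = φ (algebraMap R1 F1 r)
  integral : a.IsIntegral

variable (R2) in
/-- The inputs of (R2) at a crossing point `𝔫` of the lower chart, in hom language. -/
structure TripleHomData (φ : F1 →+* F2) (𝔫 : Ideal R1) (V01 : ValuationSubring F1)
    (V02 : ValuationSubring F2) (u u' π : R1) (q : ℕ) (ev : ↥V02 →+* κ) (D0 : Subring κ) :
    Prop where
  hV01 : ∀ r : R1, algebraMap R1 F1 r ∈ V01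
  hV02 : ∀ b : R2, algebraMap R2 F2 b ∈ V02
  centre_le : ∀ r : R1, algebraMap R1 F1 r ∈ V01.nonunits → r ∈ 𝔫
  u_mem : algebraMap R1 F1 u ∈ V01.nonunits
  u_ne : u ≠ 0
  gen01 : ∀ r : R1, algebraMap R1 F1 r ∈ V01.nonunits → ∃ s c : R1, s ∉ 𝔫 ∧ s * r = c * u
  u'_mem : u' ∈ 𝔫
  u'_not : algebraMap R1 F1 u' ∉ V01.nonunits
  gen_max : ∀ r ∈ 𝔫, ∃ s a b : R1, s ∉ 𝔫 ∧ s * r = a * u + b * u'
  comap : ∀ x : F1, φ x ∈ V02 ↔ x ∈ V01
  pi_mem : algebraMap R1 F1 π ∈ V01.nonunits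
  pi_ne : π ≠ 0
  unif02 : ∀ x ∈ V02.nonunits, x * (φ (algebraMap R1 F1 π))⁻¹ ∈ V02
  only : ∀ V' : ValuationSubring F2, (∀ b : R2, algebraMap R2 F2 b ∈ V') →
    (∀ x : F1, φ x ∈ V' ↔ x ∈ V01) → V' = V02
  ev_ker : ∀ x : ↥V02, ev x = 0 ↔ (x : F2) ∈ V02.nonunits
  insep : ∀ x ∈ V02, ∃ y ∈ V01, x ^ q - φ y ∈ V02.nonunits
  D0_le : ∀ d ∈ D0, ∃ b : R2, ev ⟨algebraMap R2 F2 b, hV02 b⟩ = d
  D0_frac : ∀ x : ↥V02, ∃ d₁ ∈ D0, ∃ d₂ ∈ D0, d₂ ≠ 0 ∧ ev x * d₂ = d₁

/-- The upper branches over the split branch `V10`: `V20`, `V11` with trivial residue extension. -/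
structure SplitHomData (R2 : Type*) [CommRing R2] [Algebra R2 F2] (φ : F1 →+* F2)
    (V10 : ValuationSubring F1) (V20 V11 : ValuationSubring F2) : Prop where
  hV20 : ∀ b : R2, algebraMap R2 F2 b ∈ V20
  comap20 : ∀ x : F1, φ x ∈ V20 ↔ x ∈ V10
  lift20 : ∀ x ∈ V20, ∃ y ∈ V10, x - φ y ∈ V20.nonunits
  hV11 : ∀ b : R2, algebraMap R2 F2 b ∈ V11
  comap11 : ∀ x : F1, φ x ∈ V11 ↔ x ∈ V10
  lift11 : ∀ x ∈ V11, ∃ y ∈ V10, x - φ y ∈ V11.nonunits

/-- The norm of `F2` over `φ F1`. -/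
noncomputable def normHom (φ : F1 →+* F2) : F2 →* F1 :=
  letI := φ.toAlgebra
  Algebra.norm F1

section Convert

variable {φ : F1 →+* F2} {𝔫 : Ideal R1} {V01 : ValuationSubring F1} {V02 : ValuationSubring F2}
  {u u' π : R1} {q : ℕ} {ev : ↥V02 →+* κ} {D0 : Subring κ}

/-- From hom language to instance language. -/
theorem TripleHomData.toChartData [Algebra F1 F2] [Algebra R1 F2]
    (hφ : ∀ x : F1, algebraMap F1 F2 x = φ x)
    (hRF : ∀ r : R1, algebraMap R1 F2 r = φ (algebraMap R1 F1 r))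
    (h : TripleHomData R2 φ 𝔫 V01 V02 u u' π q ev D0) :
    TripleChartData R2 𝔫 V01 V02 u u' π q ev D0 where
  hV01 := h.hV01
  hV02 := h.hV02
  centre_le := h.centre_le
  u_mem := h.u_mem
  u_ne := h.u_ne
  gen01 := h.gen01
  u'_mem := h.u'_mem
  u'_not := h.u'_not
  gen_max := h.gen_max
  comap := fun x => by rw [hφ]; exact h.comap x
  pi_mem := h.pi_mem
  pi_ne := h.pi_ne
  unif02 := fun x hx => by rw [hRF]; exact h.unif02 x hx
  only := fun V' hV' hc => h.only V' hV' fun x => by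
    rw [← hc, ValuationSubring.mem_comap, hφ]
  ev_ker := h.ev_ker
  frob := fun x => by
    obtain ⟨y, hy, hxy⟩ := h.insep (x : F2) x.2
    have hyV : φ y ∈ V02 := (h.comap y).2 hy
    refine ⟨⟨φ y, hyV⟩, ⟨y, hy, (hφ y).symm⟩, ?_⟩
    have h0 : ev (x ^ q - ⟨φ y, hyV⟩) = 0 := (h.ev_ker _).2 hxy
    rw [map_sub, map_pow, sub_eq_zero] at h0
    exact h0
  D0_le := fun d hd => by
    obtain ⟨b, hb⟩ := h.D0_le d hd
    exact ⟨b, ⟨algebraMap R2 F2 b, h.hV02 b⟩, rfl, hb⟩
  D0_frac := h.D0_frac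

end Convert

section Main

variable {a : R1 →+* R2} {φ : F1 →+* F2} {𝔫 : Ideal R1} [h𝔫 : 𝔫.IsMaximal]
  {V01 V10 : ValuationSubring F1} {V02 V20 V11 : ValuationSubring F2}
  {u u' π : R1} {q : ℕ} {ev : ↥V02 →+* κ} {D0 : Subring κ}

/-- The local homomorphism `R_y = locAt 𝔫 → R_x = locAt 𝔫'` induced by `φ`. -/
noncomputable def inclHom (a : R1 →+* R2) (φ : F1 →+* F2) (hm : ChartMap a φ)
    (𝔫 : Ideal R1) [𝔫.IsMaximal] (𝔫' : Ideal R2) [𝔫'.IsMaximal] (hle : 𝔫'.comap a ≤ 𝔫) :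
    ↥(locAt (F := F1) 𝔫) →+* ↥(locAt (F := F2) 𝔫') :=
  letI : Algebra R1 R2 := a.toAlgebra
  letI : Algebra F1 F2 := φ.toAlgebra
  letI : Algebra R1 F2 := ((algebraMap R2 F2).comp a).toAlgebra
  haveI : IsScalarTower R1 R2 F2 := IsScalarTower.of_algebraMap_eq fun _ => rfl
  haveI : IsScalarTower R1 F1 F2 := IsScalarTower.of_algebraMap_eq fun r => hm.compat r
  inclLoc (F1 := F1) (F2 := F2) 𝔫 𝔫' hle

theorem coe_inclHom (hm : ChartMap a φ) (𝔫' : Ideal R2) [𝔫'.IsMaximal] (hle : 𝔫'.comap a ≤ 𝔫)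
    (x : ↥(locAt (F := F1) 𝔫)) :
    algebraMap ↥(locAt (F := F2) 𝔫') F2 (inclHom a φ hm 𝔫 𝔫' hle x) =
      φ (algebraMap ↥(locAt (F := F1) 𝔫) F1 x) := rfl

/-- `inclHom` is a local homomorphism. -/
theorem isLocalHom_inclHom (hm : ChartMap a φ) (𝔫' : Ideal R2) [𝔫'.IsMaximal]
    (hle : 𝔫'.comap a ≤ 𝔫) : IsLocalHom (inclHom a φ hm 𝔫 𝔫' hle) := by
  letI : Algebra R1 R2 := a.toAlgebra
  letI : Algebra F1 F2 := φ.toAlgebra
  letI : Algebra R1 F2 := ((algebraMap R2 F2).comp a).toAlgebra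
  haveI : IsScalarTower R1 R2 F2 := IsScalarTower.of_algebraMap_eq fun _ => rfl
  haveI : IsScalarTower R1 F1 F2 := IsScalarTower.of_algebraMap_eq fun r => hm.compat r
  haveI : Algebra.IsIntegral R1 R2 := ⟨hm.integral⟩
  exact isLocalHom_inclLoc_of_le (F1 := F1) (F2 := F2) 𝔫 𝔫' hle

variable (hm : ChartMap a φ) (h : TripleHomData R2 φ 𝔫 V01 V02 u u' π q ev D0)
  [ExpChar κ q] [IsDedekindDomain ↥D0] (𝔫' : Ideal R2) [h𝔫' : 𝔫'.IsMaximal]
  (hle : 𝔫'.comap a ≤ 𝔫)

include hm h hle in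
/-- **The local ring at the triple point is factorial.** -/
theorem ufd : UniqueFactorizationMonoid ↥(locAt (F := F2) 𝔫') := by
  letI : Algebra R1 R2 := a.toAlgebra
  letI : Algebra F1 F2 := φ.toAlgebra
  letI : Algebra R1 F2 := ((algebraMap R2 F2).comp a).toAlgebra
  haveI : IsScalarTower R1 R2 F2 := IsScalarTower.of_algebraMap_eq fun _ => rfl
  haveI : IsScalarTower R1 F1 F2 := IsScalarTower.of_algebraMap_eq fun r => hm.compat r
  haveI : Algebra.IsIntegral R1 R2 := ⟨hm.integral⟩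
  have hc := h.toChartData (fun _ => rfl) (fun r => hm.compat r)
  exact hc.uniqueFactorizationMonoid_locAt 𝔫' hle

include hm h hle in
/-- **ONE point over the crossing point.** -/
theorem eq_of_comap_le (𝔫'' : Ideal R2) [𝔫''.IsMaximal] (hle'' : 𝔫''.comap a ≤ 𝔫) :
    𝔫' = 𝔫'' := by
  letI : Algebra R1 R2 := a.toAlgebra
  letI : Algebra F1 F2 := φ.toAlgebra
  letI : Algebra R1 F2 := ((algebraMap R2 F2).comp a).toAlgebra
  haveI : IsScalarTower R1 R2 F2 := IsScalarTower.of_algebraMap_eq fun _ => rfl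
  haveI : IsScalarTower R1 F1 F2 := IsScalarTower.of_algebraMap_eq fun r => hm.compat r
  haveI : Algebra.IsIntegral R1 R2 := ⟨hm.integral⟩
  have hc := h.toChartData (fun _ => rfl) (fun r => hm.compat r)
  exact hc.eq_of_under_le 𝔫' 𝔫'' hle hle''

include hm h hle in
/-- Every prime of `R2` whose contraction lies in `𝔫` passes through the point over `𝔫`: the point
lies on all the components whose images pass through `𝔫`. -/
theorem le_of_comap_le (P : Ideal R2) [P.IsPrime] (hP : P.comap a ≤ 𝔫) : P ≤ 𝔫' := by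
  letI : Algebra R1 R2 := a.toAlgebra
  letI : Algebra F1 F2 := φ.toAlgebra
  letI : Algebra R1 F2 := ((algebraMap R2 F2).comp a).toAlgebra
  haveI : IsScalarTower R1 R2 F2 := IsScalarTower.of_algebraMap_eq fun _ => rfl
  haveI : IsScalarTower R1 F1 F2 := IsScalarTower.of_algebraMap_eq fun r => hm.compat r
  haveI : Algebra.IsIntegral R1 R2 := ⟨hm.integral⟩
  have hc := h.toChartData (fun _ => rfl) (fun r => hm.compat r)
  exact hc.le_of_under_le 𝔫' hle P hP

include hm h hle in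
/-- `P02 R_x = a(u) R_x` at chart level. -/
theorem exists_mul_eq_of_mem_nonunits {r : R2} (hr : algebraMap R2 F2 r ∈ V02.nonunits) :
    ∃ t c : R2, t ∉ 𝔫' ∧ t * r = c * a u := by
  letI : Algebra R1 R2 := a.toAlgebra
  letI : Algebra F1 F2 := φ.toAlgebra
  letI : Algebra R1 F2 := ((algebraMap R2 F2).comp a).toAlgebra
  haveI : IsScalarTower R1 R2 F2 := IsScalarTower.of_algebraMap_eq fun _ => rfl
  haveI : IsScalarTower R1 F1 F2 := IsScalarTower.of_algebraMap_eq fun r => hm.compat r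
  haveI : Algebra.IsIntegral R1 R2 := ⟨hm.integral⟩
  have hc := h.toChartData (fun _ => rfl) (fun r => hm.compat r)
  exact hc.exists_mul_eq_of_mem_nonunits 𝔫' hle hr

include hm h hle in
/-- The local ring at the triple point lies in `V02`. -/
theorem mem_V02 (b : ↥(locAt (F := F2) 𝔫')) : algebraMap ↥(locAt (F := F2) 𝔫') F2 b ∈ V02 := by
  letI : Algebra R1 R2 := a.toAlgebra
  letI : Algebra F1 F2 := φ.toAlgebra
  letI : Algebra R1 F2 := ((algebraMap R2 F2).comp a).toAlgebra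
  haveI : IsScalarTower R1 R2 F2 := IsScalarTower.of_algebraMap_eq fun _ => rfl
  haveI : IsScalarTower R1 F1 F2 := IsScalarTower.of_algebraMap_eq fun r => hm.compat r
  haveI : Algebra.IsIntegral R1 R2 := ⟨hm.integral⟩
  have hc := h.toChartData (fun _ => rfl) (fun r => hm.compat r)
  exact (toBranchData hc).hVS V02 hc.hV02 hc.comap _ (hc.locAt_eq_semiLoc 𝔫' hle) b

include hm h hle in
/-- The branch `V02` is smooth at the triple point. -/
theorem hPID02 (hVS : ∀ b : ↥(locAt (F := F2) 𝔫'), algebraMap ↥(locAt (F := F2) 𝔫') F2 b ∈ V02) :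
    IsPrincipalIdealRing (↥(locAt (F := F2) 𝔫') ⧸
      Fermat.Agent.S36.Local.LocalRoot.centre V02 hVS) := by
  letI : Algebra R1 R2 := a.toAlgebra
  letI : Algebra F1 F2 := φ.toAlgebra
  letI : Algebra R1 F2 := ((algebraMap R2 F2).comp a).toAlgebra
  haveI : IsScalarTower R1 R2 F2 := IsScalarTower.of_algebraMap_eq fun _ => rfl
  haveI : IsScalarTower R1 F1 F2 := IsScalarTower.of_algebraMap_eq fun r => hm.compat r
  haveI : Algebra.IsIntegral R1 R2 := ⟨hm.integral⟩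
  have hc := h.toChartData (fun _ => rfl) (fun r => hm.compat r)
  exact isPrincipalIdealRing_quotient_centre hc _ (hc.locAt_eq_semiLoc 𝔫' hle) hVS

variable (h10 : BranchData 𝔫 V10 u' u) (hs : SplitHomData R2 φ V10 V20 V11)

include hm h hle h10 hs in
/-- The local ring at the triple point lies in `V20` and in `V11`. -/
theorem mem_V20_V11 (b : ↥(locAt (F := F2) 𝔫')) :
    algebraMap ↥(locAt (F := F2) 𝔫') F2 b ∈ V20 ∧ algebraMap ↥(locAt (F := F2) 𝔫') F2 b ∈ V11 := by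
  letI : Algebra R1 R2 := a.toAlgebra
  letI : Algebra F1 F2 := φ.toAlgebra
  letI : Algebra R1 F2 := ((algebraMap R2 F2).comp a).toAlgebra
  haveI : IsScalarTower R1 R2 F2 := IsScalarTower.of_algebraMap_eq fun _ => rfl
  haveI : IsScalarTower R1 F1 F2 := IsScalarTower.of_algebraMap_eq fun r => hm.compat r
  haveI : Algebra.IsIntegral R1 R2 := ⟨hm.integral⟩
  have hc := h.toChartData (fun _ => rfl) (fun r => hm.compat r)
  exact ⟨h10.hVS V20 hs.hV20 hs.comap20 _ (hc.locAt_eq_semiLoc 𝔫' hle) b,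
    h10.hVS V11 hs.hV11 hs.comap11 _ (hc.locAt_eq_semiLoc 𝔫' hle) b⟩

include hm h hle h10 hs in
/-- The branches `V20`, `V11` are smooth at the triple point. -/
theorem hPID20_11
    (hVS20 : ∀ b : ↥(locAt (F := F2) 𝔫'), algebraMap ↥(locAt (F := F2) 𝔫') F2 b ∈ V20)
    (hVS11 : ∀ b : ↥(locAt (F := F2) 𝔫'), algebraMap ↥(locAt (F := F2) 𝔫') F2 b ∈ V11) :
    IsPrincipalIdealRing (↥(locAt (F := F2) 𝔫') ⧸
        Fermat.Agent.S36.Local.LocalRoot.centre V20 hVS20) ∧
      IsPrincipalIdealRing (↥(locAt (F := F2) 𝔫') ⧸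
        Fermat.Agent.S36.Local.LocalRoot.centre V11 hVS11) := by
  letI : Algebra R1 R2 := a.toAlgebra
  letI : Algebra F1 F2 := φ.toAlgebra
  letI : Algebra R1 F2 := ((algebraMap R2 F2).comp a).toAlgebra
  haveI : IsScalarTower R1 R2 F2 := IsScalarTower.of_algebraMap_eq fun _ => rfl
  haveI : IsScalarTower R1 F1 F2 := IsScalarTower.of_algebraMap_eq fun r => hm.compat r
  haveI : Algebra.IsIntegral R1 R2 := ⟨hm.integral⟩
  have hc := h.toChartData (fun _ => rfl) (fun r => hm.compat r)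
  exact ⟨h10.isPrincipalIdealRing_quotient_of_lift V20 hs.hV20 hs.comap20 hs.lift20 _
      (hc.locAt_eq_semiLoc 𝔫' hle) hVS20,
    h10.isPrincipalIdealRing_quotient_of_lift V11 hs.hV11 hs.comap11 hs.lift11 _
      (hc.locAt_eq_semiLoc 𝔫' hle) hVS11⟩

include h h10 hs in
/-- **The data of one degeneracy map at a triple point**, hom form. -/
theorem splitInsep
    (hsplit : ∀ (w : F2) (a₁ a₂ : F1), a₁ ∈ V10 → a₂ ∈ V10 →
      w - φ a₁ ∈ V20.nonunits → w - φ a₂ ∈ V11.nonunits →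
      normHom φ w - a₁ * a₂ ^ (q - 1) ∈ V10.nonunits)
    (hinsep : ∀ (w : F2) (a₁ : F1), a₁ ∈ V01 → w ^ q - φ a₁ ∈ V02.nonunits →
      normHom φ w - a₁ ∈ V01.nonunits) :
    SplitInsep φ (normHom φ) (inclHom a φ hm 𝔫 𝔫' hle) q V10 V01 V20 V11 V02 := by
  letI : Algebra R1 R2 := a.toAlgebra
  letI : Algebra F1 F2 := φ.toAlgebra
  letI : Algebra R1 F2 := ((algebraMap R2 F2).comp a).toAlgebra
  haveI : IsScalarTower R1 R2 F2 := IsScalarTower.of_algebraMap_eq fun _ => rfl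
  haveI : IsScalarTower R1 F1 F2 := IsScalarTower.of_algebraMap_eq fun r => hm.compat r
  haveI : Algebra.IsIntegral R1 R2 := ⟨hm.integral⟩
  have hc := h.toChartData (fun _ => rfl) (fun r => hm.compat r)
  exact TripleBranches.splitInsep 𝔫' hc h10 hs.hV20 hs.comap20 hs.lift20 hs.hV11 hs.comap11
    hs.lift11 hle hsplit hinsep

end Main

end Fermat.Agent.S36.R2.TripleHom
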