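/-
S36 block [R2], concrete layer 1: the level maps `alphaR`, `betaR` between the finite charts
`Rfin K N O → Rfin K (N ℓ) O` are `TripleHom.ChartMap`s (integral, compatible with `alphaF`,
`betaF`), and the ring-theoretic instances of the finite charts (domain, noetherian, integrally
closed, fraction field) collected in one place.
-/
import Mathlib
import Fermat.Agent.S36.R2.TripleHom
import Fermat.Agent.P3G.LevelIntegrality
import Fermat.Agent.N4F.C.ChartDataLevel

set_option autoImplicit false
set_option linter.unusedSectionVars false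
set_option linter.style.haveILetI false

namespace Fermat.Agent.S36.R2.ChartMaps

open Polynomial ModularCurve
open Fermat.Agent.N4.Setting Fermat.Agent.N4.Chart
open Fermat.Agent.N4F.E.DegreeLevelRaise Fermat.Agent.N4F.E
open Fermat.Agent.P3G.LevelIntegrality Fermat.Agent.S36.R2.TripleHom

/-! ### A generic transitivity lemma -/

section Generic

variable {A R B : Type*} [CommRing A] [CommRing R] [CommRing B] [Algebra A B]

/-- If the generators `S` and the constants of `A[S] ⊆ B` are integral over `f : R → B`, every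
element of `B` integral over `A[S]` is integral over `f`. -/
theorem isIntegralElem_of_isIntegral_adjoin (f : R →+* B) (S : Set B)
    (hgen : ∀ s ∈ S, f.IsIntegralElem s) (hconst : ∀ c : A, f.IsIntegralElem (algebraMap A B c))
    {y : B} (hy : IsIntegral (Algebra.adjoin A S) y) : f.IsIntegralElem y := by
  letI : Algebra R B := f.toAlgebra
  have hA : ∀ r ∈ Algebra.adjoin A S, IsIntegral R r := by
    intro r hr
    induction hr using Algebra.adjoin_induction with
    | mem s hs => exact hgen s hs
    | algebraMap c => exact hconst c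
    | add x y _ _ hx hy => exact hx.add hy
    | mul x y _ _ hx hy => exact hx.mul hy
  obtain ⟨p, hp, hph⟩ := hy
  let ψ : Algebra.adjoin A S →+* integralClosure R B :=
    { toFun := fun r => ⟨(r : B), hA r r.2⟩
      map_one' := rfl
      map_mul' := fun _ _ => rfl
      map_zero' := rfl
      map_add' := fun _ _ => rfl }
  have h2 : IsIntegral (integralClosure R B) y := by
    refine ⟨p.map ψ, hp.map ψ, ?_⟩
    rw [eval₂_map]
    have h3 : (algebraMap (integralClosure R B) B).comp ψ =
        algebraMap (Algebra.adjoin A S) B := RingHom.ext fun r => rfl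
    rw [h3]
    exact hph
  exact isIntegral_trans (R := R) (A := integralClosure R B) y h2

/-- Descent of integrality along an injective map. -/
theorem isIntegralElem_of_comp {R' : Type*} [CommRing R'] (a : R →+* R') (g : R' →+* B)
    (hg : Function.Injective g) {b : R'} (hb : (g.comp a).IsIntegralElem (g b)) :
    a.IsIntegralElem b := by
  obtain ⟨p, hp, hpb⟩ := hb
  refine ⟨p, hp, hg ?_⟩
  rw [map_zero, Polynomial.hom_eval₂]
  exact hpb

end Generic

/-! ### The finite charts -/

section Charts

variable (K : Type) [Field K] [CharZero K] (N : ℕ) [NeZero N] (ℓ : ℕ) [NeZero ℓ]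
  (O : Subring K) [IsDiscreteValuationRing ↥O] [IsFractionRing ↥O K]


theorem isNoetherianRing_Rfin : IsNoetherianRing ↥(Rfin K N O) := by
  haveI := Fermat.Agent.N4.ModPolySetting.finiteDimensional_FF K N
  exact Fermat.Agent.N4.IntClosure.isNoetherianRing_chartAlg (O := ↥O) (K := K) (jF K N)
    (Fermat.Agent.N4.FFAlgebraic.transcendental_jF K N)

theorem isIntegrallyClosed_Rfin : IsIntegrallyClosed ↥(Rfin K N O) := by
  haveI := Fermat.Agent.N4.ModPolySetting.finiteDimensional_FF K N
  exact Fermat.Agent.N4.Cover.Main.isIntegrallyClosed_chartAlg (O := ↥O) (K₀ := K) (jF K N)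
    (Fermat.Agent.N4.FFAlgebraic.transcendental_jF K N)

theorem isFractionRing_Rfin : IsFractionRing ↥(Rfin K N O) (FF K N) :=
  Fermat.Agent.N4F.C.ChartDataLevel.isFractionRing_Rfin K N O

/-- `alphaR` is a map of charts over `alphaF`. -/
theorem chartMap_alphaR :
    ChartMap (alphaR K N ℓ O : ↥(Rfin K N O) →+* ↥(Rfin K (N * ℓ) O))
      (alphaF K N ℓ : FF K N →+* FF K (N * ℓ)) where
  compat := fun _ => rfl
  integral := fun b => by
    refine isIntegralElem_of_comp _ (algebraMap ↥(Rfin K (N * ℓ) O) (FF K (N * ℓ)))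
      Subtype.val_injective ?_
    have hb : IsIntegral (Algebra.adjoin ↥O {jF K (N * ℓ)}) (b : FF K (N * ℓ)) := b.2
    refine isIntegralElem_of_isIntegral_adjoin (A := ↥O) _ {jF K (N * ℓ)} ?_ ?_ hb
    · rintro s rfl
      have : jF K (N * ℓ) = ((algebraMap ↥(Rfin K (N * ℓ) O) (FF K (N * ℓ))).comp
          (alphaR K N ℓ O : ↥(Rfin K N O) →+* ↥(Rfin K (N * ℓ) O))) (jFin K N O) :=
        (alphaF_jF K N ℓ).symm
      rw [this]
      exact RingHom.isIntegralElem_map _
    · intro c
      have : algebraMap ↥O (FF K (N * ℓ)) c = ((algebraMap ↥(Rfin K (N * ℓ) O) (FF K (N * ℓ))).comp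
          (alphaR K N ℓ O : ↥(Rfin K N O) →+* ↥(Rfin K (N * ℓ) O)))
            (algebraMap ↥O ↥(Rfin K N O) c) := by
        show _ = alphaF K N ℓ (algebraMap ↥O (FF K N) c)
        rw [ChartIntegrality.algHom_algebraMap]
      rw [this]
      exact RingHom.isIntegralElem_map _

/-- `betaR` is a map of charts over `betaF`. -/
theorem chartMap_betaR :
    ChartMap (betaR K N ℓ O : ↥(Rfin K N O) →+* ↥(Rfin K (N * ℓ) O))
      (betaF K N ℓ : FF K N →+* FF K (N * ℓ)) where
  compat := fun _ => rfl
  integral := fun b => by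
    refine isIntegralElem_of_comp _ (algebraMap ↥(Rfin K (N * ℓ) O) (FF K (N * ℓ)))
      Subtype.val_injective ?_
    have hb : IsIntegral (Algebra.adjoin ↥O {jF K (N * ℓ)}) (b : FF K (N * ℓ)) := b.2
    refine isIntegralElem_of_isIntegral_adjoin (A := ↥O) _ {jF K (N * ℓ)} ?_ ?_ hb
    · rintro s rfl
      rw [← alphaF_jF K N ℓ]
      obtain ⟨p, hp, hpe⟩ := isIntegralElem_alphaF_jF K N ℓ O
      -- push the polynomial from `O[j]` to `Rfin`
      let ι : ↥(Algebra.adjoin ↥O {jF K N}) →+* ↥(Rfin K N O) :=
        (Subalgebra.inclusion (adjoin_le_chartAlg (O := ↥O) (F := FF K N) {jF K N})).toRingHom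
      refine ⟨p.map ι, hp.map ι, ?_⟩
      rw [eval₂_map]
      exact hpe
    · intro c
      have : algebraMap ↥O (FF K (N * ℓ)) c = ((algebraMap ↥(Rfin K (N * ℓ) O) (FF K (N * ℓ))).comp
          (betaR K N ℓ O : ↥(Rfin K N O) →+* ↥(Rfin K (N * ℓ) O)))
            (algebraMap ↥O ↥(Rfin K N O) c) := by
        show _ = betaF K N ℓ (algebraMap ↥O (FF K N) c)
        rw [ChartIntegrality.algHom_algebraMap]
      rw [this]
      exact RingHom.isIntegralElem_map _

end Charts

end Fermat.Agent.S36.R2.ChartMaps
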