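/-
S36 block [R2], concrete layer 2: the inputs `TripleHom.TripleHomData` / `SplitHomData` /
`TripleBranches.BranchData` on the finite charts `R1 = Rfin K (M0 q) O → R2 = Rfin K (M0 q²) O`,
from hypotheses in the shape of (R1) (`S36/R1/CrossingRegularBoth.regular_fin_both`) and of the
fields of `V/ThreeVal` (comap table, `only_*`, `ram_one_*`, `insep_*`, `deg_one_*`, places), for an
ARBITRARY level map `φ : FF K (M0 q) →ₐ[K] FF K (M0 q²)` (`alphaF` or `betaF`) and arbitrary lower /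
upper valuation rings (`(V01, V02)` along `α`, `(V10, V20)` along `β`).
-/
import Mathlib
import Fermat.Agent.S36.R2.ChartMaps
import Fermat.Agent.P3G.RbarFin
import Fermat.Agent.P3G.TwoComponentsB
import Fermat.Agent.N4F.C.ChartFibre

set_option autoImplicit false
set_option linter.unusedSectionVars false
set_option linter.style.haveILetI false

open ModularCurve Fermat.Agent.S28.Gauss Fermat.Agent.N4.Setting Fermat.Agent.N4.FibreEmbedding
open Fermat.Agent.N4.Chart Fermat.Agent.N4F.E IsLocalRing Fermat.Agent.P3G.RbarFin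
open Fermat.Agent.S36.R2.TripleHom Fermat.Agent.S36.R2.TripleBranches

noncomputable section

namespace Fermat.Agent.S36.R2.TripleGlue

/-! ### Valuation-theoretic helpers -/

section Val

variable {F1 F2 : Type*} [Field F1] [Field F2]

/-- Non-units pull back along a field embedding. -/
theorem mem_nonunits_of_comap (φ : F1 →+* F2) {U : ValuationSubring F1} {V : ValuationSubring F2}
    (hc : ∀ x : F1, φ x ∈ V ↔ x ∈ U) {x : F1} (hx : x ∈ U.nonunits) : φ x ∈ V.nonunits := by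
  by_cases hx0 : x = 0
  · rw [hx0, map_zero]
    exact Fermat.Agent.P3G.LocVS.zero_mem_nonunits V
  have hxF : φ x ≠ 0 := (map_ne_zero φ).2 hx0
  rw [Fermat.Agent.P3G.LocVS.mem_nonunits_iff_inv_notMem V hxF, ← map_inv₀, hc]
  exact (Fermat.Agent.P3G.LocVS.mem_nonunits_iff_inv_notMem U hx0).1 hx

end Val

/-! ### The output of (R1) in valuation language (symmetric in the two branches) -/

section Crossing

variable {R1 F1 : Type*} [CommRing R1] [Field F1] [Algebra R1 F1]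

/-- A regular crossing point `𝔫` of the two branches `V10`, `V01`: `P01 R_y = u R_y`,
`P10 R_y = v R_y`, `𝔫 R_y = (u, v)`. -/
structure CrossingHyp (𝔫 : Ideal R1) (V10 V01 : ValuationSubring F1) (u v : R1) : Prop where
  h10 : ∀ r : R1, algebraMap R1 F1 r ∈ V10
  h01 : ∀ r : R1, algebraMap R1 F1 r ∈ V01
  c10 : ∀ r : R1, algebraMap R1 F1 r ∈ V10.nonunits → r ∈ 𝔫
  c01 : ∀ r : R1, algebraMap R1 F1 r ∈ V01.nonunits → r ∈ 𝔫
  u01 : algebraMap R1 F1 u ∈ V01.nonunits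
  u10 : algebraMap R1 F1 u ∉ V10.nonunits
  v10 : algebraMap R1 F1 v ∈ V10.nonunits
  v01 : algebraMap R1 F1 v ∉ V01.nonunits
  gen01 : ∀ r : R1, algebraMap R1 F1 r ∈ V01.nonunits → ∃ s c : R1, s ∉ 𝔫 ∧ s * r = c * u
  gen10 : ∀ r : R1, algebraMap R1 F1 r ∈ V10.nonunits → ∃ s c : R1, s ∉ 𝔫 ∧ s * r = c * v
  gen_max : ∀ x ∈ 𝔫, ∃ s : R1, s ∉ 𝔫 ∧ s * x ∈ Ideal.span {u, v}

namespace CrossingHyp

variable {𝔫 : Ideal R1} {V10 V01 : ValuationSubring F1} {u v : R1}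

theorem symm (h : CrossingHyp 𝔫 V10 V01 u v) : CrossingHyp 𝔫 V01 V10 v u where
  h10 := h.h01
  h01 := h.h10
  c10 := h.c01
  c01 := h.c10
  u01 := h.v10
  u10 := h.v01
  v10 := h.u01
  v01 := h.u10
  gen01 := h.gen10
  gen10 := h.gen01
  gen_max := fun x hx => by
    obtain ⟨s, hs, hsx⟩ := h.gen_max x hx
    refine ⟨s, hs, ?_⟩
    rwa [Set.pair_comm]

theorem u_ne (h : CrossingHyp 𝔫 V10 V01 u v) : u ≠ 0 := by
  intro h0
  apply h.u10
  rw [h0, map_zero]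
  exact Fermat.Agent.P3G.LocVS.zero_mem_nonunits V10

theorem gen_max' (h : CrossingHyp 𝔫 V10 V01 u v) :
    ∀ r ∈ 𝔫, ∃ s a b : R1, s ∉ 𝔫 ∧ s * r = a * u + b * v := by
  intro r hr
  obtain ⟨s, hs, hsr⟩ := h.gen_max r hr
  obtain ⟨a, b, hab⟩ := Ideal.mem_span_pair.1 hsr
  exact ⟨s, a, b, hs, hab.symm⟩

/-- The branch `V01` through the crossing point. -/
theorem branchData01 (h : CrossingHyp 𝔫 V10 V01 u v) : BranchData 𝔫 V01 u v where
  hU := h.h01
  centre_le := h.c01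
  w_mem := h.u01
  w_ne := h.u_ne
  gen := h.gen01
  w'_mem := h.c10 v h.v10
  w'_not := h.v01
  gen_max := h.gen_max'

/-- The branch `V10` through the crossing point. -/
theorem branchData10 (h : CrossingHyp 𝔫 V10 V01 u v) : BranchData 𝔫 V10 v u :=
  h.symm.branchData01

end CrossingHyp

end Crossing

/-! ### The fraction field of the special fibre of the base level -/

section Frac

variable (K : Type) [Field K] [CharZero K] (N : ℕ) [NeZero N]
  (O : Subring K) [IsDiscreteValuationRing ↥O] [IsFractionRing ↥O K]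

set_option quotPrecheck false in
local notation "κ" => IsLocalRing.ResidueField ↥O

variable (hN : IsUnit ((N : ℕ) : ↥O))
  (hA2 : ∀ x : ↥(gaussSubalgebra K N O),
    theta K N O x ∈ modularFunctionFieldFullC (IsLocalRing.ResidueField ↥O) N)

include hN hA2 in
/-- Every value of `θ_N` on the Gauss ring is a quotient of elements of `RbarFin K N O`. -/
theorem exists_frac_theta (g : ↥(gaussSubalgebra K N O)) :
    ∃ d₁ ∈ RbarFin K N O, ∃ d₂ ∈ RbarFin K N O, d₂ ≠ 0 ∧ theta K N O g * d₂ = d₁ := by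
  obtain ⟨a, b, hb, hab⟩ := Fermat.Agent.N4F.C.ChartFibre.exists_frac_fin K N O hN
    (⟨theta K N O g, hA2 g⟩ : FF κ N)
  refine ⟨thetaFin K N O a, thetaFin_mem K N O a, thetaFin K N O b, thetaFin_mem K N O b, ?_, ?_⟩
  · rw [Fermat.Agent.P3G.TwoComponentsB.thetaFin_eq_coe_redFin K N O hN]
    intro h0
    apply hb
    apply Subtype.val_injective
    rw [h0]
    rfl
  · rw [Fermat.Agent.P3G.TwoComponentsB.thetaFin_eq_coe_redFin K N O hN,
      Fermat.Agent.P3G.TwoComponentsB.thetaFin_eq_coe_redFin K N O hN, ← hab]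
    rfl

end Frac

/-! ### The concrete inputs -/

section Concrete

variable (K : Type) [Field K] [CharZero K] (M0 : ℕ) [NeZero M0] (q : ℕ) [Fact q.Prime]
  (O : Subring K) [IsDiscreteValuationRing ↥O] [IsFractionRing ↥O K]

set_option quotPrecheck false in
local notation "κ" => IsLocalRing.ResidueField ↥O

variable (hN : IsUnit ((M0 : ℕ) : ↥O))
  (hA2 : ∀ x : ↥(gaussSubalgebra K M0 O),
    theta K M0 O x ∈ modularFunctionFieldFullC (IsLocalRing.ResidueField ↥O) M0)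

variable (φ : FF K (M0 * q) →ₐ[K] FF K (M0 * q * q))
  (Vlow : ValuationSubring (FF K (M0 * q))) (Vup : ValuationSubring (FF K (M0 * q * q)))
  (ev : ↥Vup →+* LaurentSeries (IsLocalRing.ResidueField ↥O))

include hN hA2 in
/-- **The inputs of (R2) on the finite charts**, for a level map `φ` (`alphaF` or `betaF`), a lower
branch `Vlow` (inseparable side) and the unique upper branch `Vup` over it. -/
theorem tripleHomData
    (hlow : ∀ r : ↥(Rfin K (M0 * q) O), (r : FF K (M0 * q)) ∈ Vlow)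
    (𝔫 : Ideal ↥(Rfin K (M0 * q) O))
    (hcentre : ∀ r : ↥(Rfin K (M0 * q) O), (r : FF K (M0 * q)) ∈ Vlow.nonunits → r ∈ 𝔫)
    {ϖ : ↥O} (hϖ : Irreducible ϖ)
    (hϖlow : algebraMap K (FF K (M0 * q)) (ϖ : K) ∈ Vlow.nonunits)
    -- (R1)
    (u u' : ↥(Rfin K (M0 * q) O)) (hu : (u : FF K (M0 * q)) ∈ Vlow.nonunits) (hu0 : u ≠ 0)
    (hgen : ∀ r : ↥(Rfin K (M0 * q) O), (r : FF K (M0 * q)) ∈ Vlow.nonunits →
      ∃ s c : ↥(Rfin K (M0 * q) O), s ∉ 𝔫 ∧ s * r = c * u)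
    (hu' : u' ∈ 𝔫) (hu'not : (u' : FF K (M0 * q)) ∉ Vlow.nonunits)
    (hmax : ∀ x ∈ 𝔫, ∃ s : ↥(Rfin K (M0 * q) O), s ∉ 𝔫 ∧ s * x ∈ Ideal.span {u, u'})
    -- (V)
    (hup : ∀ b : ↥(Rfin K (M0 * q * q) O), (b : FF K (M0 * q * q)) ∈ Vup)
    (hcomap : Vup.comap (φ : FF K (M0 * q) →+* FF K (M0 * q * q)) = Vlow)
    (honly : ∀ B : ValuationSubring (FF K (M0 * q * q)), (∀ g ∈ Vlow, φ g ∈ B) →
      (∀ ϖ : ↥O, Irreducible ϖ → algebraMap K (FF K (M0 * q * q)) (ϖ : K) ∈ B.nonunits) → B = Vup)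
    (hram : ∀ ϖ : ↥O, Irreducible ϖ → ∀ y ∈ Vup.nonunits,
      y * (algebraMap K (FF K (M0 * q * q)) (ϖ : K))⁻¹ ∈ Vup)
    (hev : ∀ y : ↥Vup, ev y = 0 ↔ (y : FF K (M0 * q * q)) ∈ Vup.nonunits)
    (hinsep : ∀ y ∈ Vup, ∃ a ∈ Vlow, y ^ q - φ a ∈ Vup.nonunits)
    (hD0le : ∀ r₀ : ↥(Rfin K M0 O), ∃ b : ↥(Rfin K (M0 * q * q) O),
      ev ⟨(b : FF K (M0 * q * q)), hup b⟩ = thetaFin K M0 O r₀)
    (hdeg : ∀ x : ↥Vup, ∃ g : ↥(gaussSubalgebra K M0 O), ev x = theta K M0 O g) :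
    TripleHomData ↥(Rfin K (M0 * q * q) O) (φ : FF K (M0 * q) →+* FF K (M0 * q * q)) 𝔫 Vlow Vup
      u u' (algebraMap ↥O ↥(Rfin K (M0 * q) O) ϖ) q ev (RbarFin K M0 O) := by
  have hc : ∀ x : FF K (M0 * q), φ x ∈ Vup ↔ x ∈ Vlow := fun x => by
    rw [← hcomap]; rfl
  have hϖ1 : algebraMap ↥(Rfin K (M0 * q) O) (FF K (M0 * q))
      (algebraMap ↥O ↥(Rfin K (M0 * q) O) ϖ) = algebraMap K (FF K (M0 * q)) (ϖ : K) := by
    rw [← IsScalarTower.algebraMap_apply ↥O ↥(Rfin K (M0 * q) O) (FF K (M0 * q)),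
      IsScalarTower.algebraMap_apply ↥O K (FF K (M0 * q))]
    rfl
  refine
    { hV01 := hlow
      hV02 := hup
      centre_le := hcentre
      u_mem := hu
      u_ne := hu0
      gen01 := hgen
      u'_mem := hu'
      u'_not := hu'not
      gen_max := ?_
      comap := hc
      pi_mem := ?_
      pi_ne := ?_
      unif02 := ?_
      only := ?_
      ev_ker := hev
      insep := hinsep
      D0_le := ?_
      D0_frac := ?_ }
  · intro r hr
    obtain ⟨s, hs, hsr⟩ := hmax r hr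
    obtain ⟨a, b, hab⟩ := Ideal.mem_span_pair.1 hsr
    exact ⟨s, a, b, hs, hab.symm⟩
  · rw [hϖ1]; exact hϖlow
  · intro h0
    have h1 : algebraMap K (FF K (M0 * q)) (ϖ : K) = 0 := by rw [← hϖ1, h0, map_zero]
    have h2 : (ϖ : K) = 0 := (map_eq_zero _).1 h1
    exact hϖ.ne_zero (Subtype.ext h2)
  · intro x hx
    rw [hϖ1, AlgHom.coe_toRingHom, φ.commutes]
    exact hram ϖ hϖ x hx
  · intro V' _ hV'c
    refine honly V' (fun g hg => (hV'c g).2 hg) fun ϖ' hϖ' => ?_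
    have h1 : algebraMap K (FF K (M0 * q)) (ϖ' : K) ∈ Vlow.nonunits := by
      -- every uniformiser of `O` is a non-unit of `Vlow`
      obtain ⟨w, hw⟩ := IsDiscreteValuationRing.associated_of_irreducible ↥O hϖ hϖ'
      have h3 : algebraMap K (FF K (M0 * q)) (ϖ' : K) =
          algebraMap K (FF K (M0 * q)) (ϖ : K) *
            algebraMap ↥(Rfin K (M0 * q) O) (FF K (M0 * q))
              (algebraMap ↥O ↥(Rfin K (M0 * q) O) (w : ↥O)) := by
        rw [← IsScalarTower.algebraMap_apply ↥O ↥(Rfin K (M0 * q) O) (FF K (M0 * q)),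
          IsScalarTower.algebraMap_apply ↥O K (FF K (M0 * q)), ← map_mul, ← hw]
        rfl
      rw [h3]
      exact Fermat.Agent.P3G.LocVS.mul_mem_nonunits Vlow hϖlow (hlow _)
    have h2 := mem_nonunits_of_comap (φ : FF K (M0 * q) →+* FF K (M0 * q * q)) hV'c h1
    rwa [AlgHom.coe_toRingHom, φ.commutes] at h2
  · rintro d ⟨r₀, rfl⟩
    exact hD0le r₀
  · intro x
    obtain ⟨g, hg⟩ := hdeg x
    rw [hg]
    exact exists_frac_theta K M0 O hN hA2 g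

/-- The (V)-inputs over the inseparable branch `Vlow`, in the shape of the fields of `V/ThreeVal`
(`comap_*`, `only_*`, `ram_one_*`, `ev*_eq_zero_iff`, `insep_*`, places + `deg_one_*`). -/
structure InsepData : Prop where
  hup : ∀ b : ↥(Rfin K (M0 * q * q) O), (b : FF K (M0 * q * q)) ∈ Vup
  hcomap : Vup.comap (φ : FF K (M0 * q) →+* FF K (M0 * q * q)) = Vlow
  honly : ∀ B : ValuationSubring (FF K (M0 * q * q)), (∀ g ∈ Vlow, φ g ∈ B) →
    (∀ ϖ : ↥O, Irreducible ϖ → algebraMap K (FF K (M0 * q * q)) (ϖ : K) ∈ B.nonunits) → B = Vup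
  hram : ∀ ϖ : ↥O, Irreducible ϖ → ∀ y ∈ Vup.nonunits,
    y * (algebraMap K (FF K (M0 * q * q)) (ϖ : K))⁻¹ ∈ Vup
  hev : ∀ y : ↥Vup, ev y = 0 ↔ (y : FF K (M0 * q * q)) ∈ Vup.nonunits
  hinsep : ∀ y ∈ Vup, ∃ a ∈ Vlow, y ^ q - φ a ∈ Vup.nonunits
  hD0le : ∀ r₀ : ↥(Rfin K M0 O), ∃ b : ↥(Rfin K (M0 * q * q) O),
    ev ⟨(b : FF K (M0 * q * q)), hup b⟩ = thetaFin K M0 O r₀
  hdeg : ∀ x : ↥Vup, ∃ g : ↥(gaussSubalgebra K M0 O), ev x = theta K M0 O g

include hN hA2 in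
/-- `tripleHomData` from a `CrossingHyp` (`Vlow` = the inseparable branch, generator `u`) and an
`InsepData`. -/
theorem InsepData.tripleHomData {Vsplit : ValuationSubring (FF K (M0 * q))}
    {𝔫 : Ideal ↥(Rfin K (M0 * q) O)} {u u' : ↥(Rfin K (M0 * q) O)}
    (hI : InsepData K M0 q O φ Vlow Vup ev)
    (hcr : CrossingHyp 𝔫 Vsplit Vlow u u')
    {ϖ : ↥O} (hϖ : Irreducible ϖ)
    (hϖlow : algebraMap K (FF K (M0 * q)) (ϖ : K) ∈ Vlow.nonunits) :
    TripleHomData ↥(Rfin K (M0 * q * q) O) (φ : FF K (M0 * q) →+* FF K (M0 * q * q)) 𝔫 Vlow Vup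
      u u' (algebraMap ↥O ↥(Rfin K (M0 * q) O) ϖ) q ev (RbarFin K M0 O) :=
  TripleGlue.tripleHomData K M0 q O hN hA2 φ Vlow Vup ev hcr.h01 𝔫 hcr.c01 hϖ hϖlow u u' hcr.u01
    hcr.u_ne hcr.gen01 (hcr.c10 u' hcr.v10) hcr.v01 hcr.gen_max hI.hup hI.hcomap hI.honly hI.hram
    hI.hev hI.hinsep hI.hD0le hI.hdeg

include hN hA2 in
/-- `tripleHomData` from a `CrossingHyp` (`Vlow` = the inseparable branch, generator `u`). -/
theorem tripleHomData_of_crossing {Vsplit : ValuationSubring (FF K (M0 * q))}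
    {𝔫 : Ideal ↥(Rfin K (M0 * q) O)} {u u' : ↥(Rfin K (M0 * q) O)}
    (hcr : CrossingHyp 𝔫 Vsplit Vlow u u')
    {ϖ : ↥O} (hϖ : Irreducible ϖ)
    (hϖlow : algebraMap K (FF K (M0 * q)) (ϖ : K) ∈ Vlow.nonunits)
    (hup : ∀ b : ↥(Rfin K (M0 * q * q) O), (b : FF K (M0 * q * q)) ∈ Vup)
    (hcomap : Vup.comap (φ : FF K (M0 * q) →+* FF K (M0 * q * q)) = Vlow)
    (honly : ∀ B : ValuationSubring (FF K (M0 * q * q)), (∀ g ∈ Vlow, φ g ∈ B) →
      (∀ ϖ : ↥O, Irreducible ϖ → algebraMap K (FF K (M0 * q * q)) (ϖ : K) ∈ B.nonunits) → B = Vup)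
    (hram : ∀ ϖ : ↥O, Irreducible ϖ → ∀ y ∈ Vup.nonunits,
      y * (algebraMap K (FF K (M0 * q * q)) (ϖ : K))⁻¹ ∈ Vup)
    (hev : ∀ y : ↥Vup, ev y = 0 ↔ (y : FF K (M0 * q * q)) ∈ Vup.nonunits)
    (hinsep : ∀ y ∈ Vup, ∃ a ∈ Vlow, y ^ q - φ a ∈ Vup.nonunits)
    (hD0le : ∀ r₀ : ↥(Rfin K M0 O), ∃ b : ↥(Rfin K (M0 * q * q) O),
      ev ⟨(b : FF K (M0 * q * q)), hup b⟩ = thetaFin K M0 O r₀)
    (hdeg : ∀ x : ↥Vup, ∃ g : ↥(gaussSubalgebra K M0 O), ev x = theta K M0 O g) :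
    TripleHomData ↥(Rfin K (M0 * q * q) O) (φ : FF K (M0 * q) →+* FF K (M0 * q * q)) 𝔫 Vlow Vup
      u u' (algebraMap ↥O ↥(Rfin K (M0 * q) O) ϖ) q ev (RbarFin K M0 O) :=
  tripleHomData K M0 q O hN hA2 φ Vlow Vup ev hcr.h01 𝔫 hcr.c01 hϖ hϖlow u u' hcr.u01 hcr.u_ne
    hcr.gen01 (hcr.c10 u' hcr.v10) hcr.v01 hcr.gen_max hup hcomap honly hram hev hinsep hD0le hdeg

/-- `SplitHomData` from the comap table and the degree-one statements. -/
theorem splitHomData {Vsplit : ValuationSubring (FF K (M0 * q))}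
    {Va Vb : ValuationSubring (FF K (M0 * q * q))}
    (hVa : ∀ b : ↥(Rfin K (M0 * q * q) O), (b : FF K (M0 * q * q)) ∈ Va)
    (hca : Va.comap (φ : FF K (M0 * q) →+* FF K (M0 * q * q)) = Vsplit)
    (hla : ∀ y ∈ Va, ∃ a ∈ Vsplit, y - φ a ∈ Va.nonunits)
    (hVb : ∀ b : ↥(Rfin K (M0 * q * q) O), (b : FF K (M0 * q * q)) ∈ Vb)
    (hcb : Vb.comap (φ : FF K (M0 * q) →+* FF K (M0 * q * q)) = Vsplit)
    (hlb : ∀ y ∈ Vb, ∃ a ∈ Vsplit, y - φ a ∈ Vb.nonunits) :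
    SplitHomData ↥(Rfin K (M0 * q * q) O) (φ : FF K (M0 * q) →+* FF K (M0 * q * q)) Vsplit Va Vb
    where
  hV20 := hVa
  comap20 := fun x => by rw [← hca]; rfl
  lift20 := hla
  hV11 := hVb
  comap11 := fun x => by rw [← hcb]; rfl
  lift11 := hlb

end Concrete

end Fermat.Agent.S36.R2.TripleGlue
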