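/-
S36 block [R2], concrete layer 4 (final): the theorems of `R2/TripleHom` on the finite charts
`R1 = Rfin K (M0 q) O → R2 = Rfin K (M0 q²) O`, for a level map `(a, φ)` (`(alphaR, alphaF)` or
`(betaR, betaF)`), from a regular crossing point `CrossingHyp 𝔫 Vsplit Vlow u u'` of `R1` and the
(V)-inputs `InsepData φ Vlow Vup ev` (+ `SplitHomData φ Vsplit Va Vb`).

At a maximal ideal `𝔫'` of `R2` with `𝔫'.comap a ≤ 𝔫`:
* `ufd` : `locAt 𝔫'` is factorial  [(I-T)(R-a)];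
* `le_of_comap_le` : every prime `P` of `R2` with `P.comap a ≤ 𝔫` lies in `𝔫'`  [PTS: the point is a
  triple point], `eq_of_comap_le` : `𝔫'` is the only point over `𝔫`;
* `mem_Vup`, `mem_Va_Vb`, `hPID_up`, `hPID_split` : the three branches at `𝔫'`  [(I-T)(R-b)];
* `splitInsep` : the `D/NormGlue.SplitInsep` package  [(I-T) for block [D]].
-/
import Mathlib
import Fermat.Agent.S36.R2.TripleGlue

set_option autoImplicit false
set_option linter.unusedSectionVars false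
set_option linter.style.haveILetI false

open ModularCurve Fermat.Agent.S28.Gauss Fermat.Agent.N4.Setting Fermat.Agent.N4.FibreEmbedding
open Fermat.Agent.N4.Chart Fermat.Agent.N4F.E IsLocalRing Fermat.Agent.P3G.RbarFin
open Fermat.Agent.N4.Cover.Globalize
open Fermat.Agent.S36.R2.TripleHom Fermat.Agent.S36.R2.TripleBranches
open Fermat.Agent.S36.R2.TripleGlue Fermat.Agent.S36.R2.ChartMaps
open Fermat.Agent.S36.D.NormGlue

noncomputable section

namespace Fermat.Agent.S36.R2.TripleFinal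

variable (K : Type) [Field K] [CharZero K] (M0 : ℕ) [NeZero M0] (q : ℕ) [Fact q.Prime]
  (O : Subring K) [IsDiscreteValuationRing ↥O] [IsFractionRing ↥O K]
  [CharP (IsLocalRing.ResidueField ↥O) q]

set_option quotPrecheck false in
local notation "κ" => IsLocalRing.ResidueField ↥O

/-- `κ((Q))` has exponential characteristic `q`. -/
theorem expChar_laurent : ExpChar (LaurentSeries κ) q := by
  haveI : CharP (LaurentSeries κ) q :=
    charP_of_injective_ringHom (f := (HahnSeries.C : κ →+* LaurentSeries κ))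
      HahnSeries.C_injective q
  exact ExpChar.prime (Fact.out : q.Prime)

variable [IsNoetherianRing ↥(Rfin K (M0 * q) O)] [IsFractionRing ↥(Rfin K (M0 * q) O) (FF K (M0 * q))]
  [IsNoetherianRing ↥(Rfin K (M0 * q * q) O)]
  [IsFractionRing ↥(Rfin K (M0 * q * q) O) (FF K (M0 * q * q))]

variable (hN : IsUnit ((M0 : ℕ) : ↥O))
  (hprime : (fibreIdeal K M0 O (Rfin K M0 O)).IsPrime)
  (hsmooth : IsDedekindDomain (↥(Rfin K M0 O) ⧸ fibreIdeal K M0 O (Rfin K M0 O)))
  (hA2 : ∀ x : ↥(gaussSubalgebra K M0 O),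
    theta K M0 O x ∈ modularFunctionFieldFullC (IsLocalRing.ResidueField ↥O) M0)

variable {a : ↥(Rfin K (M0 * q) O) →+* ↥(Rfin K (M0 * q * q) O)}
  {φ : FF K (M0 * q) →ₐ[K] FF K (M0 * q * q)}
  (hm : ChartMap a (φ : FF K (M0 * q) →+* FF K (M0 * q * q)))
  {Vlow Vsplit : ValuationSubring (FF K (M0 * q))}
  {Vup Va Vb : ValuationSubring (FF K (M0 * q * q))}
  {ev : ↥Vup →+* LaurentSeries (IsLocalRing.ResidueField ↥O)}
  (hI : InsepData K M0 q O φ Vlow Vup ev)
  {𝔫 : Ideal ↥(Rfin K (M0 * q) O)} [h𝔫 : 𝔫.IsMaximal] {u u' : ↥(Rfin K (M0 * q) O)}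
  (hcr : CrossingHyp 𝔫 Vsplit Vlow u u')
  {ϖ : ↥O} (hϖ : Irreducible ϖ)
  (hϖlow : algebraMap K (FF K (M0 * q)) (ϖ : K) ∈ Vlow.nonunits)
  (𝔫' : Ideal ↥(Rfin K (M0 * q * q) O)) [h𝔫' : 𝔫'.IsMaximal] (hle : 𝔫'.comap a ≤ 𝔫)

include hN hprime hsmooth hA2 hm hI hcr hϖ hϖlow hle

/-- **The local ring at a triple point is factorial.** -/
theorem ufd : UniqueFactorizationMonoid ↥(locAt (F := FF K (M0 * q * q)) 𝔫') := by
  haveI := expChar_laurent K q O
  haveI := isDedekindDomain_RbarFin K M0 O hprime hsmooth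
  exact TripleHom.ufd hm (hI.tripleHomData K M0 q O hN hA2 φ Vlow Vup ev hcr hϖ hϖlow) 𝔫' hle

/-- **Every branch whose image passes through `𝔫` passes through `𝔫'`.** -/
theorem le_of_comap_le (P : Ideal ↥(Rfin K (M0 * q * q) O)) [P.IsPrime] (hP : P.comap a ≤ 𝔫) :
    P ≤ 𝔫' := by
  haveI := expChar_laurent K q O
  haveI := isDedekindDomain_RbarFin K M0 O hprime hsmooth
  exact TripleHom.le_of_comap_le hm (hI.tripleHomData K M0 q O hN hA2 φ Vlow Vup ev hcr hϖ hϖlow)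
    𝔫' hle P hP

/-- **ONE point over the crossing point.** -/
theorem eq_of_comap_le (𝔫'' : Ideal ↥(Rfin K (M0 * q * q) O)) [𝔫''.IsMaximal]
    (hle'' : 𝔫''.comap a ≤ 𝔫) : 𝔫' = 𝔫'' := by
  haveI := expChar_laurent K q O
  haveI := isDedekindDomain_RbarFin K M0 O hprime hsmooth
  exact TripleHom.eq_of_comap_le hm (hI.tripleHomData K M0 q O hN hA2 φ Vlow Vup ev hcr hϖ hϖlow)
    𝔫' hle 𝔫'' hle''

/-- The local ring at the triple point lies in `Vup`. -/
theorem mem_Vup (b : ↥(locAt (F := FF K (M0 * q * q)) 𝔫')) :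
    algebraMap ↥(locAt (F := FF K (M0 * q * q)) 𝔫') (FF K (M0 * q * q)) b ∈ Vup := by
  haveI := expChar_laurent K q O
  haveI := isDedekindDomain_RbarFin K M0 O hprime hsmooth
  exact TripleHom.mem_V02 hm (hI.tripleHomData K M0 q O hN hA2 φ Vlow Vup ev hcr hϖ hϖlow) 𝔫' hle b

/-- The branch `Vup` is smooth at the triple point. -/
theorem hPID_up (hVS : ∀ b : ↥(locAt (F := FF K (M0 * q * q)) 𝔫'),
      algebraMap ↥(locAt (F := FF K (M0 * q * q)) 𝔫') (FF K (M0 * q * q)) b ∈ Vup) :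
    IsPrincipalIdealRing (↥(locAt (F := FF K (M0 * q * q)) 𝔫') ⧸
      Fermat.Agent.S36.Local.LocalRoot.centre Vup hVS) := by
  haveI := expChar_laurent K q O
  haveI := isDedekindDomain_RbarFin K M0 O hprime hsmooth
  exact TripleHom.hPID02 hm (hI.tripleHomData K M0 q O hN hA2 φ Vlow Vup ev hcr hϖ hϖlow) 𝔫' hle hVS

variable (hs : SplitHomData ↥(Rfin K (M0 * q * q) O) (φ : FF K (M0 * q) →+* FF K (M0 * q * q))
  Vsplit Va Vb)

include hs

/-- The local ring at the triple point lies in the two branches over the split branch. -/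
theorem mem_Va_Vb (b : ↥(locAt (F := FF K (M0 * q * q)) 𝔫')) :
    algebraMap ↥(locAt (F := FF K (M0 * q * q)) 𝔫') (FF K (M0 * q * q)) b ∈ Va ∧
      algebraMap ↥(locAt (F := FF K (M0 * q * q)) 𝔫') (FF K (M0 * q * q)) b ∈ Vb := by
  haveI := expChar_laurent K q O
  haveI := isDedekindDomain_RbarFin K M0 O hprime hsmooth
  exact TripleHom.mem_V20_V11 hm (hI.tripleHomData K M0 q O hN hA2 φ Vlow Vup ev hcr hϖ hϖlow) 𝔫'
    hle hcr.branchData10 hs b

/-- The two branches over the split branch are smooth at the triple point. -/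
theorem hPID_split
    (hVSa : ∀ b : ↥(locAt (F := FF K (M0 * q * q)) 𝔫'),
      algebraMap ↥(locAt (F := FF K (M0 * q * q)) 𝔫') (FF K (M0 * q * q)) b ∈ Va)
    (hVSb : ∀ b : ↥(locAt (F := FF K (M0 * q * q)) 𝔫'),
      algebraMap ↥(locAt (F := FF K (M0 * q * q)) 𝔫') (FF K (M0 * q * q)) b ∈ Vb) :
    IsPrincipalIdealRing (↥(locAt (F := FF K (M0 * q * q)) 𝔫') ⧸
        Fermat.Agent.S36.Local.LocalRoot.centre Va hVSa) ∧
      IsPrincipalIdealRing (↥(locAt (F := FF K (M0 * q * q)) 𝔫') ⧸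
        Fermat.Agent.S36.Local.LocalRoot.centre Vb hVSb) := by
  haveI := expChar_laurent K q O
  haveI := isDedekindDomain_RbarFin K M0 O hprime hsmooth
  exact TripleHom.hPID20_11 hm (hI.tripleHomData K M0 q O hN hA2 φ Vlow Vup ev hcr hϖ hϖlow) 𝔫'
    hle hcr.branchData10 hs hVSa hVSb

/-- **The `SplitInsep` package of the level map `φ` at the triple point `𝔫'`.** -/
theorem splitInsep
    (hsplit : ∀ (w : FF K (M0 * q * q)) (a₁ a₂ : FF K (M0 * q)), a₁ ∈ Vsplit → a₂ ∈ Vsplit →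
      w - φ a₁ ∈ Va.nonunits → w - φ a₂ ∈ Vb.nonunits →
      normHom (φ : FF K (M0 * q) →+* FF K (M0 * q * q)) w - a₁ * a₂ ^ (q - 1) ∈ Vsplit.nonunits)
    (hinsep : ∀ (w : FF K (M0 * q * q)) (a₁ : FF K (M0 * q)), a₁ ∈ Vlow →
      w ^ q - φ a₁ ∈ Vup.nonunits →
      normHom (φ : FF K (M0 * q) →+* FF K (M0 * q * q)) w - a₁ ∈ Vlow.nonunits) :
    SplitInsep (A := ↥(locAt (F := FF K (M0 * q)) 𝔫)) (B := ↥(locAt (F := FF K (M0 * q * q)) 𝔫'))
      (φ : FF K (M0 * q) →+* FF K (M0 * q * q))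
      (normHom (φ : FF K (M0 * q) →+* FF K (M0 * q * q)))
      (inclHom a (φ : FF K (M0 * q) →+* FF K (M0 * q * q)) hm 𝔫 𝔫' hle) q Vsplit Vlow Va Vb Vup := by
  haveI := expChar_laurent K q O
  haveI := isDedekindDomain_RbarFin K M0 O hprime hsmooth
  exact TripleHom.splitInsep hm (hI.tripleHomData K M0 q O hN hA2 φ Vlow Vup ev hcr hϖ hϖlow) 𝔫'
    hle hcr.branchData10 hs hsplit hinsep

end Fermat.Agent.S36.R2.TripleFinal
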