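/-
S36 block [R2], concrete layer 3: the output of (R1) (`S36/R1/CrossingRegularBoth.regular_fin_both`,
in `θ`-language) as a `TripleGlue.CrossingHyp` (valuation language, symmetric in the two branches
`V10 = gaussVS K (N ℓ) O`, `V01 = S₂.V`).
-/
import Mathlib
import Fermat.Agent.S36.R2.TripleGlue
import Fermat.Agent.S36.R1.CrossingRegularBoth

set_option autoImplicit false
set_option linter.unusedSectionVars false
set_option linter.style.haveILetI false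

open ModularCurve Fermat.Agent.S28.Gauss Fermat.Agent.N4.Setting Fermat.Agent.N4.FibreEmbedding
open Fermat.Agent.N4.Chart
open Fermat.Agent.N4F.E.GaussDVR
open Fermat.Agent.N4F.E IsLocalRing Fermat.Agent.P3G.RbarFin
open Fermat.Agent.P3G.TwoComponentsFinal Fermat.Agent.P3G
open Fermat.Agent.S36.R1.CrossingRegular Fermat.Agent.S36.R2.TripleGlue

noncomputable section

namespace Fermat.Agent.S36.R2.TripleR1

variable (K : Type) [Field K] [CharZero K] (N : ℕ) [NeZero N] (ℓ : ℕ) [Fact ℓ.Prime]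
  (O : Subring K) [IsDiscreteValuationRing ↥O] [IsFractionRing ↥O K]
  [CharP (IsLocalRing.ResidueField ↥O) ℓ] [PerfectRing (IsLocalRing.ResidueField ↥O) ℓ]
  (S₂ : FibreTwo.SecondVal K N ℓ O)

/-- The output of `regular_fin_both` as a `CrossingHyp`. -/
theorem crossingHyp_of_regular (𝔫 : Ideal ↥(Rfin K (N * ℓ) O))
    (hk1 : RingHom.ker (thetaFin K (N * ℓ) O) ≤ 𝔫)
    (hk2 : RingHom.ker (theta2S K N ℓ O S₂) ≤ 𝔫)
    {u v : ↥(Rfin K (N * ℓ) O)}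
    (hu2 : theta2S K N ℓ O S₂ u = 0) (hv1 : thetaFin K (N * ℓ) O v = 0)
    (hu1 : thetaFin K (N * ℓ) O u ≠ 0) (hv2 : theta2S K N ℓ O S₂ v ≠ 0)
    (hp1 : ∀ r : ↥(Rfin K (N * ℓ) O), theta2S K N ℓ O S₂ r = 0 →
      ∃ s c' : ↥(Rfin K (N * ℓ) O), s ∉ 𝔫 ∧ s * r = c' * u)
    (hp2 : ∀ r : ↥(Rfin K (N * ℓ) O), thetaFin K (N * ℓ) O r = 0 →
      ∃ s c' : ↥(Rfin K (N * ℓ) O), s ∉ 𝔫 ∧ s * r = c' * v)
    (hpair : ∀ x ∈ 𝔫, ∃ s : ↥(Rfin K (N * ℓ) O), s ∉ 𝔫 ∧ s * x ∈ Ideal.span {u, v}) :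
    CrossingHyp 𝔫 (gaussVS K (N * ℓ) O) S₂.V u v where
  h10 := fun r => chartAlg_le_gaussSubalgebra K (N * ℓ) O (sFin_le_gauss K (N * ℓ) O) r.2
  h01 := fun r => SecondValBridge.Rfin_le_V K N ℓ O S₂ r.2
  c10 := fun r hr => hk1 ((mem_nonunits_gaussVS_iff_thetaFin K N ℓ O r).1 hr)
  c01 := fun r hr => hk2 ((mem_nonunits_secondVal_iff_theta2S K N ℓ O S₂ r).1 hr)
  u01 := (mem_nonunits_secondVal_iff_theta2S K N ℓ O S₂ u).2 hu2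
  u10 := fun hmem => hu1 ((mem_nonunits_gaussVS_iff_thetaFin K N ℓ O u).1 hmem)
  v10 := (mem_nonunits_gaussVS_iff_thetaFin K N ℓ O v).2 hv1
  v01 := fun hmem => hv2 ((mem_nonunits_secondVal_iff_theta2S K N ℓ O S₂ v).1 hmem)
  gen01 := fun r hr => hp1 r ((mem_nonunits_secondVal_iff_theta2S K N ℓ O S₂ r).1 hr)
  gen10 := fun r hr => hp2 r ((mem_nonunits_gaussVS_iff_thetaFin K N ℓ O r).1 hr)
  gen_max := hpair

/-- Existential form: the conclusion of `regular_fin_both` gives a `CrossingHyp`. -/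
theorem exists_crossingHyp {ϖ : ↥O} (𝔫 : Ideal ↥(Rfin K (N * ℓ) O))
    (hk1 : RingHom.ker (thetaFin K (N * ℓ) O) ≤ 𝔫)
    (hk2 : RingHom.ker (theta2S K N ℓ O S₂) ≤ 𝔫)
    (hreg : ∃ u v : ↥(Rfin K (N * ℓ) O), u ∈ 𝔫 ∧ v ∈ 𝔫 ∧
      theta2S K N ℓ O S₂ u = 0 ∧ thetaFin K (N * ℓ) O v = 0 ∧
      thetaFin K (N * ℓ) O u ≠ 0 ∧ theta2S K N ℓ O S₂ v ≠ 0 ∧
      (∀ r : ↥(Rfin K (N * ℓ) O), theta2S K N ℓ O S₂ r = 0 →
        ∃ s c' : ↥(Rfin K (N * ℓ) O), s ∉ 𝔫 ∧ s * r = c' * u) ∧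
      (∀ r : ↥(Rfin K (N * ℓ) O), thetaFin K (N * ℓ) O r = 0 →
        ∃ s c' : ↥(Rfin K (N * ℓ) O), s ∉ 𝔫 ∧ s * r = c' * v) ∧
      (∀ x ∈ 𝔫, ∃ s : ↥(Rfin K (N * ℓ) O), s ∉ 𝔫 ∧ s * x ∈ Ideal.span {u, v}) ∧
      u * v ∈ Ideal.span {algebraMap ↥O ↥(Rfin K (N * ℓ) O) ϖ}) :
    ∃ u v : ↥(Rfin K (N * ℓ) O), CrossingHyp 𝔫 (gaussVS K (N * ℓ) O) S₂.V u v := by
  obtain ⟨u, v, -, -, hu2, hv1, hu1, hv2, hp1, hp2, hpair, -⟩ := hreg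
  exact ⟨u, v, crossingHyp_of_regular K N ℓ O S₂ 𝔫 hk1 hk2 hu2 hv1 hu1 hv2 hp1 hp2 hpair⟩

end Fermat.Agent.S36.R2.TripleR1
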