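/-
S36 block [R2], concrete layer 5: the (V)-inputs of (R2) from a `V/ThreeVal.ThreeVal`.

`T : ThreeVal K M0 q O sv`, `V10 = gaussVS K (M0 q) O`, `V01 = sv.V`, `V20 = gaussVS K (M0 q²) O`,
`V11 = T.V11`, `V02 = T.V02`, `α₂ β₂ = alphaF / betaF K (M0 q) q`.
* `insepData_alpha : InsepData α₂ V01 V02 T.ev02`, `insepData_beta : InsepData β₂ V10 V20 θ₂`;
* `splitHomData_alpha : SplitHomData α₂ V10 V20 V11`, `splitHomData_beta : SplitHomData β₂ V01 V02 V11`.
-/
import Mathlib
import Fermat.Agent.S36.R2.TripleFinal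
import Fermat.Agent.S36.V.ThreeVal
import Fermat.Agent.P3G.SecondValBridge

set_option autoImplicit false
set_option linter.unusedSectionVars false
set_option linter.style.haveILetI false

open ModularCurve Fermat.Agent.S28.Gauss Fermat.Agent.N4.Setting Fermat.Agent.N4.FibreEmbedding
open Fermat.Agent.N4.Chart Fermat.Agent.N4F.E IsLocalRing Fermat.Agent.P3G.RbarFin
open Fermat.Agent.N4F.E.GaussDVR Fermat.Agent.N4F.E.DegreeLevelRaise
open Fermat.Agent.P3G Fermat.Agent.P3G.SecondValuation Fermat.Agent.P3G.LevelIntegrality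
open Fermat.Agent.S36.V.ThreeVal
open Fermat.Agent.S36.R2.TripleHom Fermat.Agent.S36.R2.TripleGlue

noncomputable section

namespace Fermat.Agent.S36.R2.TripleThreeVal

/-! ### Charts inside valuation rings -/

section Generic

/-- A chart lies in every valuation ring containing the constants and the generator. -/
theorem chartAlg_le_valuationSubring {O F : Type*} [CommRing O] [Field F] [Algebra O F]
    (B : ValuationSubring F) (hO : ∀ c : O, algebraMap O F c ∈ B) {s : F} (hs : s ∈ B)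
    {x : F} (hx : x ∈ chartAlg O F {s}) : x ∈ B := by
  rw [mem_chartAlg_iff] at hx
  let BA : Subalgebra O F := { B.toSubring with algebraMap_mem' := hO }
  have hadj : Algebra.adjoin O ({s} : Set F) ≤ BA :=
    Algebra.adjoin_le (Set.singleton_subset_iff.2 hs)
  let φ : ↥(Algebra.adjoin O ({s} : Set F)) →+* ↥B :=
    (Subalgebra.inclusion hadj).toRingHom
  have h1 : IsIntegral ↥B x := hx.map_of_comp_eq φ (RingHom.id F) (by ext; rfl)
  obtain ⟨y, hy⟩ := IsIntegrallyClosed.isIntegral_iff.1 h1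
  rw [← hy]
  exact y.2

/-- Two elements of a valuation ring congruent modulo the maximal ideal have the same value under
a place. -/
theorem ev_eq_of_sub_mem_nonunits {F Ω : Type*} [Field F] [CommRing Ω] (V : ValuationSubring F)
    (ev : ↥V →+* Ω) (hev : ∀ y : ↥V, ev y = 0 ↔ (y : F) ∈ V.nonunits) (x y : ↥V)
    (h : (x : F) - (y : F) ∈ V.nonunits) : ev x = ev y := by
  have h0 : ev (x - y) = 0 := (hev _).2 h
  rwa [map_sub, sub_eq_zero] at h0

/-- Membership along a comap equality (no definitional unfolding). -/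
theorem mem_iff_of_comap_eq {F1 F2 : Type*} [Field F1] [Field F2] {V : ValuationSubring F2}
    {U : ValuationSubring F1} {f : F1 →+* F2} (h : V.comap f = U) (x : F1) :
    f x ∈ V ↔ x ∈ U := by
  subst h
  exact ValuationSubring.mem_comap.symm

end Generic

variable (K : Type) [Field K] [CharZero K] (M0 q : ℕ) [NeZero M0] [Fact q.Prime]
  (O : Subring K) [IsDiscreteValuationRing ↥O] [IsFractionRing ↥O K]
  [CharP (IsLocalRing.ResidueField ↥O) q]

set_option quotPrecheck false in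
local notation "κ" => IsLocalRing.ResidueField ↥O

/-- The place of the Gauss valuation ring. -/
def evG (N : ℕ) [NeZero N] : ↥(gaussVS K N O) →+* LaurentSeries κ :=
  (theta K N O).comp
    (((gaussVS K N O).subtype).codRestrict (gaussSubalgebra K N O) (fun x => x.2))

theorem evG_apply (N : ℕ) [NeZero N] (x : ↥(gaussVS K N O)) :
    evG K O N x = theta K N O ⟨(x : FF K N), x.2⟩ := rfl

theorem evG_eq_zero_iff (N : ℕ) [NeZero N] (x : ↥(gaussVS K N O)) :
    evG K O N x = 0 ↔ (x : FF K N) ∈ (gaussVS K N O).nonunits := by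
  rw [evG_apply]
  exact (FibreTwo.mem_nonunits_gaussVS_iff K N O x.2).symm

/-- The finite chart lies in the Gauss valuation ring. -/
theorem Rfin_le_gaussVS (N : ℕ) [NeZero N] (r : ↥(Rfin K N O)) :
    (r : FF K N) ∈ gaussVS K N O :=
  chartAlg_le_gaussSubalgebra K N O (sFin_le_gauss K N O) r.2

variable {K M0 q O}
variable {sv : SecondVal K M0 q O} (T : ThreeVal K M0 q O sv)

/-- `α₂` maps `sv.V` into `V02`. -/
theorem alpha_mem_V02 {x : FF K (M0 * q)} (hx : x ∈ sv.V) : alphaF K (M0 * q) q x ∈ T.V02 := by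
  exact (mem_iff_of_comap_eq T.comap_alpha_V02 x).2 hx

/-- `β₂` maps `sv.V` into `V02`. -/
theorem beta_mem_V02 {x : FF K (M0 * q)} (hx : x ∈ sv.V) : betaF K (M0 * q) q x ∈ T.V02 := by
  exact (mem_iff_of_comap_eq T.comap_beta_V02 x).2 hx

/-- `α₂` maps `G₁` into `V11`. -/
theorem alpha_mem_V11 {x : FF K (M0 * q)} (hx : x ∈ gaussSubalgebra K (M0 * q) O) :
    alphaF K (M0 * q) q x ∈ T.V11 := by
  exact (mem_iff_of_comap_eq T.comap_alpha_V11 x).2 hx

/-- `β₂` maps `sv.V` into `V11`. -/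
theorem beta_mem_V11 {x : FF K (M0 * q)} (hx : x ∈ sv.V) : betaF K (M0 * q) q x ∈ T.V11 := by
  exact (mem_iff_of_comap_eq T.comap_beta_V11 x).2 hx

/-- The finite chart of the lower level lies in `sv.V`. -/
theorem Rfin_le_secondVal (r : ↥(Rfin K (M0 * q) O)) : (r : FF K (M0 * q)) ∈ sv.V :=
  SecondValBridge.Rfin_le_V K M0 q O (SecondValBridge.toTwo sv) r.2

/-- The finite chart of the top level lies in `V02`. -/
theorem Rfin_le_V02 (b : ↥(Rfin K (M0 * q * q) O)) : (b : FF K (M0 * q * q)) ∈ T.V02 := by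
  refine chartAlg_le_valuationSubring T.V02 (fun c => ?_) ?_ b.2
  · have h1 : algebraMap ↥O (FF K (M0 * q * q)) c =
        alphaF K (M0 * q) q (algebraMap ↥O (FF K (M0 * q)) c) :=
      (ChartIntegrality.algHom_algebraMap (alphaF K (M0 * q) q) c).symm
    rw [h1]
    exact alpha_mem_V02 T (Rfin_le_secondVal (algebraMap ↥O ↥(Rfin K (M0 * q) O) c))
  · rw [← alphaF_jF K (M0 * q) q]
    exact alpha_mem_V02 T (Rfin_le_secondVal (jFin K (M0 * q) O))

/-- The finite chart of the top level lies in `V11`. -/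
theorem Rfin_le_V11 (b : ↥(Rfin K (M0 * q * q) O)) : (b : FF K (M0 * q * q)) ∈ T.V11 := by
  refine chartAlg_le_valuationSubring T.V11 (fun c => ?_) ?_ b.2
  · have h1 : algebraMap ↥O (FF K (M0 * q * q)) c =
        alphaF K (M0 * q) q (algebraMap ↥O (FF K (M0 * q)) c) :=
      (ChartIntegrality.algHom_algebraMap (alphaF K (M0 * q) q) c).symm
    rw [h1]
    exact alpha_mem_V11 T (Rfin_le_gaussVS K O (M0 * q) (algebraMap ↥O ↥(Rfin K (M0 * q) O) c))
  · rw [← alphaF_jF K (M0 * q) q]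
    exact alpha_mem_V11 T (jF_mem_gaussSubalgebra K (M0 * q) O)

/-! ### The `α`-side: `V01 ← V02` inseparable, `V10 ← V20, V11` split -/

/-- `InsepData` along `α₂` over `V01 = sv.V`. -/
theorem insepData_alpha :
    InsepData K M0 q O (alphaF K (M0 * q) q) sv.V T.V02 T.ev02 where
  hup := Rfin_le_V02 T
  hcomap := T.comap_alpha_V02
  honly := T.only_alpha_V01
  hram := T.ram_one_V02
  hev := T.ev02_eq_zero_iff
  hinsep := fun y hy => by
    obtain ⟨a, ha⟩ := T.insep_V02 y hy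
    exact ⟨a, a.2, ha⟩
  hD0le := fun r₀ => by
    have hr₀ : (r₀ : FF K M0) ∈ gaussSubalgebra K M0 O :=
      chartAlg_le_gaussSubalgebra K M0 O (sFin_le_gauss K M0 O) r₀.2
    refine ⟨betaR K (M0 * q) q O (betaR K M0 q O r₀), ?_⟩
    have h1 := T.ev02_beta (betaF K M0 q (r₀ : FF K M0)) (sv.beta_mem _ hr₀)
      (Rfin_le_V02 T (betaR K (M0 * q) q O (betaR K M0 q O r₀)))
    have h2 := sv.ev_beta (r₀ : FF K M0) hr₀
    exact h1.trans h2
  hdeg := fun x => by
    obtain ⟨a, ha⟩ := T.deg_one_V02 (x : FF K (M0 * q * q)) x.2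
    obtain ⟨g, hg⟩ := sv.deg_one (a : FF K (M0 * q)) a.2
    refine ⟨g, ?_⟩
    have h1 : T.ev02 x = T.ev02 ⟨betaF K (M0 * q) q (a : FF K (M0 * q)), beta_mem_V02 T a.2⟩ :=
      ev_eq_of_sub_mem_nonunits T.V02 T.ev02 T.ev02_eq_zero_iff x _ ha
    have h2 := T.ev02_beta (a : FF K (M0 * q)) a.2 (beta_mem_V02 T a.2)
    have h3 : sv.ev ⟨(a : FF K (M0 * q)), a.2⟩ =
        sv.ev ⟨betaF K M0 q (g : FF K M0), sv.beta_mem _ g.2⟩ :=
      ev_eq_of_sub_mem_nonunits sv.V sv.ev sv.ev_eq_zero_iff ⟨(a : FF K (M0 * q)), a.2⟩ _ hg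
    have h4 := sv.ev_beta (g : FF K M0) g.2
    rw [h1, h2, h3, h4]

/-- `SplitHomData` along `α₂` over `V10`. -/
theorem splitHomData_alpha :
    SplitHomData ↥(Rfin K (M0 * q * q) O)
      (alphaF K (M0 * q) q : FF K (M0 * q) →+* FF K (M0 * q * q))
      (gaussVS K (M0 * q) O) (gaussVS K (M0 * q * q) O) T.V11 where
  hV20 := Rfin_le_gaussVS K O (M0 * q * q)
  comap20 := fun x => alphaF_mem_iff K O (M0 * q) q x
  lift20 := fun y hy => by
    obtain ⟨a, ha⟩ := T.deg_one_V20 y hy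
    exact ⟨a, a.2, ha⟩
  hV11 := Rfin_le_V11 T
  comap11 := fun x => mem_iff_of_comap_eq T.comap_alpha_V11 x
  lift11 := fun y hy => by
    obtain ⟨a, ha⟩ := T.deg_one_V11_alpha y hy
    exact ⟨a, a.2, ha⟩

/-! ### The `β`-side: `V10 ← V20` inseparable, `V01 ← V02, V11` split -/

/-- `SplitHomData` along `β₂` over `V01 = sv.V`. -/
theorem splitHomData_beta :
    SplitHomData ↥(Rfin K (M0 * q * q) O)
      (betaF K (M0 * q) q : FF K (M0 * q) →+* FF K (M0 * q * q)) sv.V T.V02 T.V11 where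
  hV20 := Rfin_le_V02 T
  comap20 := fun x => mem_iff_of_comap_eq T.comap_beta_V02 x
  lift20 := fun y hy => by
    obtain ⟨a, ha⟩ := T.deg_one_V02 y hy
    exact ⟨a, a.2, ha⟩
  hV11 := Rfin_le_V11 T
  comap11 := fun x => mem_iff_of_comap_eq T.comap_beta_V11 x
  lift11 := fun y hy => by
    obtain ⟨a, ha⟩ := T.deg_one_V11_beta y hy
    exact ⟨a, a.2, ha⟩

variable (ι : K →+* ℂ) (hqM0 : ¬ q ∣ M0)

include T ι hqM0 in
/-- `InsepData` along `β₂` over `V10 = gaussVS K (M0 q) O`. -/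
theorem insepData_beta :
    InsepData K M0 q O (betaF K (M0 * q) q) (gaussVS K (M0 * q) O) (gaussVS K (M0 * q * q) O)
      (evG K O (M0 * q * q)) where
  hup := Rfin_le_gaussVS K O (M0 * q * q)
  hcomap := by
    ext x
    rw [ValuationSubring.mem_comap]
    exact betaF_mem_iff K O (M0 * q) q x
  honly := T.only_beta_V10
  hram := fun ϖ hϖ => Fermat.Agent.S36.V.Transport.ram_one_gaussVS K O (M0 * q * q) hϖ
  hev := evG_eq_zero_iff K O (M0 * q * q)
  hinsep := fun y hy => by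
    obtain ⟨a, ha⟩ := T.insep_V20 y hy
    exact ⟨a, a.2, ha⟩
  hD0le := fun r₀ => by
    have hr₀ : (r₀ : FF K M0) ∈ gaussSubalgebra K M0 O :=
      chartAlg_le_gaussSubalgebra K M0 O (sFin_le_gauss K M0 O) r₀.2
    refine ⟨alphaR K (M0 * q) q O (alphaR K M0 q O r₀), ?_⟩
    rw [evG_apply]
    have h1 := theta_alphaF K O (M0 * q) q
      ⟨alphaF K M0 q (r₀ : FF K M0), alphaF_mem K O M0 q hr₀⟩
    have h2 := theta_alphaF K O M0 q ⟨(r₀ : FF K M0), hr₀⟩
    exact h1.trans h2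
  hdeg := fun x => by
    obtain ⟨a, ha⟩ := T.deg_one_V20 (x : FF K (M0 * q * q)) x.2
    obtain ⟨g, hg⟩ := (SecondValBridge.gauss_alpha K M0 q O (SecondValBridge.toTwo sv) ι hqM0).1
      (a : FF K (M0 * q)) a.2
    refine ⟨g, ?_⟩
    have h1 : evG K O (M0 * q * q) x = evG K O (M0 * q * q)
        ⟨alphaF K (M0 * q) q (a : FF K (M0 * q)), alphaF_mem K O (M0 * q) q a.2⟩ :=
      ev_eq_of_sub_mem_nonunits _ _ (evG_eq_zero_iff K O (M0 * q * q)) x _ ha
    have h2 : evG K O (M0 * q * q)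
        ⟨alphaF K (M0 * q) q (a : FF K (M0 * q)), alphaF_mem K O (M0 * q) q a.2⟩ =
        theta K (M0 * q) O a := theta_alphaF K O (M0 * q) q a
    have h3 : evG K O (M0 * q) ⟨(a : FF K (M0 * q)), a.2⟩ = evG K O (M0 * q)
        ⟨alphaF K M0 q (g : FF K M0), alphaF_mem K O M0 q g.2⟩ :=
      ev_eq_of_sub_mem_nonunits _ _ (evG_eq_zero_iff K O (M0 * q)) ⟨(a : FF K (M0 * q)), a.2⟩ _ hg
    have h4 : evG K O (M0 * q) ⟨alphaF K M0 q (g : FF K M0), alphaF_mem K O M0 q g.2⟩ =
        theta K M0 O g := theta_alphaF K O M0 q g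
    have h5 : theta K (M0 * q) O a = evG K O (M0 * q) ⟨(a : FF K (M0 * q)), a.2⟩ := rfl
    rw [h1, h2, h5, h3, h4]

/-! ### The uniformiser of `O` on the lower level -/

omit [Fact q.Prime] [CharP (IsLocalRing.ResidueField ↥O) q] in
/-- A uniformiser of `O` is a non-unit of the Gauss valuation ring. -/
theorem unif_mem_nonunits_gaussVS (N : ℕ) [NeZero N] {ϖ : ↥O} (hϖ : Irreducible ϖ) :
    algebraMap K (FF K N) (ϖ : K) ∈ (gaussVS K N O).nonunits := by
  have h1 : algebraMap K (FF K N) (ϖ : K) =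
      ((algebraMap ↥O ↥(gaussSubalgebra K N O) ϖ : ↥(gaussSubalgebra K N O)) : FF K N) := by
    show _ = algebraMap ↥O (FF K N) ϖ
    rw [IsScalarTower.algebraMap_apply ↥O K (FF K N)]
    rfl
  rw [h1, FibreTwo.mem_nonunits_gaussVS_iff K N O (algebraMap ↥O ↥(gaussSubalgebra K N O) ϖ).2]
  have h2 := theta_algebraMap K N O ϖ
  rw [residue_irreducible K O hϖ, map_zero] at h2
  exact h2

/-- A uniformiser of `O` is a non-unit of the second valuation ring. -/
theorem unif_mem_nonunits_secondVal (sv : SecondVal K M0 q O) {ϖ : ↥O} (hϖ : Irreducible ϖ) :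
    algebraMap K (FF K (M0 * q)) (ϖ : K) ∈ sv.V.nonunits := by
  have hG : algebraMap K (FF K M0) (ϖ : K) ∈ gaussSubalgebra K M0 O := by
    have h1 : algebraMap K (FF K M0) (ϖ : K) =
        ((algebraMap ↥O ↥(gaussSubalgebra K M0 O) ϖ : ↥(gaussSubalgebra K M0 O)) : FF K M0) := by
      show _ = algebraMap ↥O (FF K M0) ϖ
      rw [IsScalarTower.algebraMap_apply ↥O K (FF K M0)]
      rfl
    rw [h1]
    exact (algebraMap ↥O ↥(gaussSubalgebra K M0 O) ϖ).2
  have h0 : theta K M0 O ⟨algebraMap K (FF K M0) (ϖ : K), hG⟩ = 0 := by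
    have h2 := (FibreTwo.mem_nonunits_gaussVS_iff K M0 O hG).1
      (unif_mem_nonunits_gaussVS (K := K) (O := O) M0 hϖ)
    exact h2
  have h3 := sv.ev_beta (algebraMap K (FF K M0) (ϖ : K)) hG
  rw [h0] at h3
  have h4 := (sv.ev_eq_zero_iff _).1 h3
  have h5 : betaF K M0 q (algebraMap K (FF K M0) (ϖ : K)) = algebraMap K (FF K (M0 * q)) (ϖ : K) :=
    (betaF K M0 q).commutes _
  rw [← h5]
  exact h4

end Fermat.Agent.S36.R2.TripleThreeVal
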