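import Mathlib
import Fermat.Agent.P3G.Krull

/-!
# S36, block (R2), tool: a branch which is a discrete valuation ring at a point

`R` a noetherian domain, `P ≤ 𝔫` primes, `u ∈ 𝔫` with `𝔫 = (u) + P` locally at `𝔫` (the branch `R / P`
has the local parameter `u` at the point `𝔫`; this is the output shape of
`S36.RegularCrossing.hgen_of_span_triple`).  Then every `r ∉ P` is `unit · u ^ k` modulo `P`, locally
at `𝔫` (`exists_pow_mul_sub_mem`): the hypothesis `hbranch` of `S36.R2.UniquePoint` and `hbranch₀`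
of `S36.R2.Regular`.
-/

set_option autoImplicit false
set_option linter.unusedSectionVars false
set_option linter.style.haveILetI false

namespace Fermat.Agent.S36.R2.PointDVR

open Fermat.Agent.N4.Cover.Globalize Fermat.Agent.P3G.Krull

variable {R F : Type*} [CommRing R] [IsDomain R] [IsNoetherianRing R]
  [Field F] [Algebra R F] [IsFractionRing R F]
  (𝔫 P : Ideal R) [h𝔫 : 𝔫.IsPrime] [hP : P.IsPrime] (hP𝔫 : P ≤ 𝔫)
  {u : R} (hu : u ∈ 𝔫)
  (hgen : ∀ x ∈ 𝔫, ∃ s c : R, s ∉ 𝔫 ∧ s * x - c * u ∈ P)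

include hP𝔫 in
/-- Contraction of `P R_𝔫` to `R`. -/
theorem mem_of_algebraMap_mem_map {r : R}
    (h : algebraMap R (locAt (F := F) 𝔫) r ∈ P.map (algebraMap R (locAt (F := F) 𝔫))) : r ∈ P := by
  have hdisj : Disjoint (𝔫.primeCompl : Set R) (P : Set R) := disjoint_primeCompl_of_le hP𝔫
  have := IsLocalization.under_map_of_isPrime_disjoint 𝔫.primeCompl (locAt (F := F) 𝔫) hP hdisj
  rw [← this]
  exact h

include hP𝔫 hu hgen in
/-- **The branch is a discrete valuation ring at the point.** -/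
theorem exists_pow_mul_sub_mem (F : Type*) [Field F] [Algebra R F] [IsFractionRing R F]
    (r : R) (hr : r ∉ P) :
    ∃ (k : ℕ) (t e : R), t ∉ 𝔫 ∧ e ∉ 𝔫 ∧ t * r - e * u ^ k ∈ P := by
  haveI hloc : IsLocalRing (locAt (F := F) 𝔫) := isLocalRing_locAt 𝔫
  haveI : IsNoetherianRing (locAt (F := F) 𝔫) := isNoetherianRing_locAt 𝔫
  have hdisj : Disjoint (𝔫.primeCompl : Set R) (P : Set R) := disjoint_primeCompl_of_le hP𝔫
  set I : Ideal (locAt (F := F) 𝔫) := P.map (algebraMap R (locAt (F := F) 𝔫)) with hI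
  haveI hIprime : I.IsPrime :=
    IsLocalization.isPrime_of_isPrime_disjoint 𝔫.primeCompl (locAt (F := F) 𝔫) P hP hdisj
  haveI : IsDomain (locAt (F := F) 𝔫 ⧸ I) := (Ideal.Quotient.isDomain_iff_prime _).2 hIprime
  haveI : Nontrivial (locAt (F := F) 𝔫 ⧸ I) := Ideal.Quotient.nontrivial_iff.mpr hIprime.ne_top
  haveI : IsLocalRing (locAt (F := F) 𝔫 ⧸ I) :=
    IsLocalRing.of_surjective' (Ideal.Quotient.mk I) Ideal.Quotient.mk_surjective
  set mk := Ideal.Quotient.mk I with hmk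
  set am := algebraMap R (locAt (F := F) 𝔫) with ham
  have hImax : I ≤ IsLocalRing.maximalIdeal (locAt (F := F) 𝔫) :=
    IsLocalRing.le_maximalIdeal hIprime.ne_top
  -- lifting units
  have hunit_lift : ∀ z : locAt (F := F) 𝔫, IsUnit (mk z) → IsUnit z := by
    intro z hz
    by_contra hnz
    have hzmax : z ∈ IsLocalRing.maximalIdeal (locAt (F := F) 𝔫) :=
      (IsLocalRing.mem_maximalIdeal z).2 hnz
    obtain ⟨w, hw⟩ := hz.exists_right_inv
    obtain ⟨w', rfl⟩ := Ideal.Quotient.mk_surjective w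
    have h1 : z * w' - 1 ∈ I := by
      rw [← Ideal.Quotient.eq, map_mul, map_one]; exact hw
    have h3 : (1 : locAt (F := F) 𝔫) ∈ IsLocalRing.maximalIdeal (locAt (F := F) 𝔫) := by
      have h4 := Ideal.sub_mem _ (Ideal.mul_mem_right w' _ hzmax) (hImax h1)
      rwa [sub_sub_cancel] at h4
    exact (IsLocalRing.maximalIdeal.isMaximal _).ne_top ((Ideal.eq_top_iff_one _).2 h3)
  -- the maximal ideal of the quotient is generated by the image of `u`
  have humax : am u ∈ IsLocalRing.maximalIdeal (locAt (F := F) 𝔫) :=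
    (IsLocalization.AtPrime.to_map_mem_maximal_iff (locAt (F := F) 𝔫) 𝔫 u).2 hu
  have hmax : IsLocalRing.maximalIdeal (locAt (F := F) 𝔫 ⧸ I) = Ideal.span {mk (am u)} := by
    apply le_antisymm
    · intro x hx
      obtain ⟨z, rfl⟩ := Ideal.Quotient.mk_surjective x
      have hz : z ∈ IsLocalRing.maximalIdeal (locAt (F := F) 𝔫) := by
        rw [IsLocalRing.mem_maximalIdeal, mem_nonunits_iff] at hx ⊢
        exact fun h => hx (h.map mk)
      obtain ⟨p, s, hp, hs, hzs⟩ := (mem_maximalIdeal_locAt_iff 𝔫 hloc z).1 hz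
      obtain ⟨t, c, ht, htc⟩ := hgen p hp
      have hunit : IsUnit (am (t * s)) :=
        IsLocalization.map_units (M := 𝔫.primeCompl) (locAt (F := F) 𝔫)
          ⟨t * s, fun h => (h𝔫.mem_or_mem h).elim ht hs⟩
      have h1 : am (t * s) * z = am (t * p - c * u) + am c * am u := by
        apply Subtype.ext
        have e1 : (z : F) * algebraMap R F s = algebraMap R F p := hzs
        simp only [ham, map_mul, map_sub, Subalgebra.coe_mul, Subalgebra.coe_add,
          Subalgebra.coe_sub, coe_algebraMap_locAt]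
        rw [← e1]; ring
      have h2 : mk (am (t * p - c * u)) = 0 :=
        Ideal.Quotient.eq_zero_iff_mem.2 (Ideal.mem_map_of_mem _ htc)
      rw [← Ideal.unit_mul_mem_iff_mem _ (hunit.map mk), ← map_mul, h1, map_add, h2, zero_add,
        map_mul]
      exact Ideal.mul_mem_left _ _ (Ideal.mem_span_singleton_self _)
    · rw [Ideal.span_singleton_le_iff_mem, IsLocalRing.mem_maximalIdeal, mem_nonunits_iff]
      intro h
      exact (IsLocalRing.mem_maximalIdeal _).1 humax (hunit_lift _ h)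
  have h47 := (tfae_of_isNoetherianRing_of_isLocalRing_of_isDomain
    (locAt (F := F) 𝔫 ⧸ I)).out 4 6
  have hpow := h47.1 ⟨⟨_, hmax⟩⟩
  -- the image of `r` is nonzero
  have hr0 : mk (am r) ≠ 0 := by
    intro h0
    exact hr (mem_of_algebraMap_mem_map (F := F) 𝔫 P hP𝔫 (Ideal.Quotient.eq_zero_iff_mem.1 h0))
  obtain ⟨k, hk⟩ := hpow (Ideal.span {mk (am r)})
    (by rw [Ne, Ideal.span_singleton_eq_bot]; exact hr0)
  rw [hmax, Ideal.span_singleton_pow, Ideal.span_singleton_eq_span_singleton] at hk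
  obtain ⟨w, hw⟩ := hk
  -- lift the unit
  obtain ⟨w', hw'⟩ := Ideal.Quotient.mk_surjective (w : locAt (F := F) 𝔫 ⧸ I)
  have hw'unit : IsUnit w' := hunit_lift w' (hw' ▸ w.isUnit)
  obtain ⟨a, s, hs, hws⟩ := (mem_locAt_iff 𝔫 (w' : F)).1 w'.2
  -- `a ∉ 𝔫`
  have ha : a ∉ 𝔫 := by
    intro ha
    have : w' ∈ IsLocalRing.maximalIdeal (locAt (F := F) 𝔫) :=
      (mem_maximalIdeal_locAt_iff 𝔫 hloc w').2 ⟨a, s, ha, hs, hws⟩
    exact (IsLocalRing.mem_maximalIdeal _).1 this hw'unit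
  -- `r w' ≡ u ^ k` modulo `I`, i.e. `a r - s u ^ k ∈ P`
  refine ⟨k, a, s, ha, hs, ?_⟩
  apply mem_of_algebraMap_mem_map (F := F) 𝔫 P hP𝔫
  have h1 : am r * w' - am u ^ k ∈ I := by
    rw [← Ideal.Quotient.eq, map_mul, hw', map_pow]; exact hw
  have hsunit : IsUnit (am s) :=
    IsLocalization.map_units (M := 𝔫.primeCompl) (locAt (F := F) 𝔫) ⟨s, hs⟩
  have h2 : am (a * r - s * u ^ k) = am s * (am r * w' - am u ^ k) := by
    apply Subtype.ext
    simp only [ham, map_mul, map_sub, map_pow, Subalgebra.coe_mul, Subalgebra.coe_sub,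
      Subalgebra.coe_pow, coe_algebraMap_locAt]
    rw [← hws]; ring
  rw [h2]
  exact Ideal.mul_mem_left _ _ h1

end Fermat.Agent.S36.R2.PointDVR
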