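import Mathlib
import Fermat.Agent.P3G.Krull

/-!
# S36, block (R2), part 2: `Q B_𝔪 = v B_𝔪` at the point over a crossing point

`R ⊆ B` integral extension of domains, `R` integrally closed, `B` noetherian and integrally closed.
`𝔫` a prime of `R`, `P ≤ 𝔫` a prime with `P R_𝔫 = v R_𝔫` (output of (R1)), `Q` the only prime of `B`
over `P`, with `Q B_Q = v B_Q` (`e = 1`), `𝔪` a prime of `B` over `𝔫`.  Then `Q B_𝔪 = v B_𝔪`:
every `b ∈ Q` satisfies `s b = c v` with `s ∉ 𝔪`.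

Proof: Krull's intersection theorem (K1 of `P3G/Krull`) in `S = B_𝔪`: a DVR-prime of `S` containing `v`
is a minimal nonzero prime (K4), its contraction to `R` is `P` (going down), so it is `Q`.
-/

set_option autoImplicit false
set_option linter.unusedSectionVars false
set_option linter.style.haveILetI false

namespace Fermat.Agent.S36.R2.PrincipalQ

open Fermat.Agent.N4.Cover.Globalize Fermat.Agent.P3G.Krull

section Translate

variable {B F : Type*} [CommRing B] [IsDomain B] [IsNoetherianRing B]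
  [Field F] [Algebra B F] [IsFractionRing B F]
  (𝔪 : Ideal B) [h𝔪p : 𝔪.IsPrime]

/-- The contraction to `B` of a prime of `B_𝔪` is contained in `𝔪`. -/
theorem comap_le (𝔭 : Ideal (locAt (F := F) 𝔪)) [h𝔭 : 𝔭.IsPrime] :
    𝔭.comap (algebraMap B (locAt (F := F) 𝔪)) ≤ 𝔪 := by
  haveI := isLocalRing_locAt (F := F) 𝔪
  have h1 : 𝔭 ≤ IsLocalRing.maximalIdeal (locAt (F := F) 𝔪) :=
    IsLocalRing.le_maximalIdeal h𝔭.ne_top
  have h2 := Ideal.comap_mono (f := algebraMap B (locAt (F := F) 𝔪)) h1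
  have h3 : (IsLocalRing.maximalIdeal (locAt (F := F) 𝔪)).comap
      (algebraMap B (locAt (F := F) 𝔪)) = 𝔪 :=
    IsLocalization.AtPrime.under_maximalIdeal (locAt (F := F) 𝔪) 𝔪
  exact h2.trans (le_of_eq h3)

/-- A fraction with denominator outside the contraction of `𝔭` lies in `(B_𝔪)_𝔭`. -/
theorem mem_locAt_locAt (𝔭 : Ideal (locAt (F := F) 𝔪)) [𝔭.IsPrime] {x : F} {a s : B}
    (hs : s ∉ 𝔭.comap (algebraMap B (locAt (F := F) 𝔪)))
    (h : x * algebraMap B F s = algebraMap B F a) :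
    x ∈ locAt (R := locAt (F := F) 𝔪) (F := F) 𝔭 := by
  rw [mem_locAt_iff]
  exact ⟨algebraMap B (locAt (F := F) 𝔪) a, algebraMap B (locAt (F := F) 𝔪) s, hs, h⟩

/-- **(K4) transported to `B`**: the contraction of a DVR-prime of `B_𝔪` is a minimal nonzero prime of
`B`. -/
theorem eq_comap_of_le (𝔭 : Ideal (locAt (F := F) 𝔪)) [h𝔭 : 𝔭.IsPrime]
    (hdvr : IsDiscreteValuationRing (locAt (R := locAt (F := F) 𝔪) (F := F) 𝔭))
    (𝔮 : Ideal B) [h𝔮 : 𝔮.IsPrime] (h0 : 𝔮 ≠ ⊥)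
    (hle : 𝔮 ≤ 𝔭.comap (algebraMap B (locAt (F := F) 𝔪))) :
    𝔮 = 𝔭.comap (algebraMap B (locAt (F := F) 𝔪)) := by
  haveI : IsNoetherianRing (locAt (F := F) 𝔪) := isNoetherianRing_locAt 𝔪
  have hdisj : Disjoint (𝔪.primeCompl : Set B) (𝔮 : Set B) :=
    disjoint_primeCompl_of_le (hle.trans (comap_le 𝔪 𝔭))
  have hprime : (Ideal.map (algebraMap B (locAt (F := F) 𝔪)) 𝔮).IsPrime :=
    IsLocalization.isPrime_of_isPrime_disjoint 𝔪.primeCompl (locAt (F := F) 𝔪) 𝔮 h𝔮 hdisj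
  have hne : Ideal.map (algebraMap B (locAt (F := F) 𝔪)) 𝔮 ≠ ⊥ := by
    intro hbot
    obtain ⟨x, hx, hx0⟩ := Submodule.exists_mem_ne_zero_of_ne_bot h0
    have h1 : algebraMap B (locAt (F := F) 𝔪) x ∈
        Ideal.map (algebraMap B (locAt (F := F) 𝔪)) 𝔮 := Ideal.mem_map_of_mem _ hx
    rw [hbot, Ideal.mem_bot] at h1
    have : algebraMap B F x = 0 := by rw [← coe_algebraMap_locAt 𝔪 x, h1]; rfl
    exact algebraMap_ne_zero hx0 this
  have hle' : Ideal.map (algebraMap B (locAt (F := F) 𝔪)) 𝔮 ≤ 𝔭 :=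
    Ideal.map_le_iff_le_comap.2 hle
  have heq : Ideal.map (algebraMap B (locAt (F := F) 𝔪)) 𝔮 = 𝔭 :=
    eq_of_le_of_dvr (F := F) hdvr hne hle'
  rw [← heq]
  exact (IsLocalization.under_map_of_isPrime_disjoint 𝔪.primeCompl (locAt (F := F) 𝔪) h𝔮
    hdisj).symm

end Translate

section Main

variable {R B F : Type*} [CommRing R] [IsDomain R] [IsIntegrallyClosed R]
  [CommRing B] [IsDomain B] [Algebra R B] [FaithfulSMul R B] [Algebra.IsIntegral R B]
  [IsNoetherianRing B] [IsIntegrallyClosed B]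
  [Field F] [Algebra B F] [IsFractionRing B F]

variable (𝔫 P : Ideal R) [h𝔫 : 𝔫.IsPrime] [hP : P.IsPrime]
  (Q : Ideal B) [hQ : Q.IsPrime]
  (honly : ∀ Q' : Ideal B, Q'.IsPrime → Q'.comap (algebraMap R B) = P → Q' = Q)
  (𝔪 : Ideal B) [h𝔪p : 𝔪.IsPrime] (h𝔪 : 𝔪.comap (algebraMap R B) = 𝔫)
  {v : R} (hv : v ∈ P) (hv0 : v ≠ 0)
  (hPv : ∀ r ∈ P, ∃ s c : R, s ∉ 𝔫 ∧ s * r = c * v)
  (he : ∀ b ∈ Q, ∃ s c : B, s ∉ Q ∧ s * b = c * algebraMap R B v)

include honly h𝔪 hv hv0 hPv he in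
/-- **(R2-a)** `Q B_𝔪 = v B_𝔪`. -/
theorem exists_mul_eq_mul_of_mem (F : Type*) [Field F] [Algebra B F] [IsFractionRing B F] :
    ∀ b ∈ Q, ∃ s c : B, s ∉ 𝔪 ∧ s * b = c * algebraMap R B v := by
  intro b hb
  set S := locAt (F := F) 𝔪 with hS
  haveI : IsNoetherianRing S := isNoetherianRing_locAt 𝔪
  haveI : IsIntegrallyClosed S :=
    isIntegrallyClosed_of_isLocalization S 𝔪.primeCompl 𝔪.primeCompl_le_nonZeroDivisors
  have hinjR : Function.Injective (algebraMap R B) := FaithfulSMul.algebraMap_injective R B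
  have hav0 : algebraMap R B v ≠ 0 := fun h => hv0 (hinjR (by rw [h, map_zero]))
  have havF : algebraMap B F (algebraMap R B v) ≠ 0 := algebraMap_ne_zero hav0
  set x : F := algebraMap B F b / algebraMap B F (algebraMap R B v) with hx
  have hxv : x * algebraMap B F (algebraMap R B v) = algebraMap B F b := by
    rw [hx]; field_simp
  obtain ⟨z, hz⟩ := exists_algebraMap_eq_of_forall_mem_dvr (S := S) (F := F) x (by
    intro 𝔭 h𝔭 hdvr
    haveI := h𝔭
    set 𝔭' : Ideal B := 𝔭.comap (algebraMap B S) with h𝔭'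
    haveI h𝔭'prime : 𝔭'.IsPrime := Ideal.comap_isPrime _ _
    by_cases hvp : algebraMap R B v ∈ 𝔭'
    · -- the contraction of `𝔭'` to `R` contains `P`
      set 𝔭₁ : Ideal R := 𝔭'.comap (algebraMap R B) with h𝔭₁
      haveI : 𝔭₁.IsPrime := Ideal.comap_isPrime _ _
      have h𝔭₁𝔫 : 𝔭₁ ≤ 𝔫 := by
        rw [← h𝔪]; exact Ideal.comap_mono (comap_le 𝔪 𝔭)
      have hP𝔭₁ : P ≤ 𝔭₁ := by
        intro r hr
        obtain ⟨s, c, hs, hsc⟩ := hPv r hr
        have h1 : s * r ∈ 𝔭₁ := by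
          rw [hsc]; exact Ideal.mul_mem_left _ _ hvp
        exact (Ideal.IsPrime.mem_or_mem inferInstance h1).resolve_left (fun h => hs (h𝔭₁𝔫 h))
      -- going down
      haveI : 𝔭'.LiesOver 𝔭₁ := ⟨rfl⟩
      obtain ⟨Q', hQ'le, hQ'prime, hQ'over⟩ :=
        Ideal.exists_ideal_le_liesOver_of_le (p := P) (q := 𝔭₁) 𝔭' hP𝔭₁
      haveI := hQ'prime
      have hQ'P : Q'.comap (algebraMap R B) = P := hQ'over.over.symm
      have hQ'0 : Q' ≠ ⊥ := by
        intro hbot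
        have : algebraMap R B v ∈ Q' := by
          have : v ∈ Q'.comap (algebraMap R B) := by rw [hQ'P]; exact hv
          exact this
        rw [hbot, Ideal.mem_bot] at this
        exact hav0 this
      have hQ'eq : Q' = 𝔭' := eq_comap_of_le 𝔪 𝔭 hdvr Q' hQ'0 hQ'le
      have h𝔭'Q : 𝔭' = Q := honly 𝔭' h𝔭'prime (hQ'eq ▸ hQ'P)
      obtain ⟨s₀, c₀, hs₀, hsc₀⟩ := he b hb
      refine mem_locAt_locAt 𝔪 𝔭 (a := c₀) (s := s₀) (by rw [← h𝔭', h𝔭'Q]; exact hs₀) ?_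
      rw [hx, div_mul_eq_mul_div, ← map_mul, mul_comm, hsc₀, map_mul, mul_div_assoc,
        div_self havF, mul_one]
    · exact mem_locAt_locAt 𝔪 𝔭 (a := b) (s := algebraMap R B v) hvp hxv)
  obtain ⟨c, s, hs, hcs⟩ := (mem_locAt_iff 𝔪 (z : F)).1 z.2
  refine ⟨s, c, hs, IsFractionRing.injective B F ?_⟩
  have hz' : (z : F) = x := hz
  rw [hz', hx] at hcs
  rw [map_mul, map_mul, ← hcs]
  field_simp

end Main

end Fermat.Agent.S36.R2.PrincipalQ
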