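import Mathlib
import Fermat.Agent.P3G.Krull
import Fermat.Agent.N4.Cover.LocalUFD

/-!
# S36, block (R2), part 3: the local ring at a triple point is regular (hence factorial)

`B` a noetherian domain (the chart of level `q² M₀`), `𝔪` a prime of `B` (the triple point `x`),
`Q ≤ 𝔪` a prime (the component `C₀₂`) with `Q B_𝔪 = v B_𝔪` (`PrincipalQ`), and a ring homomorphism
`γ : R₀ → B` from the chart of level `M₀` (`j ↦ j''`) such that
* `γ⁻¹ Q = P₀` (the special fibre of level `M₀`) and `κ(P₀) → κ(Q)` is onto (`f = 1` along `γ`):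
  every `b ∈ B` satisfies `γ t · b ≡ γ a` modulo `Q` with `t ∉ P₀`;
* `R₀ / P₀` is a discrete valuation ring at `γ⁻¹ 𝔪` with uniformiser `s₀`.

Then `𝔪 B_𝔪 = (v, γ s₀)` (`exists_mul_mem_span_pair`), `v` is a prime element of `S = B_𝔪` and `S / v`
is a principal ideal ring (`prime_and_pid`), so `S` is factorial (`uniqueFactorizationMonoid_locAt`).
-/

set_option autoImplicit false
set_option linter.unusedSectionVars false
set_option linter.style.haveILetI false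

namespace Fermat.Agent.S36.R2.Regular

open Fermat.Agent.N4.Cover.Globalize Fermat.Agent.P3G.Krull

section Generation

variable {R₀ B : Type*} [CommRing R₀] [CommRing B] (γ : R₀ →+* B)
  (Q 𝔪 : Ideal B) [hQ : Q.IsPrime] [h𝔪p : 𝔪.IsPrime] (hQ𝔪 : Q ≤ 𝔪)
  (P₀ : Ideal R₀)
  (hP₀Q : ∀ t : R₀, γ t ∈ Q ↔ t ∈ P₀)
  (hres : ∀ b : B, ∃ a t : R₀, t ∉ P₀ ∧ γ t * b - γ a ∈ Q)
  {s₀ : R₀} (hs₀𝔪 : γ s₀ ∈ 𝔪) (hs₀P₀ : s₀ ∉ P₀)
  (hbranch₀ : ∀ a : R₀, a ∉ P₀ →
    ∃ (k : ℕ) (t e : R₀), γ t ∉ 𝔪 ∧ γ e ∉ 𝔪 ∧ t * a - e * s₀ ^ k ∈ P₀)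

include hQ𝔪 hP₀Q hres hs₀𝔪 hs₀P₀ hbranch₀ in
/-- `𝔪 = (γ s₀) + Q`, locally at `𝔪`. -/
theorem exists_mul_sub_mem (b : B) (hb : b ∈ 𝔪) :
    ∃ t c : B, t ∉ 𝔪 ∧ t * b - c * γ s₀ ∈ Q := by
  have h1 : (1 : B) ∉ 𝔪 := fun h => h𝔪p.ne_top ((Ideal.eq_top_iff_one _).2 h)
  obtain ⟨a, t, ht, hta⟩ := hres b
  have hγt : γ t ∉ Q := fun h => ht ((hP₀Q t).1 h)
  by_cases ha : a ∈ P₀
  · have hγa : γ a ∈ Q := (hP₀Q a).2 ha
    have h2 : γ t * b ∈ Q := by
      have := Q.add_mem hta hγa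
      simpa using this
    have h3 : b ∈ Q := (hQ.mem_or_mem h2).resolve_left hγt
    exact ⟨1, 0, h1, by simpa using h3⟩
  · obtain ⟨m, t₁, e₁, ht₁, he₁, h₁⟩ := hbranch₀ a ha
    obtain ⟨n, t₂, e₂, ht₂, he₂, h₂⟩ := hbranch₀ t ht
    have hδ₁ : γ (t₁ * a - e₁ * s₀ ^ m) ∈ Q := (hP₀Q _).2 h₁
    have hδ₂ : γ (t₂ * t - e₂ * s₀ ^ n) ∈ Q := (hP₀Q _).2 h₂
    set U : B := γ s₀ with hU
    set X : B := γ t₁ * γ e₂ with hX
    set Y : B := γ t₂ * γ e₁ with hY
    have hXm : X ∉ 𝔪 := fun h => (h𝔪p.mem_or_mem h).elim ht₁ he₂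
    have hYm : Y ∉ 𝔪 := fun h => (h𝔪p.mem_or_mem h).elim ht₂ he₁
    have hUQ : U ∉ Q := fun h => hs₀P₀ ((hP₀Q s₀).1 h)
    have key : X * U ^ n * b - Y * U ^ m ∈ Q := by
      have hid : X * U ^ n * b - Y * U ^ m =
          γ t₁ * γ t₂ * (γ t * b - γ a) - γ t₁ * b * γ (t₂ * t - e₂ * s₀ ^ n) +
            γ t₂ * γ (t₁ * a - e₁ * s₀ ^ m) := by
        simp only [hX, hY, hU, map_sub, map_mul, map_pow]; ring
      rw [hid]
      exact Q.add_mem (Q.sub_mem (Q.mul_mem_left _ hta) (Q.mul_mem_left _ hδ₂))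
        (Q.mul_mem_left _ hδ₁)
    rcases le_or_gt n m with hnm | hnm
    · obtain ⟨d, rfl⟩ := Nat.exists_eq_add_of_le hnm
      have hfac : X * U ^ n * b - Y * U ^ (n + d) = U ^ n * (X * b - Y * U ^ d) := by
        rw [pow_add]; ring
      rw [hfac] at key
      have h2 : X * b - Y * U ^ d ∈ Q :=
        (hQ.mem_or_mem key).resolve_left (fun h => hUQ (hQ.mem_of_pow_mem _ h))
      rcases Nat.eq_zero_or_pos d with rfl | hd
      · exfalso
        have h3 := hQ𝔪 h2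
        have h4 : X * b ∈ 𝔪 := 𝔪.mul_mem_left _ hb
        have h5 : Y ∈ 𝔪 := by
          have := 𝔪.sub_mem h4 h3
          simpa using this
        exact hYm h5
      · obtain ⟨d', rfl⟩ := Nat.exists_eq_succ_of_ne_zero hd.ne'
        refine ⟨X, Y * U ^ d', hXm, ?_⟩
        have : X * b - Y * U ^ d' * U = X * b - Y * U ^ (d' + 1) := by rw [pow_succ]; ring
        rw [this]; exact h2
    · exfalso
      obtain ⟨d, rfl⟩ := Nat.exists_eq_add_of_lt hnm
      have hfac : X * U ^ (m + d + 1) * b - Y * U ^ m = U ^ m * (X * U ^ (d + 1) * b - Y) := by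
        rw [show m + d + 1 = m + (d + 1) by ring, pow_add]; ring
      rw [hfac] at key
      have h2 : X * U ^ (d + 1) * b - Y ∈ Q :=
        (hQ.mem_or_mem key).resolve_left (fun h => hUQ (hQ.mem_of_pow_mem _ h))
      have h3 := hQ𝔪 h2
      have h4 : X * U ^ (d + 1) * b ∈ 𝔪 := 𝔪.mul_mem_left _ hb
      have h5 : Y ∈ 𝔪 := by
        have := 𝔪.sub_mem h4 h3
        simpa using this
      exact hYm h5

variable {v' : B} (hA : ∀ b ∈ Q, ∃ s c : B, s ∉ 𝔪 ∧ s * b = c * v')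

include hQ𝔪 hP₀Q hres hs₀𝔪 hs₀P₀ hbranch₀ hA in
/-- **(R2-c)** `𝔪 B_𝔪 = (v, γ s₀)`: a regular system of parameters at the triple point. -/
theorem exists_mul_mem_span_pair (b : B) (hb : b ∈ 𝔪) :
    ∃ t : B, t ∉ 𝔪 ∧ t * b ∈ Ideal.span {v', γ s₀} := by
  obtain ⟨t, c, ht, htc⟩ := exists_mul_sub_mem γ Q 𝔪 hQ𝔪 P₀ hP₀Q hres hs₀𝔪 hs₀P₀ hbranch₀ b hb
  obtain ⟨s, c', hs, hsc⟩ := hA _ htc
  refine ⟨s * t, fun h => (h𝔪p.mem_or_mem h).elim hs ht, ?_⟩
  have : s * t * b = c' * v' + (s * c) * γ s₀ := by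
    have : s * t * b = s * (t * b - c * γ s₀) + s * c * γ s₀ := by ring
    rw [this, hsc]
  rw [this]
  exact Ideal.add_mem _ (Ideal.mul_mem_left _ _ (Ideal.subset_span (by simp)))
    (Ideal.mul_mem_left _ _ (Ideal.subset_span (by simp)))

end Generation

section Local

variable {B F : Type*} [CommRing B] [IsDomain B] [IsNoetherianRing B]
  [Field F] [Algebra B F] [IsFractionRing B F]
  (Q 𝔪 : Ideal B) [hQ : Q.IsPrime] [h𝔪p : 𝔪.IsPrime] (hQ𝔪 : Q ≤ 𝔪)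
  {v' s' : B} (hv'Q : v' ∈ Q) (hv'0 : v' ≠ 0)
  (hA : ∀ b ∈ Q, ∃ s c : B, s ∉ 𝔪 ∧ s * b = c * v')
  (hs'𝔪 : s' ∈ 𝔪)
  (hgen : ∀ b ∈ 𝔪, ∃ t : B, t ∉ 𝔪 ∧ t * b ∈ Ideal.span {v', s'})

include hQ𝔪 hv'Q hA in
/-- `Q B_𝔪 = v B_𝔪` as ideals of `B_𝔪`. -/
theorem map_eq_span :
    Q.map (algebraMap B (locAt (F := F) 𝔪)) =
      Ideal.span {algebraMap B (locAt (F := F) 𝔪) v'} := by
  apply le_antisymm
  · rw [Ideal.map_le_iff_le_comap]
    intro b hb
    obtain ⟨s, c, hs, hsc⟩ := hA b hb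
    rw [Ideal.mem_comap]
    have hunit : IsUnit (algebraMap B (locAt (F := F) 𝔪) s) :=
      IsLocalization.map_units (M := 𝔪.primeCompl) (locAt (F := F) 𝔪) ⟨s, hs⟩
    have h1 : algebraMap B (locAt (F := F) 𝔪) s * algebraMap B (locAt (F := F) 𝔪) b =
        algebraMap B (locAt (F := F) 𝔪) c * algebraMap B (locAt (F := F) 𝔪) v' := by
      rw [← map_mul, hsc, map_mul]
    rw [← Ideal.unit_mul_mem_iff_mem _ hunit, h1]
    exact Ideal.mul_mem_left _ _ (Ideal.mem_span_singleton_self _)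
  · rw [Ideal.span_singleton_le_iff_mem]
    exact Ideal.mem_map_of_mem _ hv'Q

include hQ𝔪 hv'Q hv'0 hA in
/-- `v` is a prime element of `B_𝔪`. -/
theorem prime_algebraMap : Prime (algebraMap B (locAt (F := F) 𝔪) v') := by
  have hdisj : Disjoint (𝔪.primeCompl : Set B) (Q : Set B) := disjoint_primeCompl_of_le hQ𝔪
  have hprime : (Q.map (algebraMap B (locAt (F := F) 𝔪))).IsPrime :=
    IsLocalization.isPrime_of_isPrime_disjoint 𝔪.primeCompl (locAt (F := F) 𝔪) Q hQ hdisj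
  rw [map_eq_span (F := F) Q 𝔪 hQ𝔪 hv'Q hA] at hprime
  have hne : algebraMap B (locAt (F := F) 𝔪) v' ≠ 0 := by
    intro h0
    exact hv'0 ((IsLocalization.injective (locAt (F := F) 𝔪)
      𝔪.primeCompl_le_nonZeroDivisors) (by rw [h0, map_zero]))
  exact (Ideal.span_singleton_prime hne).1 hprime

include hQ𝔪 hv'Q hv'0 hA hs'𝔪 hgen in
/-- **(R2-d)** `v` is prime in `S = B_𝔪` and `S / v` is a principal ideal ring (a discrete valuation
ring or a field): the hypotheses of `N4.Cover.LocalUFD`. -/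
theorem prime_and_pid :
    Prime (algebraMap B (locAt (F := F) 𝔪) v') ∧
      IsPrincipalIdealRing
        (locAt (F := F) 𝔪 ⧸ Ideal.span {algebraMap B (locAt (F := F) 𝔪) v'}) := by
  have hprime := prime_algebraMap (F := F) Q 𝔪 hQ𝔪 hv'Q hv'0 hA
  refine ⟨hprime, ?_⟩
  haveI hloc : IsLocalRing (locAt (F := F) 𝔪) := isLocalRing_locAt 𝔪
  haveI : IsNoetherianRing (locAt (F := F) 𝔪) := isNoetherianRing_locAt 𝔪
  set π := algebraMap B (locAt (F := F) 𝔪) v' with hπ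
  haveI hIprime : (Ideal.span {π}).IsPrime :=
    (Ideal.span_singleton_prime hprime.ne_zero).2 hprime
  haveI : IsDomain (locAt (F := F) 𝔪 ⧸ Ideal.span {π}) :=
    (Ideal.Quotient.isDomain_iff_prime _).2 hIprime
  haveI : Nontrivial (locAt (F := F) 𝔪 ⧸ Ideal.span {π}) :=
    Ideal.Quotient.nontrivial_iff.mpr hIprime.ne_top
  haveI : IsLocalRing (locAt (F := F) 𝔪 ⧸ Ideal.span {π}) :=
    IsLocalRing.of_surjective' (Ideal.Quotient.mk (Ideal.span {π})) Ideal.Quotient.mk_surjective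
  set mk := Ideal.Quotient.mk (Ideal.span {π}) with hmk
  have hmax : IsLocalRing.maximalIdeal (locAt (F := F) 𝔪 ⧸ Ideal.span {π}) =
      Ideal.span {mk (algebraMap B (locAt (F := F) 𝔪) s')} := by
    apply le_antisymm
    · intro x hx
      obtain ⟨z, rfl⟩ := Ideal.Quotient.mk_surjective x
      have hz : z ∈ IsLocalRing.maximalIdeal (locAt (F := F) 𝔪) := by
        rw [IsLocalRing.mem_maximalIdeal, mem_nonunits_iff] at hx ⊢
        exact fun h => hx (h.map mk)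
      obtain ⟨p, s, hp, hs, hzs⟩ := (mem_maximalIdeal_locAt_iff 𝔪 hloc z).1 hz
      obtain ⟨t, ht, htp⟩ := hgen p hp
      obtain ⟨c₁, c₂, hc⟩ := Ideal.mem_span_pair.1 htp
      have hunit : IsUnit (algebraMap B (locAt (F := F) 𝔪) (t * s)) :=
        IsLocalization.map_units (M := 𝔪.primeCompl) (locAt (F := F) 𝔪)
          ⟨t * s, fun h => (h𝔪p.mem_or_mem h).elim ht hs⟩
      have h1 : algebraMap B (locAt (F := F) 𝔪) (t * s) * z =
          algebraMap B (locAt (F := F) 𝔪) c₁ * π +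
            algebraMap B (locAt (F := F) 𝔪) c₂ * algebraMap B (locAt (F := F) 𝔪) s' := by
        apply Subtype.ext
        have e1 : (z : F) * algebraMap B F s = algebraMap B F p := hzs
        have e2 : algebraMap B F (t * p) = algebraMap B F (c₁ * v' + c₂ * s') := by rw [hc]
        simp only [map_mul, map_add] at e2
        push_cast
        simp only [coe_algebraMap_locAt, hπ]
        rw [← e2, ← e1]; ring
      rw [← Ideal.unit_mul_mem_iff_mem _ (hunit.map mk), ← map_mul, h1, map_add, map_mul, map_mul]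
      have h2 : mk π = 0 := Ideal.Quotient.eq_zero_iff_mem.2 (Ideal.mem_span_singleton_self π)
      rw [h2, mul_zero, zero_add]
      exact Ideal.mul_mem_left _ _ (Ideal.mem_span_singleton_self _)
    · rw [Ideal.span_singleton_le_iff_mem, IsLocalRing.mem_maximalIdeal, mem_nonunits_iff]
      intro hu
      obtain ⟨w, hw⟩ := hu.exists_right_inv
      obtain ⟨w', rfl⟩ := Ideal.Quotient.mk_surjective w
      have h1 : algebraMap B (locAt (F := F) 𝔪) s' * w' - 1 ∈ Ideal.span {π} := by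
        rw [← Ideal.Quotient.eq, map_mul, map_one]; exact hw
      have hπmax : π ∈ IsLocalRing.maximalIdeal (locAt (F := F) 𝔪) :=
        (IsLocalization.AtPrime.to_map_mem_maximal_iff (locAt (F := F) 𝔪) 𝔪 v').2 (hQ𝔪 hv'Q)
      have hσmax : algebraMap B (locAt (F := F) 𝔪) s' ∈
          IsLocalRing.maximalIdeal (locAt (F := F) 𝔪) :=
        (IsLocalization.AtPrime.to_map_mem_maximal_iff (locAt (F := F) 𝔪) 𝔪 s').2 hs'𝔪
      have h2 : algebraMap B (locAt (F := F) 𝔪) s' * w' - 1 ∈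
          IsLocalRing.maximalIdeal (locAt (F := F) 𝔪) :=
        (Ideal.span_singleton_le_iff_mem _).2 hπmax h1
      have h3 : (1 : locAt (F := F) 𝔪) ∈ IsLocalRing.maximalIdeal (locAt (F := F) 𝔪) := by
        have h4 := Ideal.sub_mem _ (Ideal.mul_mem_right w' _ hσmax) h2
        rwa [sub_sub_cancel] at h4
      exact (IsLocalRing.maximalIdeal.isMaximal _).ne_top ((Ideal.eq_top_iff_one _).2 h3)
  have h40 := (tfae_of_isNoetherianRing_of_isLocalRing_of_isDomain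
    (locAt (F := F) 𝔪 ⧸ Ideal.span {π})).out 4 0
  exact h40.1 ⟨⟨_, hmax⟩⟩

include hQ𝔪 hv'Q hv'0 hA hs'𝔪 hgen in
/-- **(R2)** The local ring at a triple point is factorial. -/
theorem uniqueFactorizationMonoid_locAt : UniqueFactorizationMonoid (locAt (F := F) 𝔪) := by
  haveI : IsLocalRing (locAt (F := F) 𝔪) := isLocalRing_locAt 𝔪
  haveI : IsNoetherianRing (locAt (F := F) 𝔪) := isNoetherianRing_locAt 𝔪
  obtain ⟨h1, h2⟩ := prime_and_pid (F := F) Q 𝔪 hQ𝔪 hv'Q hv'0 hA hs'𝔪 hgen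
  exact Fermat.Agent.N4.Cover.LocalUFD.uniqueFactorizationMonoid h1 h2

end Local

end Fermat.Agent.S36.R2.Regular
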