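import Mathlib

/-!
# S36, block (R2), part 1: there is exactly one point over a crossing point

Abstract setting.  `R ⊆ B` is an integral extension of domains, `R` integrally closed (going down).
`𝔫` is a prime of `R` (the crossing point `y` of level `q M₀`), `P ≤ 𝔫` a prime of `R` (the component
`C₀₁`), `Q` the **only** prime of `B` over `P` (the component `C₀₂`; "only `V₀₂` lies over `V₀₁`").
Assume
* `hinsep` : the residue field extension `κ(Q) / κ(P)` is purely inseparable of exponent one: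
  every `b ∈ B` satisfies `s b ^ q ≡ r` modulo `Q` for some `r, s ∈ R`, `s ∉ P`;
* `hbranch` : the branch `R / P` is a discrete valuation ring at `𝔫` with uniformiser `u`: every
  `r ∉ P` is `unit · u ^ k` modulo `P`, locally at `𝔫`.

Then (`eq_of_comap_eq`) `B` has at most one prime over `𝔫`; every prime of `B` whose contraction is
contained in `𝔫` is contained in it (`le_of_comap_le`: all components over components through `y`
pass through `x`); and (`exists_mul_eq_algebraMap`) every element of `B` outside it divides an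
element of `R` outside `𝔫` (so `B_𝔪 = B ⊗ R_𝔫` is integral over `R_𝔫`: norms are defined).
-/

set_option autoImplicit false
set_option linter.unusedSectionVars false
set_option linter.style.haveILetI false

namespace Fermat.Agent.S36.R2.UniquePoint

variable {R B : Type*} [CommRing R] [IsDomain R] [IsIntegrallyClosed R]
  [CommRing B] [IsDomain B] [Algebra R B] [FaithfulSMul R B] [Algebra.IsIntegral R B]

variable (𝔫 P : Ideal R) [h𝔫 : 𝔫.IsPrime] [hP : P.IsPrime] (hP𝔫 : P ≤ 𝔫)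
  (Q : Ideal B) [hQ : Q.IsPrime]
  (honly : ∀ Q' : Ideal B, Q'.IsPrime → Q'.comap (algebraMap R B) = P → Q' = Q)

include hP𝔫 honly in
/-- **Going down**: every prime of `B` over `𝔫` contains the unique prime `Q` over `P`. -/
theorem le_of_comap_eq (𝔪 : Ideal B) [𝔪.IsPrime] (h𝔪 : 𝔪.comap (algebraMap R B) = 𝔫) :
    Q ≤ 𝔪 := by
  haveI : 𝔪.LiesOver 𝔫 := ⟨h𝔪.symm⟩
  obtain ⟨Q', hQ'le, hQ'prime, hQ'over⟩ :=
    Ideal.exists_ideal_le_liesOver_of_le (p := P) (q := 𝔫) 𝔪 hP𝔫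
  have : Q' = Q := honly Q' hQ'prime hQ'over.over.symm
  exact this ▸ hQ'le

variable (hQP : Q.comap (algebraMap R B) = P)
  {q : ℕ} (hq : q ≠ 0)
  (hinsep : ∀ b : B, ∃ r s : R, s ∉ P ∧
    algebraMap R B s * b ^ q - algebraMap R B r ∈ Q)
  {u : R} (hu𝔫 : u ∈ 𝔫) (huP : u ∉ P)
  (hbranch : ∀ r : R, r ∉ P → ∃ (k : ℕ) (t e : R), t ∉ 𝔫 ∧ e ∉ 𝔫 ∧ t * r - e * u ^ k ∈ P)

include hQP in
theorem algebraMap_mem_iff (r : R) : algebraMap R B r ∈ Q ↔ r ∈ P := by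
  rw [← hQP, Ideal.mem_comap]

/-- The membership criterion: for a prime `𝔪 ⊇ Q` of `B` over `𝔫`, and data
`X u^n b^q ≡ Y u^m` modulo `Q` with `X, Y ∉ 𝔪`: `n ≤ m` and `b ∈ 𝔪 ↔ n < m`. -/
theorem le_and_mem_iff_lt (𝔪 : Ideal B) [h𝔪p : 𝔪.IsPrime] (hQ𝔪 : Q ≤ 𝔪)
    {b X Y U : B} {n m : ℕ} (hq : q ≠ 0) (hX : X ∉ 𝔪) (hY : Y ∉ 𝔪) (hU𝔪 : U ∈ 𝔪) (hUQ : U ∉ Q)
    (key : X * U ^ n * b ^ q - Y * U ^ m ∈ Q) : n ≤ m ∧ (b ∈ 𝔪 ↔ n < m) := by
  have h1 : (1 : B) ∉ 𝔪 := fun h => h𝔪p.ne_top ((Ideal.eq_top_iff_one _).2 h)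
  rcases le_or_gt n m with hnm | hnm
  · refine ⟨hnm, ?_⟩
    obtain ⟨d, rfl⟩ := Nat.exists_eq_add_of_le hnm
    have hfac : X * U ^ n * b ^ q - Y * U ^ (n + d) = U ^ n * (X * b ^ q - Y * U ^ d) := by
      rw [pow_add]; ring
    rw [hfac] at key
    have h2 : X * b ^ q - Y * U ^ d ∈ Q :=
      (hQ.mem_or_mem key).resolve_left (fun h => hUQ (hQ.mem_of_pow_mem _ h))
    have h3 := hQ𝔪 h2
    constructor
    · intro hb
      have hbq : X * b ^ q ∈ 𝔪 := 𝔪.mul_mem_left _ (𝔪.pow_mem_of_mem hb q (Nat.pos_of_ne_zero hq))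
      have h4 : Y * U ^ d ∈ 𝔪 := by
        have := 𝔪.sub_mem hbq h3
        simpa using this
      have h5 : U ^ d ∈ 𝔪 := (h𝔪p.mem_or_mem h4).resolve_left hY
      rcases Nat.eq_zero_or_pos d with rfl | hd
      · exact absurd (by simpa using h5) h1
      · omega
    · intro hlt
      have hd : 0 < d := by omega
      have h4 : Y * U ^ d ∈ 𝔪 := 𝔪.mul_mem_left _ (𝔪.pow_mem_of_mem hU𝔪 d hd)
      have h5 : X * b ^ q ∈ 𝔪 := by
        have := 𝔪.add_mem h3 h4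
        simpa using this
      have h6 : b ^ q ∈ 𝔪 := (h𝔪p.mem_or_mem h5).resolve_left hX
      exact h𝔪p.mem_of_pow_mem _ h6
  · exfalso
    obtain ⟨d, rfl⟩ := Nat.exists_eq_add_of_lt hnm
    have hfac : X * U ^ (m + d + 1) * b ^ q - Y * U ^ m =
        U ^ m * (X * U ^ (d + 1) * b ^ q - Y) := by
      rw [show m + d + 1 = m + (d + 1) by ring, pow_add]; ring
    rw [hfac] at key
    have h2 : X * U ^ (d + 1) * b ^ q - Y ∈ Q :=
      (hQ.mem_or_mem key).resolve_left (fun h => hUQ (hQ.mem_of_pow_mem _ h))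
    have h3 := hQ𝔪 h2
    have h4 : X * U ^ (d + 1) * b ^ q ∈ 𝔪 :=
      𝔪.mul_mem_right _ (𝔪.mul_mem_left _ (𝔪.pow_mem_of_mem hU𝔪 _ (Nat.succ_pos d)))
    have h5 : Y ∈ 𝔪 := by
      have := 𝔪.sub_mem h4 h3
      simpa using this
    exact hY h5

include hP𝔫 honly hQP hq hinsep hu𝔫 huP hbranch in
/-- Two primes of `B` over `𝔫` have the same elements. -/
theorem mem_iff_of_comap_eq (𝔪 𝔪' : Ideal B) [𝔪.IsPrime] [𝔪'.IsPrime]
    (h𝔪 : 𝔪.comap (algebraMap R B) = 𝔫) (h𝔪' : 𝔪'.comap (algebraMap R B) = 𝔫) (b : B) :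
    b ∈ 𝔪 ↔ b ∈ 𝔪' := by
  have hQ𝔪 := le_of_comap_eq 𝔫 P hP𝔫 Q honly 𝔪 h𝔪
  have hQ𝔪' := le_of_comap_eq 𝔫 P hP𝔫 Q honly 𝔪' h𝔪'
  obtain ⟨r, s, hs, hrs⟩ := hinsep b
  have has : algebraMap R B s ∉ Q := fun h => hs ((algebraMap_mem_iff P Q hQP s).1 h)
  by_cases hr : r ∈ P
  · have har : algebraMap R B r ∈ Q := (algebraMap_mem_iff P Q hQP r).2 hr
    have h1 : algebraMap R B s * b ^ q ∈ Q := by
      have := Q.add_mem hrs har
      simpa using this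
    have h2 : b ^ q ∈ Q := (hQ.mem_or_mem h1).resolve_left has
    have h3 : b ∈ Q := hQ.mem_of_pow_mem _ h2
    exact ⟨fun _ => hQ𝔪' h3, fun _ => hQ𝔪 h3⟩
  · obtain ⟨n, t, e, ht, he, hte⟩ := hbranch s hs
    obtain ⟨m, t', e', ht', he', hte'⟩ := hbranch r hr
    have h1 : algebraMap R B (t * s - e * u ^ n) ∈ Q := (algebraMap_mem_iff P Q hQP _).2 hte
    have h2 : algebraMap R B (t' * r - e' * u ^ m) ∈ Q := (algebraMap_mem_iff P Q hQP _).2 hte'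
    have key : algebraMap R B (t' * e) * algebraMap R B u ^ n * b ^ q -
        algebraMap R B (t * e') * algebraMap R B u ^ m ∈ Q := by
      have hid : algebraMap R B (t' * e) * algebraMap R B u ^ n * b ^ q -
          algebraMap R B (t * e') * algebraMap R B u ^ m =
          algebraMap R B t' * algebraMap R B t * (algebraMap R B s * b ^ q - algebraMap R B r) -
            algebraMap R B t' * b ^ q * algebraMap R B (t * s - e * u ^ n) +
            algebraMap R B t * algebraMap R B (t' * r - e' * u ^ m) := by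
        simp only [map_sub, map_mul, map_pow]; ring
      rw [hid]
      exact Q.add_mem (Q.sub_mem (Q.mul_mem_left _ hrs) (Q.mul_mem_left _ h1)) (Q.mul_mem_left _ h2)
    have hUQ : algebraMap R B u ∉ Q := fun h => huP ((algebraMap_mem_iff P Q hQP u).1 h)
    have hnot : ∀ (𝔪₀ : Ideal B) [𝔪₀.IsPrime], 𝔪₀.comap (algebraMap R B) = 𝔫 → ∀ x y : R,
        x ∉ 𝔫 → y ∉ 𝔫 → algebraMap R B (x * y) ∉ 𝔪₀ := by
      intro 𝔪₀ _ h₀ x y hx hy hxy
      have : x * y ∈ 𝔫 := by rw [← h₀]; exact hxy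
      exact (h𝔫.mem_or_mem this).elim hx hy
    have hU : ∀ (𝔪₀ : Ideal B), 𝔪₀.comap (algebraMap R B) = 𝔫 → algebraMap R B u ∈ 𝔪₀ := by
      intro 𝔪₀ h₀
      have : u ∈ 𝔪₀.comap (algebraMap R B) := by rw [h₀]; exact hu𝔫
      exact this
    have A := le_and_mem_iff_lt Q 𝔪 hQ𝔪 hq (hnot 𝔪 h𝔪 t' e ht' he) (hnot 𝔪 h𝔪 t e' ht he')
      (hU 𝔪 h𝔪) hUQ key
    have A' := le_and_mem_iff_lt Q 𝔪' hQ𝔪' hq (hnot 𝔪' h𝔪' t' e ht' he) (hnot 𝔪' h𝔪' t e' ht he')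
      (hU 𝔪' h𝔪') hUQ key
    rw [A.2, A'.2]

include hP𝔫 honly hQP hq hinsep hu𝔫 huP hbranch in
/-- **(R2), uniqueness**: there is at most one prime of `B` over the crossing point `𝔫`. -/
theorem eq_of_comap_eq (𝔪 𝔪' : Ideal B) [𝔪.IsPrime] [𝔪'.IsPrime]
    (h𝔪 : 𝔪.comap (algebraMap R B) = 𝔫) (h𝔪' : 𝔪'.comap (algebraMap R B) = 𝔫) : 𝔪 = 𝔪' :=
  Ideal.ext fun b =>
    mem_iff_of_comap_eq 𝔫 P hP𝔫 Q honly hQP hq hinsep hu𝔫 huP hbranch 𝔪 𝔪' h𝔪 h𝔪' b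

include hP𝔫 honly hQP hq hinsep hu𝔫 huP hbranch in
/-- Every ideal of `B` whose contraction to `R` lies in `𝔫` is contained in the point over `𝔫`
(going up + uniqueness). -/
theorem le_of_comap_le (𝔪 : Ideal B) [𝔪.IsPrime] (h𝔪 : 𝔪.comap (algebraMap R B) = 𝔫)
    (I : Ideal B) (hI : I.comap (algebraMap R B) ≤ 𝔫) : I ≤ 𝔪 := by
  obtain ⟨𝔮, h𝔮I, h𝔮prime, h𝔮⟩ := Ideal.exists_ideal_over_prime_of_isIntegral 𝔫 I hI
  haveI := h𝔮prime
  rw [← eq_of_comap_eq 𝔫 P hP𝔫 Q honly hQP hq hinsep hu𝔫 huP hbranch 𝔮 𝔪 h𝔮 h𝔪]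
  exact h𝔮I

include hP𝔫 honly hQP hq hinsep hu𝔫 huP hbranch in
/-- Every element of `B` outside the point over `𝔫` divides an element of `R` outside `𝔫`: the local
ring `B_𝔪` is `B ⊗ R_𝔫`, integral over `R_𝔫`. -/
theorem exists_mul_eq_algebraMap (𝔪 : Ideal B) [𝔪.IsPrime] (h𝔪 : 𝔪.comap (algebraMap R B) = 𝔫)
    {b : B} (hb : b ∉ 𝔪) : ∃ (b' : B) (r : R), r ∉ 𝔫 ∧ b * b' = algebraMap R B r := by
  by_contra hcon
  apply hb
  refine le_of_comap_le 𝔫 P hP𝔫 Q honly hQP hq hinsep hu𝔫 huP hbranch 𝔪 h𝔪 (Ideal.span {b}) ?_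
    (Ideal.subset_span rfl)
  intro r hr
  by_contra hr𝔫
  obtain ⟨b', hb'⟩ := Ideal.mem_span_singleton'.1 (Ideal.mem_comap.1 hr)
  exact hcon ⟨b', r, hr𝔫, by rw [← hb', mul_comm]⟩

end Fermat.Agent.S36.R2.UniquePoint
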