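import Mathlib
import Fermat.Agent.S36.R2.UniquePoint
import Fermat.Agent.S36.R2.PrincipalQ
import Fermat.Agent.S36.R2.Regular
import Fermat.Agent.S36.R2.PointDVR

/-!
# S36, block (R2): triple points — abstract statement, assembled

`TripleHyp` collects the hypotheses on a crossing point `𝔫` of the chart `R` (level `q M₀`), the
integral extension `R ⊆ B` (level `q² M₀`, along `α`) and the map `γ : R₀ → B` from level `M₀`:

* `P ≤ 𝔫` the component `C₀₁` with `P R_𝔫 = v R_𝔫` ((R1)), `u ∈ 𝔫 ∖ P` a local parameter of the branch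
  `R / P` at `𝔫` (`𝔫 = (u) + P` locally: (R1) again);
* `Q` the ONLY prime of `B` over `P` (`V₀₂` is the only extension of `V₀₁` along `α`), `Q B_Q = v B_Q`
  (`e = 1`), residue extension purely inseparable of exponent one (`hinsep`);
* `γ⁻¹ Q = P₀`, `κ(P₀) → κ(Q)` onto (`f = 1` along `γ`), `s₀` a local parameter of `R₀ / P₀` at every
  point of `R₀` below a point of `B` over `𝔫`.

`TripleHyp.conclusion` : for every prime `𝔪` of `B` over `𝔫` (there is exactly one):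
`Q ≤ 𝔪`, every ideal of `B` with contraction `≤ 𝔫` is `≤ 𝔪`, every `b ∉ 𝔪` divides an element of
`R ∖ 𝔫`, `Q B_𝔪 = v B_𝔪`, `𝔪 B_𝔪 = (v, γ s₀)`, `v` is prime in `B_𝔪` with `B_𝔪 / v` a principal ideal
ring, and `B_𝔪` is factorial.
-/

set_option autoImplicit false
set_option linter.unusedSectionVars false
set_option linter.style.haveILetI false

namespace Fermat.Agent.S36.R2.TriplePoint

open Fermat.Agent.N4.Cover.Globalize

variable {R B R₀ : Type*} [CommRing R] [IsDomain R] [IsIntegrallyClosed R]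
  [CommRing B] [IsDomain B] [Algebra R B] [FaithfulSMul R B] [Algebra.IsIntegral R B]
  [IsNoetherianRing B] [IsIntegrallyClosed B] [CommRing R₀]

/-- The hypotheses of (R2) at a crossing point `𝔫`. -/
structure TripleHyp (γ : R₀ →+* B) (𝔫 P : Ideal R) (Q : Ideal B) (P₀ : Ideal R₀)
    (q : ℕ) (u v : R) (s₀ : R₀) : Prop where
  le : P ≤ 𝔫
  only : ∀ Q' : Ideal B, Q'.IsPrime → Q'.comap (algebraMap R B) = P → Q' = Q
  comap_eq : Q.comap (algebraMap R B) = P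
  q_ne : q ≠ 0
  insep : ∀ b : B, ∃ r s : R, s ∉ P ∧ algebraMap R B s * b ^ q - algebraMap R B r ∈ Q
  u_mem : u ∈ 𝔫
  u_notMem : u ∉ P
  branch : ∀ x ∈ 𝔫, ∃ s c : R, s ∉ 𝔫 ∧ s * x - c * u ∈ P
  v_mem : v ∈ P
  v_ne : v ≠ 0
  gen : ∀ r ∈ P, ∃ s c : R, s ∉ 𝔫 ∧ s * r = c * v
  unif : ∀ b ∈ Q, ∃ s c : B, s ∉ Q ∧ s * b = c * algebraMap R B v
  comap_γ : ∀ t : R₀, γ t ∈ Q ↔ t ∈ P₀
  res : ∀ b : B, ∃ a t : R₀, t ∉ P₀ ∧ γ t * b - γ a ∈ Q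
  s₀_notMem : s₀ ∉ P₀
  s₀_mem : ∀ 𝔪 : Ideal B, 𝔪.IsPrime → 𝔪.comap (algebraMap R B) = 𝔫 → γ s₀ ∈ 𝔪
  branch₀ : ∀ 𝔪 : Ideal B, 𝔪.IsPrime → 𝔪.comap (algebraMap R B) = 𝔫 → ∀ a : R₀, a ∉ P₀ →
    ∃ (k : ℕ) (t e : R₀), γ t ∉ 𝔪 ∧ γ e ∉ 𝔪 ∧ t * a - e * s₀ ^ k ∈ P₀

variable {γ : R₀ →+* B} {𝔫 P : Ideal R} {Q : Ideal B} {P₀ : Ideal R₀} {q : ℕ} {u v : R} {s₀ : R₀}
  [h𝔫 : 𝔫.IsPrime] [hP : P.IsPrime] [hQ : Q.IsPrime]

namespace TripleHyp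

variable (H : TripleHyp γ 𝔫 P Q P₀ q u v s₀)

include H in
/-- the branch `R / P` is a discrete valuation ring at `𝔫` with uniformiser `u`. -/
theorem hbranch [IsNoetherianRing R] (F₁ : Type*) [Field F₁] [Algebra R F₁] [IsFractionRing R F₁]
    (r : R) (hr : r ∉ P) : ∃ (k : ℕ) (t e : R), t ∉ 𝔫 ∧ e ∉ 𝔫 ∧ t * r - e * u ^ k ∈ P :=
  PointDVR.exists_pow_mul_sub_mem 𝔫 P H.le H.u_mem H.branch F₁ r hr

variable [IsNoetherianRing R] (F₁ : Type*) [Field F₁] [Algebra R F₁] [IsFractionRing R F₁]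

include H F₁ in
/-- **Uniqueness of the point over the crossing point.** -/
theorem eq_of_comap_eq (𝔪 𝔪' : Ideal B) [𝔪.IsPrime] [𝔪'.IsPrime]
    (h𝔪 : 𝔪.comap (algebraMap R B) = 𝔫) (h𝔪' : 𝔪'.comap (algebraMap R B) = 𝔫) : 𝔪 = 𝔪' :=
  UniquePoint.eq_of_comap_eq 𝔫 P H.le Q H.only H.comap_eq H.q_ne H.insep H.u_mem H.u_notMem
    (H.hbranch F₁) 𝔪 𝔪' h𝔪 h𝔪'

variable (𝔪 : Ideal B) [h𝔪p : 𝔪.IsPrime] (h𝔪 : 𝔪.comap (algebraMap R B) = 𝔫)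

include H h𝔪 in
theorem le_point : Q ≤ 𝔪 := UniquePoint.le_of_comap_eq 𝔫 P H.le Q H.only 𝔪 h𝔪

include H F₁ h𝔪 in
/-- every component of `B` over a component of `R` through `𝔫` passes through `𝔪`. -/
theorem le_of_comap_le (I : Ideal B) (hI : I.comap (algebraMap R B) ≤ 𝔫) : I ≤ 𝔪 :=
  UniquePoint.le_of_comap_le 𝔫 P H.le Q H.only H.comap_eq H.q_ne H.insep H.u_mem H.u_notMem
    (H.hbranch F₁) 𝔪 h𝔪 I hI

include H F₁ h𝔪 in
/-- `B_𝔪 = B ⊗ R_𝔫`. -/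
theorem exists_mul_eq_algebraMap {b : B} (hb : b ∉ 𝔪) :
    ∃ (b' : B) (r : R), r ∉ 𝔫 ∧ b * b' = algebraMap R B r :=
  UniquePoint.exists_mul_eq_algebraMap 𝔫 P H.le Q H.only H.comap_eq H.q_ne H.insep H.u_mem
    H.u_notMem (H.hbranch F₁) 𝔪 h𝔪 hb

include H h𝔪 in
/-- `Q B_𝔪 = v B_𝔪`. -/
theorem principal (F : Type*) [Field F] [Algebra B F] [IsFractionRing B F] : ∀ b ∈ Q, ∃ s c : B, s ∉ 𝔪 ∧ s * b = c * algebraMap R B v :=
  PrincipalQ.exists_mul_eq_mul_of_mem 𝔫 P Q H.only 𝔪 h𝔪 H.v_mem H.v_ne H.gen H.unif F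

include H h𝔪 in
/-- `𝔪 B_𝔪 = (v, γ s₀)`. -/
theorem span_pair (F : Type*) [Field F] [Algebra B F] [IsFractionRing B F] : ∀ b ∈ 𝔪, ∃ t : B, t ∉ 𝔪 ∧ t * b ∈ Ideal.span {algebraMap R B v, γ s₀} :=
  fun b hb => Regular.exists_mul_mem_span_pair γ Q 𝔪 (H.le_point 𝔪 h𝔪) P₀ H.comap_γ H.res
    (H.s₀_mem 𝔪 h𝔪p h𝔪) H.s₀_notMem (H.branch₀ 𝔪 h𝔪p h𝔪) (H.principal 𝔪 h𝔪 F) b hb

variable (F : Type*) [Field F] [Algebra B F] [IsFractionRing B F]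

include H h𝔪 in
theorem algebraMap_v_mem : algebraMap R B v ∈ Q := by
  have : v ∈ Q.comap (algebraMap R B) := by rw [H.comap_eq]; exact H.v_mem
  exact this

include H in
theorem algebraMap_v_ne : algebraMap R B v ≠ 0 := fun h =>
  H.v_ne (FaithfulSMul.algebraMap_injective R B (by rw [h, map_zero]))

include H h𝔪 in
/-- `v` is a prime element of `B_𝔪` and `B_𝔪 / v` is a principal ideal ring. -/
theorem prime_and_pid :
    Prime (algebraMap B (locAt (F := F) 𝔪) (algebraMap R B v)) ∧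
      IsPrincipalIdealRing (locAt (F := F) 𝔪 ⧸
        Ideal.span {algebraMap B (locAt (F := F) 𝔪) (algebraMap R B v)}) :=
  Regular.prime_and_pid (F := F) Q 𝔪 (H.le_point 𝔪 h𝔪) (H.algebraMap_v_mem 𝔪 h𝔪) H.algebraMap_v_ne
    (H.principal 𝔪 h𝔪 F) (H.s₀_mem 𝔪 h𝔪p h𝔪) (H.span_pair 𝔪 h𝔪 F)

include H h𝔪 in
/-- **(R2)** the local ring of the chart `B` at the triple point is factorial. -/
theorem uniqueFactorizationMonoid : UniqueFactorizationMonoid (locAt (F := F) 𝔪) :=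
  Regular.uniqueFactorizationMonoid_locAt (F := F) Q 𝔪 (H.le_point 𝔪 h𝔪) (H.algebraMap_v_mem 𝔪 h𝔪)
    H.algebraMap_v_ne (H.principal 𝔪 h𝔪 F) (H.s₀_mem 𝔪 h𝔪p h𝔪) (H.span_pair 𝔪 h𝔪 F)

end TripleHyp

end Fermat.Agent.S36.R2.TriplePoint
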