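/-
S36 block [R2] final plug (helper21): **the (R-a) input `hUFD3` of the point dispatcher
`Descent/SpinePoints.hpt_of_blocks` on the finite chart of level `q² M₀`**: the local ring at a
triple point is factorial.

At a closed point `𝔫' ∋ π` of `Rfin K (M0 q q) O` lying on all three components, the contraction
`𝔫 = 𝔫' ∩ Rfin K (M0 q) O` along `α` is a crossing point of level `q M₀`
(`Points/ClassifyInst.crossing_alpha_of_triple`), block [R1] gives a regular crossing there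
(`Points/ClassifyTop.hcr_top`), and `R2/TripleFinal.ufd` along `(alphaR, alphaF)` concludes.
Same hypothesis vocabulary as `Points/ClassifyTop.hclass_top'`.
-/
import Mathlib
import Fermat.Agent.S36.Points.ClassifyTop

set_option autoImplicit false
set_option linter.unusedSectionVars false
set_option linter.unusedVariables false
set_option linter.style.haveILetI false

open ModularCurve Fermat.Agent.S28.Gauss Fermat.Agent.N4.Chart Fermat.Agent.N4.Setting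
  Fermat.Agent.N4.FibreEmbedding Fermat.Agent.N4F.E.GaussDVR Fermat.Agent.N4F.E.DegreeLevelRaise
  Fermat.Agent.P3G.SecondValuation Fermat.Agent.P3G.LevelIntegrality
  Fermat.Agent.N4.Cover.Globalize
  Fermat.Agent.S36.V.ThreeVal Fermat.Agent.S36.C.ThreeValCover
  Fermat.Agent.S36.Points.Classify Fermat.Agent.S36.Points.ClassifyChart
  Fermat.Agent.S36.Points.ClassifyInst Fermat.Agent.S36.Points.ClassifyTop
  Fermat.Agent.S36.Local.LocalRoot Fermat.Agent.S36.D.ChartRoots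
  Fermat.Agent.S36.R2.TripleHom Fermat.Agent.S36.R2.TripleGlue Fermat.Agent.S36.R2.ChartMaps

noncomputable section

namespace Fermat.Agent.S36.R2.TripleUfdTop

variable {K : Type} [Field K] [CharZero K] {M0 q : ℕ} [NeZero M0] [hq : Fact q.Prime]
  {O : Subring K} [IsDiscreteValuationRing ↥O] [IsFractionRing ↥O K]
  [CharP (IsLocalRing.ResidueField ↥O) q]
  {sv : SecondVal K M0 q O} (T : ThreeVal K M0 q O sv)
  [IsNoetherianRing ↥(Rfin K (M0 * q * q) O)]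
  [IsFractionRing ↥(Rfin K (M0 * q * q) O) (FF K (M0 * q * q))]

/-- **`hUFD3` of `SpinePoints.hpt_of_blocks`**, with the regular crossings of level `q M₀` (block
[R1]) as a hypothesis. -/
theorem hUFD3_of_crossing
    (hN : IsUnit ((M0 : ℕ) : ↥O))
    (hprime : (fibreIdeal K M0 O (Rfin K M0 O)).IsPrime)
    (hsmooth : IsDedekindDomain (↥(Rfin K M0 O) ⧸ fibreIdeal K M0 O (Rfin K M0 O)))
    (hA2 : ∀ x : ↥(gaussSubalgebra K M0 O),
      theta K M0 O x ∈ modularFunctionFieldFullC (IsLocalRing.ResidueField ↥O) M0)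
    (hIα : InsepData K M0 q O (alphaF K (M0 * q) q) sv.V T.V02 T.ev02)
    {ϖ : ↥O} (hϖ : Irreducible ϖ)
    (hcr : ∀ (𝔫 : Ideal ↥(Rfin K (M0 * q) O)) [𝔫.IsMaximal],
      (∀ k, centre (U2 K M0 q O sv k) (hU2 K M0 q O sv k) ≤ 𝔫) →
      ∃ u v : ↥(Rfin K (M0 * q) O), CrossingHyp 𝔫 (gaussVS K (M0 * q) O) sv.V u v)
    {hVp : ∀ i (r : ↥(Rfin K (M0 * q * q) O)),
      algebraMap ↥(Rfin K (M0 * q * q) O) (FF K (M0 * q * q)) r ∈ fam3 K M0 q O T.V11 T.V02 i}
    {π : ↥O} :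
    ∀ (𝔫 : Ideal ↥(Rfin K (M0 * q * q) O)) [𝔫.IsPrime], 𝔫.IsMaximal →
      algebraMap ↥O ↥(Rfin K (M0 * q * q) O) π ∈ 𝔫 →
      (∀ i, centre (fam3 K M0 q O T.V11 T.V02 i) (hVp i) ≤ 𝔫) →
      UniqueFactorizationMonoid (locAt (F := FF K (M0 * q * q)) 𝔫) := by
  intro 𝔫 _ hmax _ ht
  haveI := isNoetherianRing_Rfin K (M0 * q) O
  haveI := isFractionRing_Rfin K (M0 * q) O
  have hmα := chartMap_alphaR K (M0 * q) q O
  haveI := hmax
  haveI : (𝔫.comap
      (alphaR K (M0 * q) q O : ↥(Rfin K (M0 * q) O) →+* ↥(Rfin K (M0 * q * q) O))).IsMaximal :=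
    Ideal.isMaximal_comap_of_isIntegral_of_isMaximal' _ hmα.integral 𝔫
  obtain ⟨u, v, hcr'⟩ := hcr _ (crossing_alpha_of_triple T ht)
  exact Fermat.Agent.S36.R2.TripleFinal.ufd K M0 q O hN hprime hsmooth hA2 hmα hIα
    hcr' hϖ (Fermat.Agent.S36.V.CountAlong.secondVal_unif_mem_nonunits sv hϖ) 𝔫 le_rfl

/-- **`hUFD3` of `SpinePoints.hpt_of_blocks`, [R1] and [R2] discharged.** -/
theorem hUFD3_top [PerfectRing (IsLocalRing.ResidueField ↥O) q]
    (hN : IsUnit ((M0 : ℕ) : ↥O)) (ι : K →+* ℂ) (hqM0 : ¬ q ∣ M0)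
    (hprime : (fibreIdeal K M0 O (Rfin K M0 O)).IsPrime)
    (hsmooth : IsDedekindDomain (↥(Rfin K M0 O) ⧸ fibreIdeal K M0 O (Rfin K M0 O)))
    (hA2 : ∀ x : ↥(gaussSubalgebra K M0 O),
      theta K M0 O x ∈ modularFunctionFieldFullC (IsLocalRing.ResidueField ↥O) M0)
    (hIα : InsepData K M0 q O (alphaF K (M0 * q) q) sv.V T.V02 T.ev02)
    {ϖ : ↥O} (hϖ : Irreducible ϖ) (hunr : Associated (((q : ℕ) : ↥O)) ϖ)
    (hodd : q ≠ 2 → 2 * 2 ∣ M0) (heven : q = 2 → 9 ∣ M0)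
    {hVp : ∀ i (r : ↥(Rfin K (M0 * q * q) O)),
      algebraMap ↥(Rfin K (M0 * q * q) O) (FF K (M0 * q * q)) r ∈ fam3 K M0 q O T.V11 T.V02 i}
    {π : ↥O} :
    ∀ (𝔫 : Ideal ↥(Rfin K (M0 * q * q) O)) [𝔫.IsPrime], 𝔫.IsMaximal →
      algebraMap ↥O ↥(Rfin K (M0 * q * q) O) π ∈ 𝔫 →
      (∀ i, centre (fam3 K M0 q O T.V11 T.V02 i) (hVp i) ≤ 𝔫) →
      UniqueFactorizationMonoid (locAt (F := FF K (M0 * q * q)) 𝔫) :=
  hUFD3_of_crossing T hN hprime hsmooth hA2 hIα hϖ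
    (hcr_top hN ι hqM0 hprime hsmooth hA2 sv hϖ hunr hodd heven)

end Fermat.Agent.S36.R2.TripleUfdTop
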